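import Mathlib
import Fermat.Prelude.Def_FLTPrelim_Ramification

/-! Elementwise description of the inertia subgroup of a valuation subring. -/

set_option autoImplicit false

open scoped Pointwise

namespace Fermat.Agent.S05

open ValuationSubring IsLocalRing

variable {k K : Type*} [Field k] [Field K] [Algebra k K] (A : ValuationSubring K)

lemma mem_inertiaSubgroupIn_iff (σ : K ≃ₐ[k] K) :
    σ ∈ A.inertiaSubgroupIn k ↔ ∃ h : σ ∈ A.decompositionSubgroup k,
      (⟨σ, h⟩ : A.decompositionSubgroup k) ∈ A.inertiaSubgroup k := by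
  unfold ValuationSubring.inertiaSubgroupIn
  rw [Subgroup.mem_map]
  constructor
  · rintro ⟨τ, hτ, rfl⟩
    exact ⟨τ.2, hτ⟩
  · rintro ⟨h, hσ⟩
    exact ⟨⟨σ, h⟩, hσ, rfl⟩

variable {A} {σ : K ≃ₐ[k] K}

lemma smul_eq_of_mem_inertiaSubgroupIn (hσ : σ ∈ A.inertiaSubgroupIn k) : σ • A = A := by
  obtain ⟨h, -⟩ := (mem_inertiaSubgroupIn_iff A σ).mp hσ
  exact h

lemma apply_mem_iff_of_mem_inertiaSubgroupIn (hσ : σ ∈ A.inertiaSubgroupIn k) (x : K) :
    σ x ∈ A ↔ x ∈ A := by
  have h := smul_eq_of_mem_inertiaSubgroupIn hσ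
  have h1 : σ x ∈ σ • A ↔ x ∈ A := ValuationSubring.smul_mem_pointwise_smul_iff (g := σ)
  rw [h] at h1
  exact h1

lemma valuation_apply_le_one_iff (hσ : σ ∈ A.inertiaSubgroupIn k) (x : K) :
    A.valuation (σ x) ≤ 1 ↔ A.valuation x ≤ 1 := by
  rw [ValuationSubring.valuation_le_one_iff, ValuationSubring.valuation_le_one_iff]
  exact apply_mem_iff_of_mem_inertiaSubgroupIn hσ x

/-- An automorphism stabilising `A` is monotone for the valuation. -/
lemma valuation_apply_le_of_le (hσ : σ • A = A) {x y : K}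
    (h : A.valuation x ≤ A.valuation y) : A.valuation (σ x) ≤ A.valuation (σ y) := by
  rw [ValuationSubring.valuation_le_iff] at h ⊢
  obtain ⟨a, ha⟩ := h
  have h1 : σ (a : K) ∈ σ • A := ValuationSubring.smul_mem_pointwise_smul σ _ A a.2
  rw [hσ] at h1
  exact ⟨⟨σ (a : K), h1⟩, by rw [← ha, map_mul]⟩

lemma valuation_apply_lt_of_lt (hσ : σ • A = A) {x y : K}
    (h : A.valuation x < A.valuation y) : A.valuation (σ x) < A.valuation (σ y) := by
  rw [lt_iff_not_ge] at h ⊢
  intro h1
  apply h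
  have hσ' : σ⁻¹ • A = A := by
    conv_lhs => rw [← hσ]
    rw [inv_smul_smul]
  have := valuation_apply_le_of_le hσ' h1
  simpa using this

lemma valuation_pow_apply_lt (hσ : σ • A = A) {x : K}
    (h : A.valuation (σ x) < A.valuation x) (n : ℕ) :
    A.valuation ((σ ^ (n + 1)) x) < A.valuation x := by
  induction n with
  | zero => simpa using h
  | succ n ih =>
    have h1 : A.valuation (σ ((σ ^ (n + 1)) x)) < A.valuation (σ x) :=
      valuation_apply_lt_of_lt hσ ih
    have h2 : (σ ^ (n + 1 + 1)) x = σ ((σ ^ (n + 1)) x) := by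
      rw [pow_succ' σ (n + 1)]; rfl
    rw [h2]
    exact h1.trans h

lemma valuation_lt_pow_apply (hσ : σ • A = A) {x : K}
    (h : A.valuation x < A.valuation (σ x)) (n : ℕ) :
    A.valuation x < A.valuation ((σ ^ (n + 1)) x) := by
  induction n with
  | zero => simpa using h
  | succ n ih =>
    have h1 : A.valuation (σ x) < A.valuation (σ ((σ ^ (n + 1)) x)) :=
      valuation_apply_lt_of_lt hσ ih
    have h2 : (σ ^ (n + 1 + 1)) x = σ ((σ ^ (n + 1)) x) := by
      rw [pow_succ' σ (n + 1)]; rfl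
    rw [h2]
    exact h.trans h1

/-- Every element of an algebraic extension is fixed by a positive power of `σ`. -/
lemma exists_pow_apply_eq [Algebra.IsAlgebraic k K] (σ : K ≃ₐ[k] K) (x : K) :
    ∃ n : ℕ, (σ ^ (n + 1)) x = x := by
  have hfin : ((minpoly k x).rootSet K).Finite := Polynomial.rootSet_finite _ K
  have hx : IsIntegral k x := (Algebra.IsAlgebraic.isAlgebraic x).isIntegral
  have hmem : ∀ n : ℕ, (σ ^ n) x ∈ (minpoly k x).rootSet K := by
    intro n
    rw [Polynomial.mem_rootSet]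
    refine ⟨minpoly.ne_zero hx, ?_⟩
    have : Polynomial.aeval ((σ ^ n) x) (minpoly k x) =
        (σ ^ n) (Polynomial.aeval x (minpoly k x)) :=
      (Polynomial.aeval_algHom_apply ((σ ^ n : K ≃ₐ[k] K) : K →ₐ[k] K) x _)
    rw [this, minpoly.aeval, map_zero]
  have := hfin.to_subtype
  obtain ⟨a, b, hab, heq⟩ := Finite.exists_ne_map_eq_of_infinite
    (fun n : ℕ => (⟨(σ ^ n) x, hmem n⟩ : (minpoly k x).rootSet K))
  have heq' : (σ ^ a) x = (σ ^ b) x := congrArg Subtype.val heq
  wlog hlt : a < b generalizing a b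
  · exact this b a hab.symm heq.symm heq'.symm (lt_of_le_of_ne (not_lt.mp hlt) hab.symm)
  obtain ⟨d, rfl⟩ := Nat.exists_eq_add_of_lt hlt
  refine ⟨d, ?_⟩
  have h1 : (σ ^ (a + d + 1)) x = (σ ^ a) ((σ ^ (d + 1)) x) := by
    rw [show a + d + 1 = a + (d + 1) by ring, pow_add]; rfl
  rw [h1] at heq'
  exact ((σ ^ a).injective heq').symm

/-- An automorphism of an algebraic extension stabilising `A` preserves the valuation. -/
theorem valuation_apply_eq_of_smul_eq [Algebra.IsAlgebraic k K] (hσ : σ • A = A) (x : K) :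
    A.valuation (σ x) = A.valuation x := by
  obtain ⟨n, hn⟩ := exists_pow_apply_eq σ x
  rcases lt_trichotomy (A.valuation (σ x)) (A.valuation x) with h | h | h
  · have := valuation_pow_apply_lt hσ h n
    rw [hn] at this
    exact absurd this (lt_irrefl _)
  · exact h
  · have := valuation_lt_pow_apply hσ h n
    rw [hn] at this
    exact absurd this (lt_irrefl _)

theorem valuation_apply_eq [Algebra.IsAlgebraic k K] (hσ : σ ∈ A.inertiaSubgroupIn k) (x : K) :
    A.valuation (σ x) = A.valuation x :=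
  valuation_apply_eq_of_smul_eq (smul_eq_of_mem_inertiaSubgroupIn hσ) x

/-- Inertia acts trivially modulo the maximal ideal. -/
theorem valuation_apply_sub_lt_one (hσ : σ ∈ A.inertiaSubgroupIn k) {a : K} (ha : a ∈ A) :
    A.valuation (σ a - a) < 1 := by
  obtain ⟨h, hI⟩ := (mem_inertiaSubgroupIn_iff A σ).mp hσ
  have h1 : MulSemiringAction.toRingAut (A.decompositionSubgroup k) (ResidueField A) ⟨σ, h⟩ = 1 :=
    hI
  have h2 : (⟨σ, h⟩ : A.decompositionSubgroup k) • residue A ⟨a, ha⟩ = residue A ⟨a, ha⟩ := by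
    have := congrArg (fun f : RingAut (ResidueField A) => f (residue A ⟨a, ha⟩)) h1
    simpa using this
  rw [← IsLocalRing.ResidueField.residue_smul, ← sub_eq_zero, ← map_sub, residue_eq_zero_iff,
    ValuationSubring.valuation_lt_one_iff] at h2
  exact h2

theorem apply_sub_mem_nonunits (hσ : σ ∈ A.inertiaSubgroupIn k) {a : K} (ha : a ∈ A) :
    σ a - a ∈ A.nonunits :=
  (A.mem_nonunits_iff).mpr (valuation_apply_sub_lt_one hσ ha)

/-- The case of the absolute Galois group of `ℚ`. -/
theorem valuation_apply_eq_rat {A : ValuationSubring (AlgebraicClosure ℚ)}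
    {σ : AlgebraicClosure ℚ ≃ₐ[ℚ] AlgebraicClosure ℚ} (hσ : σ ∈ A.inertiaSubgroupIn ℚ)
    (x : AlgebraicClosure ℚ) : A.valuation (σ x) = A.valuation x := by
  have : Algebra.IsAlgebraic ℚ (AlgebraicClosure ℚ) := AlgebraicClosure.isAlgebraic ℚ
  exact valuation_apply_eq hσ x

end Fermat.Agent.S05
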