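import Mathlib
import Fermat.Agent.S51.GroupLaw

/-!
# x-coordinate ("Kummer line") identities for the Mathlib group law

General Weierstrass curve `W` over a field of characteristic zero, coordinates `x` and
`η = 2 y + a₁ x + a₃` (so that `η ^ 2 = 4 x ^ 3 + b₂ x ^ 2 + 2 b₄ x + b₆`).
-/

set_option autoImplicit false
set_option linter.unusedSectionVars false

namespace Fermat.Agent.S05

open WeierstrassCurve WeierstrassCurve.Affine
open Fermat.Agent.S51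

variable {F : Type*} [Field F] [DecidableEq F] [CharZero F] (W : WeierstrassCurve F)

/-- the `η`-coordinate `2 y + a₁ x + a₃` of a point (`none` for the point at infinity) -/
def peta : W.toAffine.Point → Option F
  | .zero => none
  | .some x y _ => some (2 * y + W.a₁ * x + W.a₃)

variable {W}

@[simp] lemma peta_zero : peta W (0 : W.toAffine.Point) = none := rfl

@[simp] lemma peta_some {x y : F} (h : W.toAffine.Nonsingular x y) :
    peta W (Point.some x y h) = some (2 * y + W.a₁ * x + W.a₃) := rfl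

lemma peta_eq_none_iff {P : W.toAffine.Point} : peta W P = none ↔ P = 0 := by
  cases P with
  | zero => exact ⟨fun _ => rfl, fun _ => rfl⟩
  | some x y h =>
    exact ⟨fun h' => (by simp [peta] at h'), fun h' => absurd h' (Point.some_ne_zero h)⟩

/-- a nonzero point has an `η`-coordinate, whose square is the cubic `cf` in `x` -/
lemma exists_peta_of_px {P : W.toAffine.Point} {x : F} (hP : px W P = some x) :
    ∃ η : F, peta W P = some η ∧ η ^ 2 = cf W.b₂ W.b₄ W.b₆ x := by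
  obtain ⟨y, h, rfl⟩ := exists_of_px_eq_some hP
  exact ⟨_, rfl, (cf_eq_sq W h.1).symm⟩

lemma peta_sq {P : W.toAffine.Point} {x η : F} (hP : px W P = some x)
    (hη : peta W P = some η) : η ^ 2 = cf W.b₂ W.b₄ W.b₆ x := by
  obtain ⟨η', h1, h2⟩ := exists_peta_of_px hP
  rw [hη] at h1
  cases h1
  exact h2

lemma peta_neg (P : W.toAffine.Point) : peta W (-P) = (peta W P).map (fun e => -e) := by
  cases P with
  | zero => rfl
  | some x y h =>
    simp only [Point.neg_some, peta_some, Option.map_some, Affine.negY]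
    congr 1
    ring

lemma peta_neg_of_some {P : W.toAffine.Point} {η : F} (hη : peta W P = some η) :
    peta W (-P) = some (-η) := by
  rw [peta_neg, hη]; rfl

/-- a point is determined by its `x`- and `η`-coordinates -/
lemma eq_of_px_peta {P Q : W.toAffine.Point} (hx : px W P = px W Q)
    (hη : peta W P = peta W Q) : P = Q := by
  cases P with
  | zero =>
    exact (px_eq_none_iff.mp hx.symm).symm
  | some x y h =>
    cases Q with
    | zero => simp [← Point.zero_def] at hx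
    | some x' y' h' =>
      simp only [px_some, Option.some.injEq] at hx
      subst hx
      simp only [peta_some, Option.some.injEq] at hη
      have : y = y' := by
        have h2 : (2 : F) ≠ 0 := two_ne_zero
        apply mul_left_cancel₀ h2
        linear_combination hη
      subst this
      rfl

/-- `P + P = 0` iff `η = 0`. -/
lemma add_self_eq_zero_iff_peta {P : W.toAffine.Point} {η : F} (hη : peta W P = some η) :
    P + P = 0 ↔ η = 0 := by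
  cases P with
  | zero => simp [← Point.zero_def] at hη
  | some x y h =>
    simp only [peta_some, Option.some.injEq] at hη
    rw [add_self_eq_zero_iff (x := x) rfl, cf_eq_sq W h.1, hη]
    simp

/-- **General addition formula** (distinct `x`-coordinates), in `(x, η)`-coordinates. -/
theorem px_add_of_ne {P Q : W.toAffine.Point} {x₁ x₂ η₁ η₂ : F}
    (hP : px W P = some x₁) (hQ : px W Q = some x₂)
    (hη₁ : peta W P = some η₁) (hη₂ : peta W Q = some η₂) (hne : x₁ ≠ x₂) :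
    ∃ x₃ : F, px W (P + Q) = some x₃ ∧
      4 * x₃ * (x₁ - x₂) ^ 2 = (η₁ - η₂) ^ 2 - (W.b₂ + 4 * x₁ + 4 * x₂) * (x₁ - x₂) ^ 2 := by
  obtain ⟨y₁, h₁, rfl⟩ := exists_of_px_eq_some hP
  obtain ⟨y₂, h₂, rfl⟩ := exists_of_px_eq_some hQ
  simp only [peta_some, Option.some.injEq] at hη₁ hη₂
  rw [Point.add_of_X_ne hne]
  refine ⟨_, rfl, ?_⟩
  rw [Affine.slope_of_X_ne hne]
  have hd : x₁ - x₂ ≠ 0 := sub_ne_zero.mpr hne
  simp only [Affine.addX, WeierstrassCurve.b₂]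
  rw [← hη₁, ← hη₂]
  field_simp
  ring

/-- the same for `P - Q` -/
theorem px_sub_of_ne {P Q : W.toAffine.Point} {x₁ x₂ η₁ η₂ : F}
    (hP : px W P = some x₁) (hQ : px W Q = some x₂)
    (hη₁ : peta W P = some η₁) (hη₂ : peta W Q = some η₂) (hne : x₁ ≠ x₂) :
    ∃ x₄ : F, px W (P - Q) = some x₄ ∧
      4 * x₄ * (x₁ - x₂) ^ 2 = (η₁ + η₂) ^ 2 - (W.b₂ + 4 * x₁ + 4 * x₂) * (x₁ - x₂) ^ 2 := by
  rw [sub_eq_add_neg]
  have := px_add_of_ne (Q := -Q) hP (by rw [px_neg]; exact hQ) hη₁ (peta_neg_of_some hη₂) hne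
  simpa [sub_neg_eq_add] using this


/-! ### Identities relative to a 2-torsion abscissa `t`

`X := x - t`, `B2 := b₂ + 12 t`, `B4 := 6 t ^ 2 + b₂ t + b₄`, so that
`η ^ 2 = 4 X ^ 3 + B2 X ^ 2 + 2 B4 X`. (Legendre coordinates `X_h = 4 X`, `Y_h = 4 η`,
`A2 = B2`, `A4 = 8 B4`.) -/

/-- shifted `b₂` -/
def sB2 (W : WeierstrassCurve F) (t : F) : F := W.b₂ + 12 * t

/-- shifted `b₄` -/
def sB4 (W : WeierstrassCurve F) (t : F) : F := 6 * t ^ 2 + W.b₂ * t + W.b₄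

lemma cf_shift {t : F} (ht : cf W.b₂ W.b₄ W.b₆ t = 0) (x : F) :
    cf W.b₂ W.b₄ W.b₆ x =
      4 * (x - t) ^ 3 + sB2 W t * (x - t) ^ 2 + 2 * sB4 W t * (x - t) := by
  simp only [cf, sB2, sB4] at *
  linear_combination ht

/-- the curve equation in shifted coordinates -/
lemma peta_sq_shift {t : F} (ht : cf W.b₂ W.b₄ W.b₆ t = 0) {P : W.toAffine.Point} {x η : F}
    (hP : px W P = some x) (hη : peta W P = some η) :
    η ^ 2 = 4 * (x - t) ^ 3 + sB2 W t * (x - t) ^ 2 + 2 * sB4 W t * (x - t) := by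
  rw [peta_sq hP hη, cf_shift ht]

/-- **(F1)** duplication: `4 X(2P) η² = (2 X² - B4)²`. -/
theorem F1 {t : F} (ht : cf W.b₂ W.b₄ W.b₆ t = 0) {P : W.toAffine.Point} {x η : F}
    (hP : px W P = some x) (hη : peta W P = some η) (hη0 : η ≠ 0) :
    ∃ x' : F, px W (P + P) = some x' ∧
      4 * (x' - t) * η ^ 2 = (2 * (x - t) ^ 2 - sB4 W t) ^ 2 := by
  have hsq := peta_sq hP hη
  have hf : cf W.b₂ W.b₄ W.b₆ x ≠ 0 := by rw [← hsq]; exact pow_ne_zero 2 hη0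
  refine ⟨_, px_add_self hP hf, ?_⟩
  rw [hsq]
  simp only [cdbl]
  field_simp
  simp only [cf, cq, sB4] at *
  linear_combination (-(8 * x + 4 * t + W.b₂)) * ht

/-- **(F2)+(F3)+(F4)**: for `x₁ ≠ x₂` the points `P + Q`, `P - Q` are affine and
their shifted abscissas `X₃`, `X₄` satisfy the product, sum and `η`-formulas. -/
theorem F234 {t : F} (ht : cf W.b₂ W.b₄ W.b₆ t = 0) {P Q : W.toAffine.Point} {x₁ x₂ η₁ η₂ : F}
    (hP : px W P = some x₁) (hQ : px W Q = some x₂)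
    (hη₁ : peta W P = some η₁) (hη₂ : peta W Q = some η₂) (hne : x₁ ≠ x₂) :
    ∃ x₃ x₄ : F, px W (P + Q) = some x₃ ∧ px W (P - Q) = some x₄ ∧
      -- (F2)
      4 * ((x₃ - t) * (x₄ - t) * (x₁ - x₂) ^ 2) = (2 * ((x₁ - t) * (x₂ - t)) - sB4 W t) ^ 2 ∧
      -- (F3)
      ((x₃ - t) + (x₄ - t)) * (x₁ - x₂) ^ 2 =
        2 * ((x₁ - t) * (x₂ - t)) * ((x₁ - t) + (x₂ - t)) + sB2 W t * ((x₁ - t) * (x₂ - t)) +
          sB4 W t * ((x₁ - t) + (x₂ - t)) ∧
      -- (F4) for `P + Q`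
      4 * (x₃ - t) * (x₁ - t) * (x₂ - t) * (x₁ - x₂) ^ 2 = (η₁ * (x₂ - t) - η₂ * (x₁ - t)) ^ 2 ∧
      -- (F4) for `P - Q`
      4 * (x₄ - t) * (x₁ - t) * (x₂ - t) * (x₁ - x₂) ^ 2 = (η₁ * (x₂ - t) + η₂ * (x₁ - t)) ^ 2 := by
  obtain ⟨x₃, h3, e3⟩ := px_add_of_ne hP hQ hη₁ hη₂ hne
  obtain ⟨x₄, h4, e4⟩ := px_sub_of_ne hP hQ hη₁ hη₂ hne
  have s1 := peta_sq_shift ht hP hη₁
  have s2 := peta_sq_shift ht hQ hη₂
  have hd : x₁ - x₂ ≠ 0 := sub_ne_zero.mpr hne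
  have hd2 : (x₁ - x₂) ^ 2 ≠ 0 := pow_ne_zero 2 hd
  -- abbreviations
  set X₁ := x₁ - t with hX₁
  set X₂ := x₂ - t with hX₂
  have hxx : x₁ - x₂ = X₁ - X₂ := by rw [hX₁, hX₂]; ring
  have e3' : 4 * (x₃ - t) * (X₁ - X₂) ^ 2 =
      (η₁ - η₂) ^ 2 - (sB2 W t + 4 * X₁ + 4 * X₂) * (X₁ - X₂) ^ 2 := by
    rw [← hxx]; simp only [sB2, hX₁, hX₂]; linear_combination e3
  have e4' : 4 * (x₄ - t) * (X₁ - X₂) ^ 2 =
      (η₁ + η₂) ^ 2 - (sB2 W t + 4 * X₁ + 4 * X₂) * (X₁ - X₂) ^ 2 := by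
    rw [← hxx]; simp only [sB2, hX₁, hX₂]; linear_combination e4
  rw [hxx] at hd2 ⊢
  set B2 := sB2 W t
  set B4 := sB4 W t
  set X₃ := x₃ - t
  set X₄ := x₄ - t
  refine ⟨x₃, x₄, h3, h4, ?_, ?_, ?_, ?_⟩
  · -- (F2): multiply by `4 (X₁-X₂)^2`
    apply mul_left_cancel₀ (mul_ne_zero (by norm_num : (4 : F) ≠ 0) hd2)
    linear_combination (4 * X₄ * (X₁ - X₂) ^ 2) * e3' +
      ((η₁ - η₂) ^ 2 - (B2 + 4 * X₁ + 4 * X₂) * (X₁ - X₂) ^ 2) * e4' +
      (η₁ ^ 2 - η₂ ^ 2 + (4 * X₁ ^ 3 + B2 * X₁ ^ 2 + 2 * B4 * X₁) -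
        (4 * X₂ ^ 3 + B2 * X₂ ^ 2 + 2 * B4 * X₂) -
        2 * ((B2 + 4 * X₁ + 4 * X₂) * (X₁ - X₂) ^ 2)) * s1 +
      (-(η₁ ^ 2 - η₂ ^ 2 + (4 * X₁ ^ 3 + B2 * X₁ ^ 2 + 2 * B4 * X₁) -
        (4 * X₂ ^ 3 + B2 * X₂ ^ 2 + 2 * B4 * X₂)) -
        2 * ((B2 + 4 * X₁ + 4 * X₂) * (X₁ - X₂) ^ 2)) * s2
  · -- (F3)
    linear_combination (1 / 4 : F) * e3' + (1 / 4 : F) * e4' + (1 / 2 : F) * s1 + (1 / 2 : F) * s2
  · -- (F4) for `P + Q`
    linear_combination (X₁ * X₂) * e3' + ((X₁ - X₂) * X₂) * s1 - ((X₁ - X₂) * X₁) * s2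
  · -- (F4) for `P - Q`
    linear_combination (X₁ * X₂) * e4' + ((X₁ - X₂) * X₂) * s1 - ((X₁ - X₂) * X₁) * s2

end Fermat.Agent.S05
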