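import Fermat.Prelude.Def_FLTPrelim_GaloisRep
import Fermat.Agent.S05.XLaw

/-!
# Galois equivariance of the `x`- and `η`-coordinates
-/

set_option autoImplicit false

namespace Fermat.Agent.S05

open WeierstrassCurve WeierstrassCurve.Affine
open Fermat.Agent.S51

local notation "Qbar" => AlgebraicClosure ℚ

theorem px_galois (E : WeierstrassCurve ℚ) (σ : Qbar ≃ₐ[ℚ] Qbar)
    (P : (E⁄Qbar).toAffine.Point) :
    px (E⁄Qbar) (σ • P) = (px (E⁄Qbar) P).map σ := by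
  cases P with
  | zero => rfl
  | some x y h => rfl

theorem peta_galois (E : WeierstrassCurve ℚ) (σ : Qbar ≃ₐ[ℚ] Qbar)
    (P : (E⁄Qbar).toAffine.Point) :
    peta (E⁄Qbar) (σ • P) = (peta (E⁄Qbar) P).map σ := by
  cases P with
  | zero => rfl
  | some x y h =>
    have h1 : σ ((E⁄Qbar).a₁) = (E⁄Qbar).a₁ := by
      simp [WeierstrassCurve.baseChange]
    have h3 : σ ((E⁄Qbar).a₃) = (E⁄Qbar).a₃ := by
      simp [WeierstrassCurve.baseChange]
    change some (2 * σ y + (E⁄Qbar).a₁ * σ x + (E⁄Qbar).a₃) =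
      some (σ (2 * y + (E⁄Qbar).a₁ * x + (E⁄Qbar).a₃))
    congr 1
    simp only [map_add, map_mul, h1, h3, map_ofNat]

/-- the invariants of the base change are Galois-fixed -/
theorem galois_b₂ (E : WeierstrassCurve ℚ) (σ : Qbar ≃ₐ[ℚ] Qbar) :
    σ ((E⁄Qbar).b₂) = (E⁄Qbar).b₂ := by
  simp [WeierstrassCurve.baseChange, WeierstrassCurve.map_b₂]

theorem galois_b₄ (E : WeierstrassCurve ℚ) (σ : Qbar ≃ₐ[ℚ] Qbar) :
    σ ((E⁄Qbar).b₄) = (E⁄Qbar).b₄ := by
  simp [WeierstrassCurve.baseChange, WeierstrassCurve.map_b₄]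

theorem galois_b₆ (E : WeierstrassCurve ℚ) (σ : Qbar ≃ₐ[ℚ] Qbar) :
    σ ((E⁄Qbar).b₆) = (E⁄Qbar).b₆ := by
  simp [WeierstrassCurve.baseChange, WeierstrassCurve.map_b₆]

end Fermat.Agent.S05
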