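import Fermat.Agent.S05.Congr
import Fermat.Agent.S05.XLawGalois
import Fermat.Agent.S05.Inertia

/-!
# Inertia moves an integral point with nonsingular reduction by a point of the kernel of reduction
-/

set_option autoImplicit false

namespace Fermat.Agent.S05

open WeierstrassCurve WeierstrassCurve.Affine
open Fermat.Agent.S51

local notation "Qbar" => AlgebraicClosure ℚ

/-- (K2) Let `σ` be in the inertia group of the valuation subring `A` of `ℚ̄` (with `2` a unit
of `A`), `E/ℚ` a Weierstrass curve whose `b`-invariants are `A`-integral, and `P` a point of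
`E(ℚ̄)` with integral abscissa `x` whose reduction is nonsingular (`η` is a unit or the derivative
of the 2-division cubic at `x` is a unit). Then `σ P - P` lies in the kernel of reduction. -/
theorem smul_sub_inKer (E : WeierstrassCurve ℚ) (A : ValuationSubring Qbar)
    (h2 : A.valuation (2 : Qbar) = 1)
    (hb2 : (E⁄Qbar).b₂ ∈ A) (hb4 : (E⁄Qbar).b₄ ∈ A) (hb6 : (E⁄Qbar).b₆ ∈ A)
    {σ : Qbar ≃ₐ[ℚ] Qbar} (hσ : σ ∈ A.inertiaSubgroupIn ℚ)
    {P : (E⁄Qbar).toAffine.Point} {x η : Qbar}
    (hP : px (E⁄Qbar) P = some x) (hη : peta (E⁄Qbar) P = some η) (hx : x ∈ A)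
    (hns : A.valuation η = 1 ∨ A.valuation (cf1 (E⁄Qbar).b₂ (E⁄Qbar).b₄ x) = 1) :
    InKer A (E⁄Qbar) (σ • P - P) := by
  have hηA : η ∈ A := peta_mem hb2 hb4 hb6 hP hη hx
  have hP' : px (E⁄Qbar) (σ • P) = some (σ x) := by rw [px_galois, hP]; rfl
  have hη' : peta (E⁄Qbar) (σ • P) = some (σ η) := by rw [peta_galois, hη]; rfl
  exact sub_inKer_of_congr h2 hb2 hb4 hb6 hP hη hP' hη' hx
    (valuation_apply_sub_lt_one hσ hx) (valuation_apply_sub_lt_one hσ hηA) hns

end Fermat.Agent.S05
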