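import Fermat.Agent.S05.Defs

set_option autoImplicit false
set_option linter.unusedSectionVars false

/-!
S05, piece O: the `ℚ`-valued additive valuation attached to a valuation subring `A` of a field
`K` algebraic over `ℚ` with a prime number `q` in the maximal ideal, normalised by `ord q = 1`.
For `x ≠ 0` there are `n > 0`, `k : ℤ` with `v x ^ n = v q ^ k`; `ord x := k / n`.
-/

namespace Fermat.Agent.S05

open ValuationSubring

namespace OrdC

variable {K : Type*} [Field K] [CharZero K] (A : ValuationSubring K) {q : ℕ}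

lemma val_q_lt_one (hA : (q : K) ∈ A.nonunits) : A.valuation (q : K) < 1 :=
  A.mem_nonunits_iff.mp hA

lemma val_q_pos (hq : q.Prime) : 0 < A.valuation (q : K) := by
  rw [Valuation.pos_iff]
  exact_mod_cast hq.ne_zero

lemma val_q_ne_zero (hq : q.Prime) : A.valuation (q : K) ≠ 0 := (val_q_pos A hq).ne'

lemma val_int_le_one (z : ℤ) : A.valuation (z : K) ≤ 1 :=
  (A.valuation_le_one_iff _).mpr (intCast_mem A z)

/-- integers prime to `q` are units of `A` -/
lemma val_int_of_not_dvd (hq : q.Prime) (hA : (q : K) ∈ A.nonunits) {z : ℤ}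
    (hz : ¬ (q : ℤ) ∣ z) : A.valuation (z : K) = 1 := by
  have hcop : IsCoprime z (q : ℤ) := by
    have hp : Prime (q : ℤ) := Nat.prime_iff_prime_int.mp hq
    exact (hp.coprime_iff_not_dvd.mpr hz).symm
  obtain ⟨u, w, huw⟩ := hcop
  have h1 : (u : K) * (z : K) = 1 - (w : K) * (q : K) := by
    have : ((u * z + w * q : ℤ) : K) = 1 := by rw [huw]; simp
    push_cast at this
    linear_combination this
  have h2 : A.valuation ((w : K) * (q : K)) < 1 := by
    rw [map_mul]
    calc A.valuation (w : K) * A.valuation (q : K) ≤ 1 * A.valuation (q : K) :=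
          mul_le_mul_left (val_int_le_one A w) _
      _ = A.valuation (q : K) := one_mul _
      _ < 1 := val_q_lt_one A hA
  have h3 : A.valuation ((u : K) * (z : K)) = 1 := by
    rw [h1]
    exact Valuation.map_one_sub_of_lt _ h2
  rw [map_mul] at h3
  refine le_antisymm (val_int_le_one A z) ?_
  by_contra hlt
  rw [not_le] at hlt
  have : A.valuation (u : K) * A.valuation (z : K) < 1 := by
    calc A.valuation (u : K) * A.valuation (z : K) ≤ 1 * A.valuation (z : K) :=
          mul_le_mul_left (val_int_le_one A u) _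
      _ = A.valuation (z : K) := one_mul _
      _ < 1 := hlt
  rw [h3] at this
  exact lt_irrefl _ this

/-- the valuation of a nonzero integer is a power of `v q` -/
lemma val_int_eq_pow (hq : q.Prime) (hA : (q : K) ∈ A.nonunits) {z : ℤ} (hz : z ≠ 0) :
    ∃ e : ℕ, A.valuation (z : K) = A.valuation (q : K) ^ e := by
  obtain ⟨e, n', hn', he⟩ := Nat.exists_eq_pow_mul_and_not_dvd (Int.natAbs_ne_zero.mpr hz) q
    hq.ne_one
  refine ⟨e, ?_⟩
  have h1 : A.valuation (z : K) = A.valuation ((z.natAbs : ℤ) : K) := by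
    rcases Int.natAbs_eq z with h | h
    · rw [← h]
    · conv_lhs => rw [h]
      rw [Int.cast_neg, Valuation.map_neg]
  rw [h1, he]
  push_cast
  rw [map_mul, map_pow]
  have h2 : A.valuation ((n' : ℤ) : K) = 1 := by
    apply val_int_of_not_dvd A hq hA
    exact_mod_cast hn'
  rw [Int.cast_natCast] at h2
  rw [h2, mul_one]

variable [Algebra.IsAlgebraic ℚ K]

/-- key existence statement: some positive power of `v x` is an integral power of `v q` -/
lemma exists_pow_eq (hq : q.Prime) (hA : (q : K) ∈ A.nonunits) {x : K} (hx : x ≠ 0) :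
    ∃ n : ℕ, 0 < n ∧ ∃ k : ℤ, A.valuation x ^ n = A.valuation (q : K) ^ k := by
  classical
  have halg : IsAlgebraic ℤ x :=
    (IsFractionRing.isAlgebraic_iff ℤ ℚ K).mpr (Algebra.IsAlgebraic.isAlgebraic x)
  obtain ⟨f, hf0, hfx⟩ := halg
  set g := A.valuation (q : K) with hg
  have hg0 : g ≠ 0 := val_q_ne_zero A hq
  have hvx : A.valuation x ≠ 0 := (Valuation.ne_zero_iff _).mpr hx
  by_contra hcon
  push Not at hcon
  -- the terms
  let t : ℕ → K := fun i => ((f.coeff i : ℤ) : K) * x ^ i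
  have hsum : ∑ i ∈ f.support, t i = 0 := by
    have := hfx
    rw [Polynomial.aeval_def, Polynomial.eval₂_eq_sum, Polynomial.sum_def] at this
    simpa [t] using this
  have hne : f.support.Nonempty := Polynomial.support_nonempty.mpr hf0
  -- valuations of distinct terms are distinct
  have hdist : ∀ i ∈ f.support, ∀ j ∈ f.support, i < j →
      A.valuation (t i) ≠ A.valuation (t j) := by
    intro i hi j hj hij heq
    have hci : f.coeff i ≠ 0 := Polynomial.mem_support_iff.mp hi
    have hcj : f.coeff j ≠ 0 := Polynomial.mem_support_iff.mp hj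
    obtain ⟨ei, hei⟩ := val_int_eq_pow A hq hA hci
    obtain ⟨ej, hej⟩ := val_int_eq_pow A hq hA hcj
    simp only [t, map_mul, map_pow, hei, hej] at heq
    -- g^ei * v^i = g^ej * v^j, so v^(j-i) = g^(ei-ej)
    refine hcon (j - i) (Nat.sub_pos_of_lt hij) ((ei : ℤ) - ej) ?_
    have hj' : j = (j - i) + i := (Nat.sub_add_cancel hij.le).symm
    rw [hj', pow_add, ← mul_assoc] at heq
    have hvi : A.valuation x ^ i ≠ 0 := pow_ne_zero _ hvx
    have h3 : g ^ ei = g ^ ej * A.valuation x ^ (j - i) := mul_right_cancel₀ hvi heq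
    rw [zpow_sub₀ hg0, zpow_natCast, zpow_natCast, h3]
    field_simp
  obtain ⟨j, hj, hmax⟩ := Finset.exists_max_image f.support (fun i => A.valuation (t i)) hne
  have hlt : ∀ i ∈ f.support \ {j}, A.valuation (t i) < A.valuation (t j) := by
    intro i hi
    rw [Finset.mem_sdiff, Finset.mem_singleton] at hi
    refine lt_of_le_of_ne (hmax i hi.1) ?_
    rcases lt_or_gt_of_ne hi.2 with h | h
    · exact hdist i hi.1 j hj h
    · exact (hdist j hj i hi.1 h).symm
  have := Valuation.map_sum_eq_of_lt A.valuation hj hlt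
  rw [hsum, map_zero] at this
  have htj : t j ≠ 0 := by
    simp only [t]
    refine mul_ne_zero ?_ (pow_ne_zero _ hx)
    exact_mod_cast Polynomial.mem_support_iff.mp hj
  exact (Valuation.ne_zero_iff _).mpr htj this.symm

/-- the raw `ℚ`-valued order function -/
noncomputable def ordFun (hq : q.Prime) (hA : (q : K) ∈ A.nonunits) (x : K) : ℚ :=
  open Classical in
  if hx : x = 0 then 0 else
    ((exists_pow_eq A hq hA hx).choose_spec.2.choose : ℚ) /
      ((exists_pow_eq A hq hA hx).choose : ℚ)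

lemma zpow_inj (hq : q.Prime) (hA : (q : K) ∈ A.nonunits) {a b : ℤ}
    (h : A.valuation (q : K) ^ a = A.valuation (q : K) ^ b) : a = b :=
  zpow_right_injective₀ (val_q_pos A hq) (val_q_lt_one A hA).ne h

/-- characterisation of `ordFun` -/
lemma ordFun_eq (hq : q.Prime) (hA : (q : K) ∈ A.nonunits) {x : K} (hx : x ≠ 0) {n : ℕ}
    (hn : 0 < n) {k : ℤ} (h : A.valuation x ^ n = A.valuation (q : K) ^ k) :
    ordFun A hq hA x = (k : ℚ) / (n : ℚ) := by
  unfold ordFun
  rw [dif_neg hx]
  set n0 := (exists_pow_eq A hq hA hx).choose with hn0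
  have hspec := (exists_pow_eq A hq hA hx).choose_spec
  set k0 := hspec.2.choose with hk0
  have hn0pos : 0 < n0 := hspec.1
  have hk0spec : A.valuation x ^ n0 = A.valuation (q : K) ^ k0 := hspec.2.choose_spec
  have hkey : k0 * n = k * n0 := by
    apply zpow_inj A hq hA
    rw [zpow_mul, zpow_mul, ← hk0spec, ← h, zpow_natCast, zpow_natCast, ← pow_mul, ← pow_mul,
      mul_comm]
  have hn' : (n : ℚ) ≠ 0 := by exact_mod_cast hn.ne'
  have hn0' : (n0 : ℚ) ≠ 0 := by exact_mod_cast hn0pos.ne'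
  rw [div_eq_div_iff hn0' hn']
  exact_mod_cast hkey

lemma exists_ordFun (hq : q.Prime) (hA : (q : K) ∈ A.nonunits) {x : K} (hx : x ≠ 0) :
    ∃ n : ℕ, 0 < n ∧ ∃ k : ℤ, A.valuation x ^ n = A.valuation (q : K) ^ k ∧
      ordFun A hq hA x = (k : ℚ) / (n : ℚ) := by
  obtain ⟨n, hn, k, hk⟩ := exists_pow_eq A hq hA hx
  exact ⟨n, hn, k, hk, ordFun_eq A hq hA hx hn hk⟩

lemma ordFun_mul (hq : q.Prime) (hA : (q : K) ∈ A.nonunits) {x y : K} (hx : x ≠ 0) (hy : y ≠ 0) :
    ordFun A hq hA (x * y) = ordFun A hq hA x + ordFun A hq hA y := by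
  obtain ⟨n, hn, k, hk, hox⟩ := exists_ordFun A hq hA hx
  obtain ⟨n', hn', k', hk', hoy⟩ := exists_ordFun A hq hA hy
  have hg0 : A.valuation (q : K) ≠ 0 := val_q_ne_zero A hq
  have h : A.valuation (x * y) ^ (n * n') = A.valuation (q : K) ^ (k * n' + k' * n) := by
    rw [map_mul, mul_pow, pow_mul, hk, mul_comm n n', pow_mul, hk', zpow_add₀ hg0, zpow_mul,
      zpow_mul, zpow_natCast, zpow_natCast]
  rw [ordFun_eq A hq hA (mul_ne_zero hx hy) (Nat.mul_pos hn hn') h, hox, hoy]
  have h1 : (n : ℚ) ≠ 0 := by exact_mod_cast hn.ne'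
  have h2 : (n' : ℚ) ≠ 0 := by exact_mod_cast hn'.ne'
  push_cast
  field_simp

/-- `ordFun` reverses the order of the valuation -/
lemma ordFun_le_iff (hq : q.Prime) (hA : (q : K) ∈ A.nonunits) {x y : K} (hx : x ≠ 0)
    (hy : y ≠ 0) :
    ordFun A hq hA x ≤ ordFun A hq hA y ↔ A.valuation y ≤ A.valuation x := by
  obtain ⟨n, hn, k, hk, hox⟩ := exists_ordFun A hq hA hx
  obtain ⟨n', hn', k', hk', hoy⟩ := exists_ordFun A hq hA hy
  have h1 : (0 : ℚ) < n := by exact_mod_cast hn
  have h2 : (0 : ℚ) < n' := by exact_mod_cast hn'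
  rw [hox, hoy, div_le_div_iff₀ h1 h2]
  have hnn : n * n' ≠ 0 := (Nat.mul_pos hn hn').ne'
  have e1 : A.valuation y ≤ A.valuation x ↔
      A.valuation y ^ (n * n') ≤ A.valuation x ^ (n * n') :=
    (pow_le_pow_iff_left₀ zero_le zero_le hnn).symm
  have e2 : A.valuation x ^ (n * n') = A.valuation (q : K) ^ (k * n') := by
    rw [pow_mul, hk, zpow_mul, zpow_natCast]
  have e3 : A.valuation y ^ (n * n') = A.valuation (q : K) ^ (k' * n) := by
    rw [mul_comm n n', pow_mul, hk', zpow_mul, zpow_natCast]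
  rw [e1, e2, e3, zpow_le_zpow_iff_right_of_lt_one₀ (val_q_pos A hq) (val_q_lt_one A hA)]
  exact_mod_cast Iff.rfl

lemma ordFun_add (hq : q.Prime) (hA : (q : K) ∈ A.nonunits) {x y : K} (hx : x ≠ 0)
    (hy : y ≠ 0) (hxy : x + y ≠ 0) :
    min (ordFun A hq hA x) (ordFun A hq hA y) ≤ ordFun A hq hA (x + y) := by
  rcases le_total (A.valuation x) (A.valuation y) with h | h
  · have h1 : A.valuation (x + y) ≤ A.valuation y :=
      (A.valuation.map_add x y).trans (max_le h le_rfl)
    exact (min_le_right _ _).trans ((ordFun_le_iff A hq hA hy hxy).mpr h1)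
  · have h1 : A.valuation (x + y) ≤ A.valuation x :=
      (A.valuation.map_add x y).trans (max_le le_rfl h)
    exact (min_le_left _ _).trans ((ordFun_le_iff A hq hA hx hxy).mpr h1)

end OrdC

/-- the `ℚ`-valued additive valuation attached to `A` and `q` -/
noncomputable def ordOf {K : Type*} [Field K] [CharZero K] [Algebra.IsAlgebraic ℚ K]
    (A : ValuationSubring K) {q : ℕ} (hq : q.Prime) (hA : (q : K) ∈ A.nonunits) : OrdFn K where
  ord := OrdC.ordFun A hq hA
  ord_mul _ _ hx hy := OrdC.ordFun_mul A hq hA hx hy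
  ord_add _ _ hx hy hxy := OrdC.ordFun_add A hq hA hx hy hxy

section api

variable {K : Type*} [Field K] [CharZero K] [Algebra.IsAlgebraic ℚ K]
  (A : ValuationSubring K) {q : ℕ} (hq : q.Prime) (hA : (q : K) ∈ A.nonunits)

theorem ordOf_le_iff {x y : K} (hx : x ≠ 0) (hy : y ≠ 0) :
    (ordOf A hq hA).ord x ≤ (ordOf A hq hA).ord y ↔ A.valuation y ≤ A.valuation x :=
  OrdC.ordFun_le_iff A hq hA hx hy

theorem ordOf_lt_iff {x y : K} (hx : x ≠ 0) (hy : y ≠ 0) :
    (ordOf A hq hA).ord x < (ordOf A hq hA).ord y ↔ A.valuation y < A.valuation x := by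
  rw [← not_le, ← not_le, ordOf_le_iff A hq hA hy hx]

theorem ordOf_nonneg_iff {x : K} (hx : x ≠ 0) : 0 ≤ (ordOf A hq hA).ord x ↔ x ∈ A := by
  rw [← (ordOf A hq hA).ord_one, ordOf_le_iff A hq hA one_ne_zero hx, map_one,
    A.valuation_le_one_iff]

theorem ordOf_pos_iff {x : K} (hx : x ≠ 0) :
    0 < (ordOf A hq hA).ord x ↔ x ∈ A.nonunits := by
  rw [← (ordOf A hq hA).ord_one, ordOf_lt_iff A hq hA one_ne_zero hx, map_one,
    A.mem_nonunits_iff]

theorem isInt_ordOf_iff {x : K} : (ordOf A hq hA).IsInt x ↔ x ∈ A := by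
  by_cases hx : x = 0
  · simp [OrdFn.IsInt, hx, A.zero_mem]
  · simp only [OrdFn.IsInt, hx, false_or]
    exact ordOf_nonneg_iff A hq hA hx

theorem isSmall_ordOf_iff {x : K} : (ordOf A hq hA).IsSmall x ↔ x ∈ A.nonunits := by
  by_cases hx : x = 0
  · simp [OrdFn.IsSmall, hx, A.mem_nonunits_iff]
  · simp only [OrdFn.IsSmall, hx, false_or]
    exact ordOf_pos_iff A hq hA hx

theorem isUnit_ordOf_iff {x : K} : (ordOf A hq hA).IsUnit x ↔ A.valuation x = 1 := by
  by_cases hx : x = 0
  · simp [OrdFn.IsUnit, hx]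
  · have h1 := ordOf_le_iff A hq hA one_ne_zero hx
    have h2 := ordOf_le_iff A hq hA hx one_ne_zero
    rw [(ordOf A hq hA).ord_one, map_one] at h1 h2
    simp only [OrdFn.IsUnit, hx, ne_eq, not_false_eq_true, true_and]
    constructor
    · intro h
      exact le_antisymm (h1.mp h.ge) (h2.mp h.le)
    · intro h
      exact le_antisymm (h2.mpr h.ge) (h1.mpr h.le)

/-- `ord q = 1` -/
theorem ordOf_prime : (ordOf A hq hA).ord (q : K) = 1 := by
  have hq0 : (q : K) ≠ 0 := by exact_mod_cast hq.ne_zero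
  have := OrdC.ordFun_eq A hq hA hq0 (n := 1) one_pos (k := 1) (by simp)
  simpa [ordOf] using this

/-- integers prime to `q` are units -/
theorem isUnit_ordOf_intCast {z : ℤ} (hz : ¬ (q : ℤ) ∣ z) : (ordOf A hq hA).IsUnit (z : K) :=
  (isUnit_ordOf_iff A hq hA).mpr (OrdC.val_int_of_not_dvd A hq hA hz)

/-- nonzero integers divisible by `q` have positive order -/
theorem ordOf_intCast_pos {z : ℤ} (hz0 : z ≠ 0) (hz : (q : ℤ) ∣ z) :
    0 < (ordOf A hq hA).ord (z : K) := by
  have hz0' : (z : K) ≠ 0 := by exact_mod_cast hz0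
  rw [ordOf_pos_iff A hq hA hz0']
  obtain ⟨w, rfl⟩ := hz
  push_cast
  exact A.mem_nonunits_iff.mpr (by
    rw [map_mul]
    calc A.valuation (q : K) * A.valuation (w : K) ≤ A.valuation (q : K) * 1 :=
          mul_le_mul_right (OrdC.val_int_le_one A w) _
      _ = A.valuation (q : K) := mul_one _
      _ < 1 := OrdC.val_q_lt_one A hA)

/-- an automorphism preserving the valuation preserves `ord` -/
theorem ordOf_apply_eq {σ : K ≃+* K} (hσ : ∀ x, A.valuation (σ x) = A.valuation x) (x : K) :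
    (ordOf A hq hA).ord (σ x) = (ordOf A hq hA).ord x := by
  by_cases hx : x = 0
  · simp [hx]
  · have hsx : σ x ≠ 0 := by simpa using hx
    apply le_antisymm
    · rw [ordOf_le_iff A hq hA hsx hx, hσ]
    · rw [ordOf_le_iff A hq hA hx hsx, hσ]

end api

end Fermat.Agent.S05
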