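import Fermat.Agent.S05.FreyLocal
import Fermat.Agent.S05.Ord

/-!
# Local arithmetic of the Frey curve, in `OrdFn` form

Restatement of `frey_local` for the `ℚ`-valued additive valuation `ordOf A hq hA` on `Qbar`.
-/

set_option autoImplicit false

namespace Fermat.Agent.S05

open WeierstrassCurve
open Fermat.Agent.S51

local notation "Qbar" => AlgebraicClosure ℚ

/-- the `ℚ`-valued additive valuation on `Qbar` attached to a valuation subring over `q` -/
noncomputable abbrev freyOrd (A : ValuationSubring Qbar) {q : ℕ} (hq : q.Prime)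
    (hA : A.LiesOverPrime q) : OrdFn Qbar :=
  haveI : Algebra.IsAlgebraic ℚ Qbar := AlgebraicClosure.isAlgebraic ℚ
  ordOf A hq hA

section

variable (A : ValuationSubring Qbar) {q : ℕ} (hq : q.Prime) (hA : A.LiesOverPrime q)

lemma freyOrd_isInt_iff {x : Qbar} : (freyOrd A hq hA).IsInt x ↔ x ∈ A :=
  haveI : Algebra.IsAlgebraic ℚ Qbar := AlgebraicClosure.isAlgebraic ℚ
  isInt_ordOf_iff A hq hA

lemma freyOrd_isSmall_iff {x : Qbar} : (freyOrd A hq hA).IsSmall x ↔ x ∈ A.nonunits :=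
  haveI : Algebra.IsAlgebraic ℚ Qbar := AlgebraicClosure.isAlgebraic ℚ
  isSmall_ordOf_iff A hq hA

lemma freyOrd_isUnit_iff {x : Qbar} : (freyOrd A hq hA).IsUnit x ↔ A.valuation x = 1 :=
  haveI : Algebra.IsAlgebraic ℚ Qbar := AlgebraicClosure.isAlgebraic ℚ
  isUnit_ordOf_iff A hq hA

/-- equal valuations give equal orders -/
lemma freyOrd_eq_of_val_eq {x y : Qbar} (hx : x ≠ 0) (hy : y ≠ 0)
    (h : A.valuation x = A.valuation y) :
    (freyOrd A hq hA).ord x = (freyOrd A hq hA).ord y := by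
  have : Algebra.IsAlgebraic ℚ Qbar := AlgebraicClosure.isAlgebraic ℚ
  exact le_antisymm ((ordOf_le_iff A hq hA hx hy).mpr h.ge) ((ordOf_le_iff A hq hA hy hx).mpr h.le)

lemma freyOrd_pos_iff {x : Qbar} (hx : x ≠ 0) :
    0 < (freyOrd A hq hA).ord x ↔ A.valuation x < 1 := by
  have : Algebra.IsAlgebraic ℚ Qbar := AlgebraicClosure.isAlgebraic ℚ
  rw [← A.mem_nonunits_iff]
  exact ordOf_pos_iff A hq hA hx

end

/-- **Local data of the Frey curve, `OrdFn` form.** With `v := freyOrd A hq hA`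
(`= ordOf A hq hA`): there is a rational `2`-torsion abscissa `t`, integral at `A`, such that
either (GOOD) `sB4` and `sB2² - 32 sB4` are units, or (MULT) `sB2` is a unit, `sB4 ≠ 0` and
`ord (sB4) = p * ord n` for a nonzero integer `n` with `0 < ord n`. -/
theorem frey_local_ord (P : FreyPackage) {q : ℕ} (hq : q.Prime) (hq2 : q ≠ 2)
    (A : ValuationSubring Qbar) (hA : A.LiesOverPrime q) :
    ∃ t : Qbar, (∃ r : ℚ, t = algebraMap ℚ Qbar r) ∧ (freyOrd A hq hA).IsInt t ∧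
      cf (P.freyCurve⁄Qbar).b₂ (P.freyCurve⁄Qbar).b₄ (P.freyCurve⁄Qbar).b₆ t = 0 ∧
      (freyOrd A hq hA).IsInt (sB2 (P.freyCurve⁄Qbar) t) ∧
      (freyOrd A hq hA).IsInt (sB4 (P.freyCurve⁄Qbar) t) ∧
      (freyOrd A hq hA).IsUnit (2 : Qbar) ∧
      (((freyOrd A hq hA).IsUnit (sB4 (P.freyCurve⁄Qbar) t) ∧
        (freyOrd A hq hA).IsUnit
          (sB2 (P.freyCurve⁄Qbar) t ^ 2 - 32 * sB4 (P.freyCurve⁄Qbar) t)) ∨
       ((freyOrd A hq hA).IsUnit (sB2 (P.freyCurve⁄Qbar) t) ∧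
        sB4 (P.freyCurve⁄Qbar) t ≠ 0 ∧
        ∃ n : ℤ, n ≠ 0 ∧ 0 < (freyOrd A hq hA).ord (n : Qbar) ∧
          (freyOrd A hq hA).ord (sB4 (P.freyCurve⁄Qbar) t) =
            (P.p : ℚ) * (freyOrd A hq hA).ord (n : Qbar))) := by
  obtain ⟨t, hr, htA, hcf, h2A, h4A, hcase⟩ := frey_local P hq hq2 A hA
  refine ⟨t, hr, (freyOrd_isInt_iff A hq hA).mpr htA, hcf, (freyOrd_isInt_iff A hq hA).mpr h2A,
    (freyOrd_isInt_iff A hq hA).mpr h4A,
    (freyOrd_isUnit_iff A hq hA).mpr (frey_val_two A hq hq2 hA), ?_⟩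
  rcases hcase with ⟨h4, hd⟩ | ⟨h2, n, hn0, hnlt, h4⟩
  · exact Or.inl ⟨(freyOrd_isUnit_iff A hq hA).mpr h4, (freyOrd_isUnit_iff A hq hA).mpr hd⟩
  · have hn0' : (n : Qbar) ≠ 0 := by exact_mod_cast hn0
    have hpow0 : (n : Qbar) ^ P.p ≠ 0 := pow_ne_zero _ hn0'
    have h4ne : sB4 (P.freyCurve⁄Qbar) t ≠ 0 := by
      intro h0
      rw [h0, map_zero] at h4
      have : A.valuation (n : Qbar) ^ P.p ≠ 0 := by
        rw [← map_pow]
        exact (Valuation.ne_zero_iff _).mpr hpow0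
      exact this h4.symm
    refine Or.inr ⟨(freyOrd_isUnit_iff A hq hA).mpr h2, h4ne, n, hn0,
      (freyOrd_pos_iff A hq hA hn0').mpr hnlt, ?_⟩
    have h4' : A.valuation (sB4 (P.freyCurve⁄Qbar) t) = A.valuation ((n : Qbar) ^ P.p) := by
      rw [h4, map_pow]
    rw [freyOrd_eq_of_val_eq A hq hA h4ne hpow0 h4', OrdFn.ord_pow _ hn0']

end Fermat.Agent.S05
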