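import Mathlib
import Fermat.Agent.S05.XLaw

/-!
# Congruent integral points with nonsingular reduction differ by a point of the kernel of reduction

Galois-free form of the "inertia acts trivially on smooth points modulo the kernel of reduction"
step: `K` a field of characteristic zero, `A` a valuation subring in which `2` is a unit,
`W` a Weierstrass curve over `K` with integral `b`-invariants.
-/

set_option autoImplicit false
set_option linter.unusedSectionVars false

namespace Fermat.Agent.S05

open WeierstrassCurve WeierstrassCurve.Affine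
open Fermat.Agent.S51

variable {K : Type*} [Field K] [DecidableEq K] [CharZero K]

/-- "kernel of reduction": the point at infinity or a point with non-integral `x`-coordinate -/
def InKer (A : ValuationSubring K) (W : WeierstrassCurve K) (P : W.toAffine.Point) : Prop :=
  ∀ x : K, px W P = some x → x ∉ A

variable {A : ValuationSubring K} {W : WeierstrassCurve K}

lemma inKer_zero : InKer A W (0 : W.toAffine.Point) := by
  intro x hx
  simp at hx

lemma inKer_neg {P : W.toAffine.Point} (h : InKer A W P) : InKer A W (-P) := by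
  intro x hx
  rw [px_neg] at hx
  exact h x hx

lemma inKer_neg_iff {P : W.toAffine.Point} : InKer A W (-P) ↔ InKer A W P :=
  ⟨fun h => by simpa using inKer_neg h, inKer_neg⟩

lemma inKer_iff {P : W.toAffine.Point} :
    InKer A W P ↔ P = 0 ∨ ∃ x, px W P = some x ∧ x ∉ A := by
  constructor
  · intro h
    cases hP : px W P with
    | none => left; exact px_eq_none_iff.mp hP
    | some x => right; exact ⟨x, rfl, h x hP⟩
  · rintro (rfl | ⟨x, hx, hxA⟩)
    · exact inKer_zero
    · intro x' hx'
      rw [hx] at hx'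
      cases hx'
      exact hxA

lemma not_mem_iff_one_lt {x : K} : x ∉ A ↔ 1 < A.valuation x := by
  rw [← A.valuation_le_one_iff, not_le]

section aux

variable (v : Valuation K A.ValueGroup)

/-- valuation of an integral polynomial expression -/
lemma val_le_one_of_sq_le {v : Valuation K A.ValueGroup} {η : K} (h : v (η ^ 2) ≤ 1) : v η ≤ 1 := by
  by_contra hlt
  rw [not_le] at hlt
  have : 1 < v η ^ 2 := one_lt_pow₀ hlt (by norm_num)
  rw [map_pow] at h
  exact absurd h (not_le.mpr this)

end aux

/-- the key valuation computation: if `4 x₄ d² = s² - S d²` with `S` integral and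
`v d < v s`, then `x₄` is not integral. -/
lemma not_mem_of_chord {x₄ d s S : K} (h2 : A.valuation (2 : K) = 1)
    (hS : A.valuation S ≤ 1) (hd0 : d ≠ 0) (hds : A.valuation d < A.valuation s)
    (h : 4 * x₄ * d ^ 2 = s ^ 2 - S * d ^ 2) : x₄ ∉ A := by
  set v := A.valuation with hv
  have hvd0 : v d ≠ 0 := (Valuation.ne_zero_iff v).mpr hd0
  have hvd : 0 < v d := zero_lt_iff.mpr hvd0
  have h4 : v (4 : K) = 1 := by
    have : (4 : K) = 2 * 2 := by norm_num
    rw [this, map_mul, h2, one_mul]
  -- v (S d^2) < v (s^2)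
  have h1 : v (S * d ^ 2) < v (s ^ 2) := by
    rw [map_mul, map_pow, map_pow]
    calc v S * v d ^ 2 ≤ 1 * v d ^ 2 := by gcongr
      _ = v d ^ 2 := one_mul _
      _ < v s ^ 2 := by gcongr
  have h3 : v (s ^ 2 - S * d ^ 2) = v (s ^ 2) := Valuation.map_sub_eq_of_lt_left v h1
  have h5 : v x₄ * v d ^ 2 = v s ^ 2 := by
    have := congrArg v h
    rw [h3, map_mul, map_mul, h4, one_mul, map_pow, map_pow] at this
    exact this
  rw [not_mem_iff_one_lt]
  by_contra hle
  rw [not_lt] at hle
  have : v s ^ 2 ≤ v d ^ 2 := by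
    rw [← h5]
    calc v x₄ * v d ^ 2 ≤ 1 * v d ^ 2 := by gcongr
      _ = v d ^ 2 := one_mul _
  have hlt : v d ^ 2 < v s ^ 2 := by gcongr
  exact absurd this (not_le.mpr hlt)

/-- the 2-division cubic at an integral abscissa is integral -/
lemma cf_mem (hb2 : W.b₂ ∈ A) (hb4 : W.b₄ ∈ A) (hb6 : W.b₆ ∈ A) {x : K} (hx : x ∈ A) :
    cf W.b₂ W.b₄ W.b₆ x ∈ A := by
  simp only [cf]
  have h4 : (4 : K) ∈ A := by
    have : (4 : K) = ((4 : ℕ) : K) := by norm_num
    rw [this]; exact natCast_mem A 4
  have h2 : (2 : K) ∈ A := by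
    have : (2 : K) = ((2 : ℕ) : K) := by norm_num
    rw [this]; exact natCast_mem A 2
  exact A.add_mem _ _ (A.add_mem _ _ (A.add_mem _ _ (A.mul_mem _ _ h4 (pow_mem hx 3))
    (A.mul_mem _ _ hb2 (pow_mem hx 2))) (A.mul_mem _ _ (A.mul_mem _ _ h2 hb4) hx)) hb6

/-- the `η`-coordinate of a point with integral abscissa is integral -/
lemma peta_mem (hb2 : W.b₂ ∈ A) (hb4 : W.b₄ ∈ A) (hb6 : W.b₆ ∈ A) {P : W.toAffine.Point}
    {x η : K} (hP : px W P = some x) (hη : peta W P = some η) (hx : x ∈ A) : η ∈ A := by
  have hsq := peta_sq hP hη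
  have h := cf_mem hb2 hb4 hb6 hx
  rw [← hsq, ← A.valuation_le_one_iff] at h
  exact (A.valuation_le_one_iff η).mp (val_le_one_of_sq_le h)

/-- **Congruent integral points with nonsingular reduction differ by a point of the kernel of
reduction.** -/
theorem sub_inKer_of_congr (h2 : A.valuation (2 : K) = 1)
    (hb2 : W.b₂ ∈ A) (hb4 : W.b₄ ∈ A) (hb6 : W.b₆ ∈ A)
    {P P' : W.toAffine.Point} {x η x' η' : K}
    (hP : px W P = some x) (hη : peta W P = some η)
    (hP' : px W P' = some x') (hη' : peta W P' = some η')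
    (hx : x ∈ A) (hdx : A.valuation (x' - x) < 1) (hdη : A.valuation (η' - η) < 1)
    (hns : A.valuation η = 1 ∨ A.valuation (cf1 W.b₂ W.b₄ x) = 1) :
    InKer A W (P' - P) := by
  set v := A.valuation with hv
  have hvx : v x ≤ 1 := (A.valuation_le_one_iff x).mpr hx
  have hvb2 : v W.b₂ ≤ 1 := (A.valuation_le_one_iff _).mpr hb2
  have hvb4 : v W.b₄ ≤ 1 := (A.valuation_le_one_iff _).mpr hb4
  have hvb6 : v W.b₆ ≤ 1 := (A.valuation_le_one_iff _).mpr hb6
  have h4 : v (4 : K) = 1 := by
    have : (4 : K) = 2 * 2 := by norm_num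
    rw [this, map_mul, h2, one_mul]
  have hv12 : v (12 : K) ≤ 1 := by
    have : (12 : K) = ((12 : ℕ) : K) := by norm_num
    rw [this]; exact (A.valuation_le_one_iff _).mpr (natCast_mem A 12)
  have hvx' : v x' ≤ 1 := by
    have : x' = (x' - x) + x := by ring
    rw [this]; exact Valuation.map_add_le v hdx.le hvx
  have hsq := peta_sq hP hη
  have hsq' := peta_sq hP' hη'
  -- cf x is integral, hence so is η
  have hcf : v (cf W.b₂ W.b₄ W.b₆ x) ≤ 1 := by
    simp only [cf]
    refine Valuation.map_add_le v (Valuation.map_add_le v (Valuation.map_add_le v ?_ ?_) ?_) hvb6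
    · rw [map_mul, map_pow, h4, one_mul]; exact pow_le_one₀ zero_le hvx
    · rw [map_mul, map_pow]; exact mul_le_one₀ hvb2 zero_le (pow_le_one₀ zero_le hvx)
    · rw [map_mul, map_mul, h2, one_mul]; exact mul_le_one₀ hvb4 zero_le hvx
  have hvη : v η ≤ 1 := val_le_one_of_sq_le (by rw [hsq]; exact hcf)
  have hS : v (W.b₂ + 4 * x' + 4 * x) ≤ 1 := by
    refine Valuation.map_add_le v (Valuation.map_add_le v hvb2 ?_) ?_
    · rw [map_mul, h4, one_mul]; exact hvx'
    · rw [map_mul, h4, one_mul]; exact hvx
  by_cases hxx : x' = x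
  · -- same abscissa
    have hxx' : x = x' := hxx.symm
    subst hxx'
    have hpx : px W P' = px W P := by rw [hP, hP']
    rcases px_eq_iff.mp hpx with rfl | rfl
    · rw [sub_self]; exact inKer_zero
    · -- P' = -P
      have hη'' : η' = -η := by
        have := peta_neg_of_some hη
        rw [hη'] at this
        exact Option.some.inj this
      have hvη1 : v η < 1 := by
        have : η' - η = -(2 * η) := by rw [hη'']; ring
        rw [this, Valuation.map_neg, map_mul, h2, one_mul] at hdη
        exact hdη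
      have hcf1 : v (cf1 W.b₂ W.b₄ x) = 1 := by
        rcases hns with h | h
        · exact absurd h (ne_of_lt hvη1)
        · exact h
      have : -P - P = -(P + P) := by abel
      rw [this]
      apply inKer_neg
      by_cases hη0 : η = 0
      · have : P + P = 0 := (add_self_eq_zero_iff_peta hη).mpr hη0
        rw [this]; exact inKer_zero
      · have hf : cf W.b₂ W.b₄ W.b₆ x ≠ 0 := by rw [← hsq]; exact pow_ne_zero 2 hη0
        intro x₂ hx₂
        rw [px_add_self hP hf] at hx₂
        cases hx₂
        -- cq x is a unit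
        have hcq := cq_eq W.b₂ W.b₄ W.b₆ x
        have hvcf : v (cf W.b₂ W.b₄ W.b₆ x) < 1 := by
          rw [← hsq, map_pow]; exact pow_lt_one₀ zero_le hvη1 (by norm_num)
        have h12 : v (12 * x + W.b₂) ≤ 1 := by
          refine Valuation.map_add_le v ?_ hvb2
          rw [map_mul]; exact mul_le_one₀ hv12 zero_le hvx
        have hA : v (4 * cf W.b₂ W.b₄ W.b₆ x * (12 * x + W.b₂)) < 1 := by
          rw [map_mul, map_mul, h4, one_mul]
          calc v (cf W.b₂ W.b₄ W.b₆ x) * v (12 * x + W.b₂)
              ≤ v (cf W.b₂ W.b₄ W.b₆ x) * 1 := by gcongr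
            _ = v (cf W.b₂ W.b₄ W.b₆ x) := mul_one _
            _ < 1 := hvcf
        have hB : v (cf1 W.b₂ W.b₄ x ^ 2) = 1 := by rw [map_pow, hcf1, one_pow]
        have hvcq : v (cq W.b₂ W.b₄ W.b₆ x) = 1 := by
          have h' : v (4 * cq W.b₂ W.b₄ W.b₆ x) = 1 := by
            rw [hcq, Valuation.map_sub_eq_of_lt_right v (by rw [hB]; exact hA), hB]
          rw [map_mul, h4, one_mul] at h'
          exact h'
        rw [not_mem_iff_one_lt]
        simp only [cdbl]
        have hq : 1 < v (cq W.b₂ W.b₄ W.b₆ x / (4 * cf W.b₂ W.b₄ W.b₆ x)) := by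
          rw [map_div₀, map_mul, h4, one_mul, hvcq]
          have hpos : 0 < v (cf W.b₂ W.b₄ W.b₆ x) :=
            zero_lt_iff.mpr ((Valuation.ne_zero_iff v).mpr hf)
          rw [one_div, one_lt_inv₀ hpos]
          exact hvcf
        rw [Valuation.map_sub_eq_of_lt_right v (lt_of_le_of_lt hvx hq)]
        exact hq
  · -- distinct abscissas
    obtain ⟨x₄, h4x, e4⟩ := px_sub_of_ne hP' hP hη' hη hxx
    have hd0 : x' - x ≠ 0 := sub_ne_zero.mpr hxx
    have key : v (x' - x) < v (η' + η) := by
      rcases hns with h | h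
      · -- η unit
        have : η' + η = 2 * η + (η' - η) := by ring
        rw [this, Valuation.map_add_eq_of_lt_left v (by rw [map_mul, h2, one_mul, h]; exact hdη),
          map_mul, h2, one_mul, h]
        exact hdx
      · -- cf1 x unit
        have ht := cf_taylor W.b₂ W.b₄ W.b₆ x (x' - x)
        have hx'eq : x + (x' - x) = x' := by ring
        rw [hx'eq] at ht
        have hprod : (η' - η) * (η' + η) =
            (x' - x) * (cf1 W.b₂ W.b₄ x + ((12 * x + W.b₂) * (x' - x) + 4 * (x' - x) ^ 2)) := by
          have : (η' - η) * (η' + η) = η' ^ 2 - η ^ 2 := by ring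
          rw [this, hsq, hsq', ht]; ring
        have h12 : v (12 * x + W.b₂) ≤ 1 := by
          refine Valuation.map_add_le v ?_ hvb2
          rw [map_mul]; exact mul_le_one₀ hv12 zero_le hvx
        have hsmall : v ((12 * x + W.b₂) * (x' - x) + 4 * (x' - x) ^ 2) < 1 := by
          refine Valuation.map_add_lt v ?_ ?_
          · rw [map_mul]
            calc v (12 * x + W.b₂) * v (x' - x) ≤ 1 * v (x' - x) := by gcongr
              _ = v (x' - x) := one_mul _
              _ < 1 := hdx
          · rw [map_mul, h4, one_mul, map_pow]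
            exact pow_lt_one₀ zero_le hdx (by norm_num)
        have hu : v (cf1 W.b₂ W.b₄ x + ((12 * x + W.b₂) * (x' - x) + 4 * (x' - x) ^ 2)) = 1 := by
          rw [Valuation.map_add_eq_of_lt_left v (by rw [h]; exact hsmall), h]
        have hv := congrArg v hprod
        rw [map_mul, map_mul, hu, mul_one] at hv
        have hpos : 0 < v (η' + η) := by
          rw [zero_lt_iff]
          intro h0
          rw [h0, mul_zero] at hv
          exact (Valuation.ne_zero_iff v).mpr hd0 hv.symm
        rw [← hv]
        calc v (η' - η) * v (η' + η) < 1 * v (η' + η) := by gcongr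
          _ = v (η' + η) := one_mul _
    intro x₅ hx₅
    rw [h4x] at hx₅
    cases hx₅
    exact not_mem_of_chord h2 hS hd0 key e4

end Fermat.Agent.S05
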