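import Fermat.Agent.S05.KernelTorsion
import Fermat.Agent.S05.Congr
import Fermat.Agent.S05.XLawGalois
import Fermat.Agent.S05.Inertia

/-!
# The kernel of reduction `InKer` has no prime-to-residue-characteristic torsion (`px` form)

Restatement of `Fermat.Agent.S05.Kernel.nsmul_ne_zero_of_xCoord_not_mem` in terms of the
`x`-coordinate `px` of `Fermat.Agent.S51` and the predicate `InKer` of `Congr.lean`, with
hypotheses on the `b`-invariants only (and `2` a unit of the valuation ring).
-/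

set_option autoImplicit false
set_option linter.unusedSectionVars false

namespace Fermat.Agent.S05

open WeierstrassCurve WeierstrassCurve.Affine
open Fermat.Agent.S51

section General

variable {K : Type*} [Field K] [DecidableEq K] [CharZero K]
variable {A : ValuationSubring K} {W : WeierstrassCurve K}

lemma kernel_xCoord_of_px {P : W.toAffine.Point} {x : K} (h : px W P = some x) :
    Kernel.xCoord P = x := by
  cases P with
  | zero => exact absurd h (by simp [← Point.zero_def])
  | some x' y' h' =>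
    simp only [px_some, Option.some.injEq] at h
    simpa using h

lemma px_of_ne_zero {P : W.toAffine.Point} (hP : P ≠ 0) : px W P = some (Kernel.xCoord P) := by
  cases P with
  | zero => exact absurd rfl hP
  | some x' y' h' => rfl

lemma inKer_iff_kernel {P : W.toAffine.Point} :
    InKer A W P ↔ (P = 0 ∨ Kernel.xCoord P ∉ A) := by
  constructor
  · intro h
    by_cases hP : P = 0
    · exact Or.inl hP
    · exact Or.inr (h _ (px_of_ne_zero hP))
  · rintro (rfl | h) x hx
    · simp at hx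
    · rw [kernel_xCoord_of_px hx] at h
      exact h

/-- `b₈` is integral as soon as `b₂, b₄, b₆` are and `2` is a unit. -/
lemma b₈_mem (h2 : A.valuation (2 : K) = 1) (hb2 : W.b₂ ∈ A) (hb4 : W.b₄ ∈ A) (hb6 : W.b₆ ∈ A) :
    W.b₈ ∈ A := by
  have h4 : A.valuation (4 : K) = 1 := by
    have : (4 : K) = 2 * 2 := by norm_num
    rw [this, map_mul, h2, one_mul]
  have h4inv : (4 : K)⁻¹ ∈ A := by
    rw [← A.valuation_le_one_iff, map_inv₀, h4, inv_one]
  have h40 : (4 : K) ≠ 0 := by norm_num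
  have : W.b₈ = (W.b₂ * W.b₆ - W.b₄ ^ 2) * (4 : K)⁻¹ := by
    rw [eq_mul_inv_iff_mul_eq₀ h40, mul_comm]
    exact W.b_relation
  rw [this]
  exact A.mul_mem _ _ (sub_mem (A.mul_mem _ _ hb2 hb6) (pow_mem hb4 2)) h4inv

lemma two_ne_zero_of_val (h2 : A.valuation (2 : K) = 1) : (2 : K) ≠ 0 := by
  intro h
  rw [h, map_zero] at h2
  exact zero_ne_one h2

/-- The kernel of reduction is stable under multiplication by natural numbers. -/
theorem inKer_nsmul (h2 : A.valuation (2 : K) = 1) (hb2 : W.b₂ ∈ A) (hb4 : W.b₄ ∈ A)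
    (hb6 : W.b₆ ∈ A) {P : W.toAffine.Point} (hP : InKer A W P) (n : ℕ) : InKer A W (n • P) := by
  rcases inKer_iff_kernel.mp hP with rfl | hx
  · rw [smul_zero]; exact inKer_zero
  · have hP0 : P ≠ 0 := by
      rintro rfl
      exact hx (by simp [A.zero_mem])
    have := (Kernel.inv_nsmul A (two_ne_zero_of_val h2) hb2 hb4 hb6 (b₈_mem h2 hb2 hb4 hb6)
      hP0 hx n).1.1
    exact inKer_iff_kernel.mpr this

/-- **The kernel of reduction has no `n`-torsion for `n` a unit of `A`.** -/
theorem eq_zero_of_inKer_of_nsmul_eq_zero (h2 : A.valuation (2 : K) = 1) (hb2 : W.b₂ ∈ A)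
    (hb4 : W.b₄ ∈ A) (hb6 : W.b₆ ∈ A) {n : ℕ} (hn : A.valuation (n : K) = 1)
    {P : W.toAffine.Point} (hP : InKer A W P) (hnP : n • P = 0) : P = 0 := by
  by_contra hP0
  have hx : Kernel.xCoord P ∉ A := (inKer_iff_kernel.mp hP).resolve_left hP0
  obtain ⟨⟨-, e, he, hxe⟩, -⟩ := Kernel.inv_nsmul A (two_ne_zero_of_val h2) hb2 hb4 hb6
    (b₈_mem h2 hb2 hb4 hb6) hP0 hx n
  rw [hnP] at hxe
  simp only [Kernel.xCoord_zero, inv_zero] at hxe
  have hxP0 : Kernel.xCoord P ≠ 0 := fun h => hx (h ▸ A.zero_mem)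
  have hme : (n : K) ^ 2 + e = 0 := (mul_eq_zero.mp hxe.symm).resolve_left (inv_ne_zero hxP0)
  have hnm : (n : K) ∈ A.nonunits := by
    apply Kernel.mem_nonunits_of_sq A
    have : (n : K) ^ 2 = -e := by linear_combination hme
    rw [this]
    exact Kernel.neg_mem_nonunits A he
  rw [ValuationSubring.mem_nonunits_iff, hn] at hnm
  exact lt_irrefl _ hnm

/-- `px` form: a point with non-integral `x`-coordinate is not killed by a unit `n`. -/
theorem nsmul_ne_zero_of_px (h2 : A.valuation (2 : K) = 1) (hb2 : W.b₂ ∈ A)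
    (hb4 : W.b₄ ∈ A) (hb6 : W.b₆ ∈ A) {n : ℕ} (hn : A.valuation (n : K) = 1)
    {P : W.toAffine.Point} {x : K} (hP : px W P = some x) (hx : x ∉ A) : n • P ≠ 0 := by
  intro hnP
  have hker : InKer A W P := by
    intro x' hx'
    rw [hP] at hx'
    cases hx'
    exact hx
  have := eq_zero_of_inKer_of_nsmul_eq_zero h2 hb2 hb4 hb6 hn hker hnP
  rw [this] at hP
  simp at hP

end General

section Galois

local notation "Qbar" => AlgebraicClosure ℚ

open scoped Pointwise

/-- The kernel of reduction is stable under automorphisms stabilising `A`. -/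
theorem inKer_smul (E : WeierstrassCurve ℚ) (A : ValuationSubring Qbar)
    {σ : Qbar ≃ₐ[ℚ] Qbar} (hσ : σ • A = A) {P : (E⁄Qbar).toAffine.Point}
    (hP : InKer A (E⁄Qbar) P) : InKer A (E⁄Qbar) (σ • P) := by
  intro x hx
  rw [px_galois] at hx
  rcases hpx : px (E⁄Qbar) P with _ | x₀
  · rw [hpx] at hx; simp at hx
  · rw [hpx] at hx
    simp only [Option.map_some, Option.some.injEq] at hx
    subst hx
    have hx₀ : x₀ ∉ A := hP x₀ hpx
    intro hmem
    apply hx₀
    have h1 : σ x₀ ∈ σ • A ↔ x₀ ∈ A := ValuationSubring.smul_mem_pointwise_smul_iff (g := σ)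
    rw [hσ] at h1
    exact h1.mp hmem

/-- The kernel of reduction is stable under the inertia group. -/
theorem inKer_smul_of_mem_inertia (E : WeierstrassCurve ℚ) (A : ValuationSubring Qbar)
    {σ : Qbar ≃ₐ[ℚ] Qbar} (hσ : σ ∈ A.inertiaSubgroupIn ℚ) {P : (E⁄Qbar).toAffine.Point}
    (hP : InKer A (E⁄Qbar) P) : InKer A (E⁄Qbar) (σ • P) :=
  inKer_smul E A (smul_eq_of_mem_inertiaSubgroupIn hσ) hP

/-- If `σ • P - P` lies in the kernel of reduction and `P` is killed by a unit `n` of `A`, then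
`σ • P = P`. -/
theorem smul_eq_of_sub_inKer (E : WeierstrassCurve ℚ) (A : ValuationSubring Qbar)
    (h2 : A.valuation (2 : Qbar) = 1)
    (hb2 : (E⁄Qbar).b₂ ∈ A) (hb4 : (E⁄Qbar).b₄ ∈ A) (hb6 : (E⁄Qbar).b₆ ∈ A)
    {n : ℕ} (hn : A.valuation (n : Qbar) = 1) (σ : Qbar ≃ₐ[ℚ] Qbar)
    {P : (E⁄Qbar).toAffine.Point} (hnP : n • P = 0)
    (hker : InKer A (E⁄Qbar) (σ • P - P)) : σ • P = P := by
  have h1 : n • (σ • P - P) = 0 := by
    rw [nsmul_sub, hnP, sub_zero]
    have : n • (σ • P) = σ • (n • P) := by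
      change n • (WeierstrassCurve.Affine.Point.map σ.toAlgHom P) =
        WeierstrassCurve.Affine.Point.map σ.toAlgHom (n • P)
      rw [map_nsmul]
    rw [this, hnP]
    rfl
  have := eq_zero_of_inKer_of_nsmul_eq_zero h2 hb2 hb4 hb6 hn hker h1
  exact sub_eq_zero.mp this

end Galois

end Fermat.Agent.S05
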