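import Mathlib

set_option autoImplicit false

/-!
S05 (Frey curve mod p representation is unramified at odd q ≠ p): shared definitions.

* `OrdFn K`: an abstract `ℚ`-valued additive valuation on a field (value at `0` is junk).
* `tent`, `kap` (clamped valuation).
-/

namespace Fermat.Agent.S05

/-- An abstract `ℚ`-valued additive valuation on a field. The value at `0` is junk. -/
structure OrdFn (K : Type*) [Field K] where
  ord : K → ℚ
  ord_mul : ∀ x y : K, x ≠ 0 → y ≠ 0 → ord (x * y) = ord x + ord y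
  ord_add : ∀ x y : K, x ≠ 0 → y ≠ 0 → x + y ≠ 0 → min (ord x) (ord y) ≤ ord (x + y)

namespace OrdFn

variable {K : Type*} [Field K] (v : OrdFn K)

lemma ord_one : v.ord 1 = 0 := by
  have h := v.ord_mul 1 1 one_ne_zero one_ne_zero
  rw [mul_one] at h
  linarith

lemma ord_neg_one : v.ord (-1) = 0 := by
  have h := v.ord_mul (-1) (-1) (by simp) (by simp)
  rw [neg_one_mul, neg_neg, v.ord_one] at h
  linarith

lemma ord_neg (x : K) : v.ord (-x) = v.ord x := by
  by_cases hx : x = 0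
  · simp [hx]
  · have h := v.ord_mul (-1) x (by simp) hx
    rw [neg_one_mul, v.ord_neg_one] at h
    linarith

lemma ord_inv {x : K} (hx : x ≠ 0) : v.ord x⁻¹ = -v.ord x := by
  have h := v.ord_mul x x⁻¹ hx (inv_ne_zero hx)
  rw [mul_inv_cancel₀ hx, v.ord_one] at h
  linarith

lemma ord_div {x y : K} (hx : x ≠ 0) (hy : y ≠ 0) : v.ord (x / y) = v.ord x - v.ord y := by
  rw [div_eq_mul_inv, v.ord_mul x y⁻¹ hx (inv_ne_zero hy), v.ord_inv hy]
  ring

lemma ord_pow {x : K} (hx : x ≠ 0) (n : ℕ) : v.ord (x ^ n) = n * v.ord x := by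
  induction n with
  | zero => simp [v.ord_one]
  | succ n ih =>
    rw [pow_succ, v.ord_mul _ _ (pow_ne_zero n hx) hx, ih]
    push_cast
    ring

lemma ord_zpow {x : K} (hx : x ≠ 0) (n : ℤ) : v.ord (x ^ n) = n * v.ord x := by
  cases n with
  | ofNat n => simpa using v.ord_pow hx n
  | negSucc n =>
    rw [zpow_negSucc, v.ord_inv (pow_ne_zero _ hx), v.ord_pow hx]
    push_cast
    ring

lemma ord_sub {x y : K} (hx : x ≠ 0) (hy : y ≠ 0) (hxy : x - y ≠ 0) :
    min (v.ord x) (v.ord y) ≤ v.ord (x - y) := by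
  have h := v.ord_add x (-y) hx (neg_ne_zero.mpr hy) (by rwa [← sub_eq_add_neg])
  rwa [v.ord_neg, ← sub_eq_add_neg] at h

/-- the dominant term wins -/
lemma ord_add_eq_of_lt {x y : K} (hx : x ≠ 0) (hy : y ≠ 0) (h : v.ord x < v.ord y) :
    x + y ≠ 0 ∧ v.ord (x + y) = v.ord x := by
  have hne : x + y ≠ 0 := by
    intro h0
    have : y = -x := by linear_combination h0
    rw [this, v.ord_neg] at h
    exact lt_irrefl _ h
  refine ⟨hne, le_antisymm ?_ ?_⟩
  · by_contra hlt
    rw [not_le] at hlt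
    have h1 := v.ord_sub hne hy (by simpa using hx)
    rw [add_sub_cancel_right] at h1
    rcases min_le_iff.mp h1 with h2 | h2 <;> linarith
  · have h1 := v.ord_add x y hx hy hne
    rwa [min_eq_left h.le] at h1

lemma ord_sub_eq_of_lt {x y : K} (hx : x ≠ 0) (hy : y ≠ 0) (h : v.ord x < v.ord y) :
    x - y ≠ 0 ∧ v.ord (x - y) = v.ord x := by
  have := v.ord_add_eq_of_lt hx (neg_ne_zero.mpr hy) (by rwa [v.ord_neg])
  rwa [← sub_eq_add_neg] at this

lemma ord_add_eq_of_gt {x y : K} (hx : x ≠ 0) (hy : y ≠ 0) (h : v.ord y < v.ord x) :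
    x + y ≠ 0 ∧ v.ord (x + y) = v.ord y := by
  have := v.ord_add_eq_of_lt hy hx h
  rwa [add_comm] at this

/-- `x` is integral for `v` -/
def IsInt (x : K) : Prop := x = 0 ∨ 0 ≤ v.ord x

/-- `x` lies in the maximal ideal for `v` -/
def IsSmall (x : K) : Prop := x = 0 ∨ 0 < v.ord x

/-- `x` is a unit for `v` -/
def IsUnit (x : K) : Prop := x ≠ 0 ∧ v.ord x = 0

lemma IsSmall.isInt {x : K} (h : v.IsSmall x) : v.IsInt x :=
  h.imp id le_of_lt

lemma IsUnit.isInt {x : K} (h : v.IsUnit x) : v.IsInt x := Or.inr h.2.ge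

lemma isInt_zero : v.IsInt 0 := Or.inl rfl

lemma isInt_one : v.IsInt 1 := Or.inr v.ord_one.ge

lemma isSmall_zero : v.IsSmall 0 := Or.inl rfl

lemma IsInt.neg {x : K} (h : v.IsInt x) : v.IsInt (-x) := by
  rcases h with h | h
  · exact Or.inl (by simp [h])
  · exact Or.inr (by rwa [v.ord_neg])

lemma IsSmall.neg {x : K} (h : v.IsSmall x) : v.IsSmall (-x) := by
  rcases h with h | h
  · exact Or.inl (by simp [h])
  · exact Or.inr (by rwa [v.ord_neg])

lemma IsInt.mul {x y : K} (hx : v.IsInt x) (hy : v.IsInt y) : v.IsInt (x * y) := by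
  by_cases hx0 : x = 0
  · exact Or.inl (by simp [hx0])
  by_cases hy0 : y = 0
  · exact Or.inl (by simp [hy0])
  · right
    rw [v.ord_mul x y hx0 hy0]
    have := hx.resolve_left hx0
    have := hy.resolve_left hy0
    linarith

lemma IsSmall.mul_isInt {x y : K} (hx : v.IsSmall x) (hy : v.IsInt y) : v.IsSmall (x * y) := by
  by_cases hx0 : x = 0
  · exact Or.inl (by simp [hx0])
  by_cases hy0 : y = 0
  · exact Or.inl (by simp [hy0])
  · right
    rw [v.ord_mul x y hx0 hy0]
    have := hx.resolve_left hx0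
    have := hy.resolve_left hy0
    linarith

lemma IsInt.mul_isSmall {x y : K} (hx : v.IsInt x) (hy : v.IsSmall y) : v.IsSmall (x * y) := by
  rw [mul_comm]; exact hy.mul_isInt v hx

lemma IsInt.add {x y : K} (hx : v.IsInt x) (hy : v.IsInt y) : v.IsInt (x + y) := by
  by_cases hx0 : x = 0
  · simpa [hx0] using hy
  by_cases hy0 : y = 0
  · simpa [hy0] using hx
  by_cases hxy : x + y = 0
  · exact Or.inl hxy
  · right
    have h := v.ord_add x y hx0 hy0 hxy
    have := hx.resolve_left hx0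
    have := hy.resolve_left hy0
    exact le_trans (le_min ‹_› ‹_›) h

lemma IsSmall.add {x y : K} (hx : v.IsSmall x) (hy : v.IsSmall y) : v.IsSmall (x + y) := by
  by_cases hx0 : x = 0
  · simpa [hx0] using hy
  by_cases hy0 : y = 0
  · simpa [hy0] using hx
  by_cases hxy : x + y = 0
  · exact Or.inl hxy
  · right
    have h := v.ord_add x y hx0 hy0 hxy
    have := hx.resolve_left hx0
    have := hy.resolve_left hy0
    exact lt_of_lt_of_le (lt_min ‹_› ‹_›) h

lemma IsInt.sub {x y : K} (hx : v.IsInt x) (hy : v.IsInt y) : v.IsInt (x - y) := by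
  rw [sub_eq_add_neg]; exact hx.add v (hy.neg v)

lemma IsSmall.sub {x y : K} (hx : v.IsSmall x) (hy : v.IsSmall y) : v.IsSmall (x - y) := by
  rw [sub_eq_add_neg]; exact hx.add v (hy.neg v)

lemma IsInt.pow {x : K} (hx : v.IsInt x) (n : ℕ) : v.IsInt (x ^ n) := by
  induction n with
  | zero => simpa using v.isInt_one
  | succ n ih => rw [pow_succ]; exact ih.mul v hx

lemma IsUnit.mul {x y : K} (hx : v.IsUnit x) (hy : v.IsUnit y) : v.IsUnit (x * y) :=
  ⟨mul_ne_zero hx.1 hy.1, by rw [v.ord_mul x y hx.1 hy.1, hx.2, hy.2, add_zero]⟩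

lemma IsUnit.inv {x : K} (hx : v.IsUnit x) : v.IsUnit x⁻¹ :=
  ⟨inv_ne_zero hx.1, by rw [v.ord_inv hx.1, hx.2, neg_zero]⟩

lemma IsUnit.pow {x : K} (hx : v.IsUnit x) (n : ℕ) : v.IsUnit (x ^ n) :=
  ⟨pow_ne_zero n hx.1, by rw [v.ord_pow hx.1, hx.2, mul_zero]⟩

lemma IsUnit.neg {x : K} (hx : v.IsUnit x) : v.IsUnit (-x) :=
  ⟨neg_ne_zero.mpr hx.1, by rw [v.ord_neg, hx.2]⟩

/-- unit plus small is a unit -/
lemma IsUnit.add_isSmall {x y : K} (hx : v.IsUnit x) (hy : v.IsSmall y) : v.IsUnit (x + y) := by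
  by_cases hy0 : y = 0
  · simpa [hy0] using hx
  · have := v.ord_add_eq_of_lt hx.1 hy0 (by rw [hx.2]; exact hy.resolve_left hy0)
    exact ⟨this.1, by rw [this.2, hx.2]⟩

lemma IsUnit.sub_isSmall {x y : K} (hx : v.IsUnit x) (hy : v.IsSmall y) : v.IsUnit (x - y) := by
  rw [sub_eq_add_neg]; exact hx.add_isSmall v (hy.neg v)

lemma isInt_or_inv_isSmall (x : K) : v.IsInt x ∨ (x ≠ 0 ∧ v.IsSmall x⁻¹) := by
  by_cases hx : x = 0
  · exact Or.inl (Or.inl hx)
  · rcases le_or_gt 0 (v.ord x) with h | h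
    · exact Or.inl (Or.inr h)
    · exact Or.inr ⟨hx, Or.inr (by rw [v.ord_inv hx]; linarith)⟩

end OrdFn

/-! ### the tent function and the clamped valuation -/

/-- `tent m s = min s (2m - s)` -/
def tent (m s : ℚ) : ℚ := min s (2 * m - s)

/-- clamped valuation of an abscissa: `m` at `X = 0`, else `ord X` clamped to `[0, m]` -/
noncomputable def kap {K : Type*} [Field K] (v : OrdFn K) (m : ℚ) (X : K) : ℚ :=
  open Classical in if X = 0 then m else max 0 (min (v.ord X) m)

end Fermat.Agent.S05
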