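import Mathlib

/-!
# S05: the additive tent recursion over `ℚ`

Let `0 < s ≤ m` in `ℚ`.  If a sequence `t : ℕ → ℚ` with `t 0 = 0`, `t 1 = s` satisfies, for
`1 ≤ n ≤ N`, the "unsigned component law"
`{t (n+1), t (n-1)} = {min (t n + s) (2m - (t n + s)), |t n - s|}` and `t (N+1) = t N`,
then `(2N+1) s ∈ 2 m ℤ`.
-/

set_option autoImplicit false

namespace Fermat.Agent.S05

namespace TentRecQ

/-- `u` is `± e s` modulo `2 m ℤ`. -/
def Q (s m : ℚ) (e : ℤ) (u : ℚ) : Prop :=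
  ∃ k : ℤ, u = e * s + 2 * k * m ∨ u = -(e * s) + 2 * k * m

variable {s m : ℚ}

lemma Q_neg {e : ℤ} {u : ℚ} (h : Q s m e u) : Q s m (-e) u := by
  obtain ⟨k, h | h⟩ := h
  · exact ⟨k, Or.inr (by push_cast; linarith)⟩
  · exact ⟨k, Or.inl (by push_cast; linarith)⟩

lemma step_of_eq {e k : ℤ} {u : ℚ} (hu : u = e * s + 2 * k * m) :
    Q s m (e + 1) (min (u + s) (2 * m - (u + s))) ∧ Q s m (e - 1) |u - s| := by
  constructor
  · rcases min_choice (u + s) (2 * m - (u + s)) with h | h <;> rw [h]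
    · exact ⟨k, Or.inl (by push_cast; linarith)⟩
    · exact ⟨1 - k, Or.inr (by push_cast; linarith)⟩
  · rcases abs_choice (u - s) with h | h <;> rw [h]
    · exact ⟨k, Or.inl (by push_cast; linarith)⟩
    · exact ⟨-k, Or.inr (by push_cast; linarith)⟩

lemma step {e : ℤ} {u : ℚ} (hu : Q s m e u) :
    (Q s m (e + 1) (min (u + s) (2 * m - (u + s))) ∧ Q s m (e - 1) |u - s|) ∨
      (Q s m (e - 1) (min (u + s) (2 * m - (u + s))) ∧ Q s m (e + 1) |u - s|) := by
  obtain ⟨k, h | h⟩ := hu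
  · exact Or.inl (step_of_eq h)
  · right
    have h' : u = ((-e : ℤ) : ℚ) * s + 2 * k * m := by push_cast; linarith
    obtain ⟨h1, h2⟩ := step_of_eq h'
    constructor
    · have := Q_neg h1
      rwa [show -(-e + 1) = e - 1 by ring] at this
    · have := Q_neg h2
      rwa [show -(-e - 1) = e + 1 by ring] at this

/-- if some element has both types `n-1` and `n+1`, then every element of type `n-1` has type
`n+1`. -/
lemma Q_transfer {n : ℤ} {v w : ℚ}
    (hv1 : Q s m (n - 1) v) (hv2 : Q s m (n + 1) v) (hw : Q s m (n - 1) w) :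
    Q s m (n + 1) w := by
  have key : ∃ j : ℤ, 2 * s = 2 * j * m ∨ 2 * n * s = 2 * j * m := by
    obtain ⟨k1, h1 | h1⟩ := hv1 <;> obtain ⟨k2, h2 | h2⟩ := hv2
    · exact ⟨k1 - k2, Or.inl (by push_cast at *; linarith)⟩
    · exact ⟨k2 - k1, Or.inr (by push_cast at *; linarith)⟩
    · exact ⟨k1 - k2, Or.inr (by push_cast at *; linarith)⟩
    · exact ⟨k2 - k1, Or.inl (by push_cast at *; linarith)⟩
  obtain ⟨j, hj | hj⟩ := key
  · obtain ⟨k, h | h⟩ := hw
    · exact ⟨k - j, Or.inl (by push_cast at *; linarith)⟩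
    · exact ⟨k + j, Or.inr (by push_cast at *; linarith)⟩
  · obtain ⟨k, h | h⟩ := hw
    · exact ⟨k + j, Or.inr (by push_cast at *; linarith)⟩
    · exact ⟨k - j, Or.inl (by push_cast at *; linarith)⟩

end TentRecQ

open TentRecQ in
/-- **The additive tent recursion.** -/
theorem tentRecQ (m s : ℚ) (hm : 0 < m) (hs0 : 0 < s) (hsm : s ≤ m)
    (N : ℕ) (t : ℕ → ℚ) (ht0 : t 0 = 0) (ht1 : t 1 = s)
    (hstep : ∀ n, 1 ≤ n → n ≤ N →
      (t (n + 1) = min (t n + s) (2 * m - (t n + s)) ∧ t (n - 1) = |t n - s|) ∨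
      (t (n + 1) = |t n - s| ∧ t (n - 1) = min (t n + s) (2 * m - (t n + s))))
    (hend : t (N + 1) = t N) :
    ∃ k : ℤ, (2 * (N : ℚ) + 1) * s = 2 * k * m := by
  have inv : ∀ n, n ≤ N → Q s m (n : ℤ) (t n) ∧ Q s m ((n : ℤ) + 1) (t (n + 1)) := by
    intro n
    induction n with
    | zero =>
      intro _
      refine ⟨⟨0, Or.inl ?_⟩, ⟨0, Or.inl ?_⟩⟩
      · rw [ht0]; simp
      · rw [zero_add, ht1]; simp
    | succ n ih =>
      intro hn
      obtain ⟨h1, h2⟩ := ih (by omega)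
      refine ⟨by simpa using h2, ?_⟩
      have h2' : Q s m ((n : ℤ) + 1) (t (n + 1)) := h2
      have h1' : Q s m (((n : ℤ) + 1) - 1) (t (n + 1 - 1)) := by simpa using h1
      push_cast
      rcases hstep (n + 1) (by omega) hn with ⟨ha, hb⟩ | ⟨ha, hb⟩ <;>
        rcases step h2' with ⟨hc, hd⟩ | ⟨hc, hd⟩
      · rw [ha]; exact hc
      · rw [hb] at h1'
        rw [ha]
        exact Q_transfer h1' hd hc
      · rw [hb] at h1'
        rw [ha]
        exact Q_transfer h1' hc hd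
      · rw [ha]; exact hd
  obtain ⟨hN, hN1⟩ := inv N le_rfl
  rw [hend] at hN1
  -- `s = 2 j m` is impossible
  have hbad : ∀ j : ℤ, s ≠ 2 * j * m := by
    intro j hj
    rcases le_or_gt j 0 with h | h
    · have : (j : ℚ) ≤ 0 := by exact_mod_cast h
      nlinarith
    · have : (1 : ℚ) ≤ j := by exact_mod_cast h
      nlinarith
  obtain ⟨k1, h1 | h1⟩ := hN <;> obtain ⟨k2, h2 | h2⟩ := hN1
  · exfalso
    apply hbad (k1 - k2)
    push_cast at *
    linarith
  · exact ⟨k2 - k1, by push_cast at *; linarith⟩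
  · exact ⟨k1 - k2, by push_cast at *; linarith⟩
  · exfalso
    apply hbad (k2 - k1)
    push_cast at *
    linarith

end Fermat.Agent.S05
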