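import Mathlib
import Fermat.Agent.S05.Defs
import Fermat.Agent.S05.TentRecQ
import Fermat.Agent.S05.XLaw

/-!
# S05: the component of a `p`-torsion point reducing to the node

`W` a Weierstrass curve over a field `F` of characteristic zero with a two-torsion abscissa `t`,
`v` an abstract `ℚ`-valued valuation with `A4 := sB4 W t / 2` small and nonzero (`m := ord A4`).
For a point `P ≠ 0` of odd prime order `p` whose shifted abscissa `X = x(P) - t` is small we show
`X ≠ 0`, `ord X < m` and `p * ord X ∈ 2 m ℤ`.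

The tent lemma and the duplication tent lemma (file `Tent.lean`) enter as hypotheses
`TentLemma v A2 A4`, `TentDouble v A2 A4` stated verbatim.
-/

set_option autoImplicit false
set_option linter.unusedSectionVars false

namespace Fermat.Agent.S05

open WeierstrassCurve WeierstrassCurve.Affine
open Fermat.Agent.S51

/-- the statement of `tent_lemma` (for fixed `v`, `A2`, `A4`) -/
def TentLemma {K : Type*} [Field K] (v : OrdFn K) (A2 A4 : K) : Prop :=
  ∀ {X1 X2 Zp Zm : K}, X1 ≠ X2 →
    Zp * Zm * (X1 - X2) ^ 2 = (X1 * X2 - A4) ^ 2 →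
    (Zp + Zm) * (X1 - X2) ^ 2 = 2 * ((X1 + X2) * (X1 * X2 + A4) + 2 * A2 * X1 * X2) →
    (kap v (v.ord A4) Zp = tent (v.ord A4) (kap v (v.ord A4) X1 + kap v (v.ord A4) X2) ∧
        kap v (v.ord A4) Zm = |kap v (v.ord A4) X1 - kap v (v.ord A4) X2|) ∨
      (kap v (v.ord A4) Zm = tent (v.ord A4) (kap v (v.ord A4) X1 + kap v (v.ord A4) X2) ∧
        kap v (v.ord A4) Zp = |kap v (v.ord A4) X1 - kap v (v.ord A4) X2|)

/-- the statement of `tent_double` (for fixed `v`, `A2`, `A4`) -/
def TentDouble {K : Type*} [Field K] (v : OrdFn K) (A2 A4 : K) : Prop :=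
  ∀ {X Y Z : K}, Y ≠ 0 → Y ^ 2 = X ^ 3 + A2 * X ^ 2 + A4 * X →
    Z * (4 * Y ^ 2) = (X ^ 2 - A4) ^ 2 →
    kap v (v.ord A4) Z = tent (v.ord A4) (2 * kap v (v.ord A4) X)

/-- the restricted statement of `tent_lemma`: all abscissas nonzero, `X2` small -/
def TentLemmaR {K : Type*} [Field K] (v : OrdFn K) (A2 A4 : K) : Prop :=
  ∀ {X1 X2 Zp Zm : K}, X1 ≠ X2 → X1 ≠ 0 → X2 ≠ 0 → 0 < v.ord X2 → Zp ≠ 0 → Zm ≠ 0 →
    Zp * Zm * (X1 - X2) ^ 2 = (X1 * X2 - A4) ^ 2 →
    (Zp + Zm) * (X1 - X2) ^ 2 = 2 * ((X1 + X2) * (X1 * X2 + A4) + 2 * A2 * X1 * X2) →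
    (kap v (v.ord A4) Zp = tent (v.ord A4) (kap v (v.ord A4) X1 + kap v (v.ord A4) X2) ∧
        kap v (v.ord A4) Zm = |kap v (v.ord A4) X1 - kap v (v.ord A4) X2|) ∨
      (kap v (v.ord A4) Zm = tent (v.ord A4) (kap v (v.ord A4) X1 + kap v (v.ord A4) X2) ∧
        kap v (v.ord A4) Zp = |kap v (v.ord A4) X1 - kap v (v.ord A4) X2|)

/-- the restricted statement of `tent_double`: `X`, `Z` nonzero, `X` small -/
def TentDoubleR {K : Type*} [Field K] (v : OrdFn K) (A2 A4 : K) : Prop :=
  ∀ {X Y Z : K}, Y ≠ 0 → X ≠ 0 → 0 < v.ord X → Z ≠ 0 → Y ^ 2 = X ^ 3 + A2 * X ^ 2 + A4 * X →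
    Z * (4 * Y ^ 2) = (X ^ 2 - A4) ^ 2 →
    kap v (v.ord A4) Z = tent (v.ord A4) (2 * kap v (v.ord A4) X)

lemma TentLemma.toR {K : Type*} [Field K] {v : OrdFn K} {A2 A4 : K} (h : TentLemma v A2 A4) :
    TentLemmaR v A2 A4 := fun h1 _ _ _ _ _ h2 h3 => h h1 h2 h3

lemma TentDouble.toR {K : Type*} [Field K] {v : OrdFn K} {A2 A4 : K} (h : TentDouble v A2 A4) :
    TentDoubleR v A2 A4 := fun h1 _ _ _ h2 h3 => h h1 h2 h3

variable {F : Type*} [Field F] [DecidableEq F] [CharZero F] {W : WeierstrassCurve F}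

/-- clamped valuation of the shifted abscissa of a point (`0` at the origin) -/
noncomputable def kapP (W : WeierstrassCurve F) (v : OrdFn F) (t : F) (m : ℚ)
    (Q : W.toAffine.Point) : ℚ :=
  match px W Q with
  | none => 0
  | some x => kap v m (x - t)

lemma kapP_zero (v : OrdFn F) (t : F) (m : ℚ) : kapP W v t m (0 : W.toAffine.Point) = 0 := rfl

lemma kapP_of_px (v : OrdFn F) (t : F) (m : ℚ) {Q : W.toAffine.Point} {x : F}
    (hQ : px W Q = some x) : kapP W v t m Q = kap v m (x - t) := by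
  simp only [kapP, hQ]

lemma kapP_neg (v : OrdFn F) (t : F) (m : ℚ) (Q : W.toAffine.Point) :
    kapP W v t m (-Q) = kapP W v t m Q := by
  simp only [kapP, px_neg]

/-- multiples `n • P`, `0 < n < p`, of a point of prime order `p` are nonzero -/
lemma nsmul_ne_zero_of_lt {P : W.toAffine.Point} {p : ℕ} (hp : p.Prime) (hP0 : P ≠ 0)
    (hpP : p • P = 0) {n : ℕ} (hn0 : 0 < n) (hnp : n < p) : n • P ≠ 0 := by
  intro h0
  have : Fact p.Prime := ⟨hp⟩
  have ho : addOrderOf P = p := addOrderOf_eq_prime hpP hP0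
  have hdvd : p ∣ n := by
    rw [← ho]
    exact addOrderOf_dvd_of_nsmul_eq_zero h0
  exact absurd (Nat.le_of_dvd hn0 hdvd) (by omega)

/-- a point of odd prime order does not have the two-torsion abscissa `t` -/
lemma px_sub_ne_zero_of_odd_order {t : F} (ht : cf W.b₂ W.b₄ W.b₆ t = 0) {p : ℕ} (hp : p.Prime)
    (hodd : p ≠ 2) {Q : W.toAffine.Point} (hQ0 : Q ≠ 0) (hpQ : p • Q = 0) {x : F}
    (hx : px W Q = some x) : x - t ≠ 0 := by
  intro h0
  have hxt : x = t := by linear_combination h0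
  obtain ⟨η, hη, hηsq⟩ := exists_peta_of_px hx
  rw [hxt, ht] at hηsq
  have hη0 : η = 0 := by simpa using hηsq
  have h2Q : Q + Q = 0 := (add_self_eq_zero_iff_peta hη).2 hη0
  have hp2 : 2 < p := lt_of_le_of_ne hp.two_le (Ne.symm hodd)
  exact nsmul_ne_zero_of_lt hp hQ0 hpQ (by norm_num) hp2 (by rw [two_nsmul]; exact h2Q)

/-- **The component of a `p`-torsion point near the node** (from the restricted tent lemmas). -/
theorem node_component_R (v : OrdFn F) {t : F} (ht : cf W.b₂ W.b₄ W.b₆ t = 0)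
    (hm : 0 < v.ord (sB4 W t / 2))
    (hTL : TentLemmaR v (sB2 W t / 4) (sB4 W t / 2))
    (hTD : TentDoubleR v (sB2 W t / 4) (sB4 W t / 2))
    {p : ℕ} (hp : p.Prime) (hodd : p ≠ 2) {P : W.toAffine.Point} (hP0 : P ≠ 0)
    (hpP : p • P = 0) {x : F} (hx : px W P = some x) (hsmall : v.IsSmall (x - t)) :
    x - t ≠ 0 ∧ v.ord (x - t) < v.ord (sB4 W t / 2) ∧
      ∃ k : ℤ, (p : ℚ) * v.ord (x - t) = 2 * k * v.ord (sB4 W t / 2) := by
  classical
  set A2 := sB2 W t / 4 with hA2def
  set A4 := sB4 W t / 2 with hA4def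
  set m := v.ord A4 with hmdef
  set X := x - t with hXdef
  set s := kap v m X with hsdef
  have h4 : (4 : F) ≠ 0 := by norm_num
  have h2 : (2 : F) ≠ 0 := by norm_num
  have hsB4 : sB4 W t = 2 * A4 := by rw [hA4def]; field_simp
  have hsB2 : sB2 W t = 4 * A2 := by rw [hA2def]; field_simp
  -- `0 < s ≤ m`
  have hs_pos : 0 < s := by
    rw [hsdef, kap]
    split_ifs with h0
    · exact hm
    · have h1 : 0 < v.ord X := hsmall.resolve_left h0
      exact lt_max_of_lt_right (lt_min h1 hm)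
  have hs_le : s ≤ m := by
    rw [hsdef, kap]
    split_ifs with h0
    · exact le_rfl
    · exact max_le hm.le (min_le_right _ _)
  -- parity
  have hp2 : 2 < p := lt_of_le_of_ne hp.two_le (Ne.symm hodd)
  obtain ⟨N, hN⟩ : ∃ N, p = 2 * N + 1 := by
    have := hp.odd_of_ne_two hodd
    obtain ⟨N, hN⟩ := this
    exact ⟨N, hN⟩
  have hN1 : 1 ≤ N := by omega
  -- the sequence
  set T : ℕ → ℚ := fun n => kapP W v t m (n • P) with hTdef
  have hT0 : T 0 = 0 := by simp only [hTdef, zero_smul]; rfl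
  have hT1 : T 1 = s := by
    simp only [hTdef, one_smul]
    rw [kapP_of_px v t m hx]
  -- coordinates of `P`
  obtain ⟨η, hη, hηsq⟩ := exists_peta_of_px hx
  have hηshift := peta_sq_shift ht hx hη
  -- the doubling step
  have hη0 : η ≠ 0 := by
    intro h0
    have h2P : P + P = 0 := (add_self_eq_zero_iff_peta hη).2 h0
    have : (2 : ℕ) • P ≠ 0 := nsmul_ne_zero_of_lt hp hP0 hpP (by norm_num) hp2
    exact this (by rw [two_nsmul]; exact h2P)
  have hpk0 : ∀ k : ℕ, p • (k • P) = 0 := fun k => by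
    rw [smul_comm, hpP, smul_zero]
  have hXne0 : X ≠ 0 := px_sub_ne_zero_of_odd_order ht hp hodd hP0 hpP hx
  have hXpos : 0 < v.ord X := hsmall.resolve_left hXne0
  -- abscissas of nonzero multiples are different from `t`
  have hmult : ∀ k : ℕ, 0 < k → k < p → ∀ {y : F}, px W (k • P) = some y → y - t ≠ 0 :=
    fun k hk0 hkp y hy =>
      px_sub_ne_zero_of_odd_order ht hp hodd (nsmul_ne_zero_of_lt hp hP0 hpP hk0 hkp) (hpk0 k) hy
  have hstep1 : T 2 = min (T 1 + s) (2 * m - (T 1 + s)) ∧ T 0 = |T 1 - s| := by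
    refine ⟨?_, by rw [hT0, hT1, sub_self, abs_zero]⟩
    obtain ⟨x', hx', e⟩ := F1 ht hx hη hη0
    have hY : η / 2 ≠ 0 := div_ne_zero hη0 h2
    have hE : (η / 2) ^ 2 = X ^ 3 + A2 * X ^ 2 + A4 * X := by
      rw [div_pow, hηshift, hsB2, hsB4]
      field_simp
      ring
    have hD : (x' - t) * (4 * (η / 2) ^ 2) = (X ^ 2 - A4) ^ 2 := by
      have e' : 4 * (x' - t) * η ^ 2 = (2 * X ^ 2 - 2 * A4) ^ 2 := by rw [← hsB4]; exact e
      have : (x' - t) * (4 * (η / 2) ^ 2) = (x' - t) * η ^ 2 := by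
        rw [div_pow]; field_simp; ring
      rw [this]
      apply mul_left_cancel₀ h4
      linear_combination e'
    have hZ : x' - t ≠ 0 := hmult 2 (by norm_num) hp2 (by rw [two_nsmul]; exact hx')
    have hk := hTD hY hXne0 hXpos hZ hE hD
    have hT2 : T 2 = kap v m (x' - t) := by
      simp only [hTdef]
      rw [two_nsmul, kapP_of_px v t m hx']
    rw [hT2, hk, hT1, tent]
    congr 1 <;> ring
  -- the general step
  have hstep : ∀ n, 1 ≤ n → n ≤ N →
      (T (n + 1) = min (T n + s) (2 * m - (T n + s)) ∧ T (n - 1) = |T n - s|) ∨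
      (T (n + 1) = |T n - s| ∧ T (n - 1) = min (T n + s) (2 * m - (T n + s))) := by
    intro n hn1 hnN
    rcases Nat.eq_or_lt_of_le hn1 with h1 | h1
    · subst h1
      exact Or.inl hstep1
    · -- `2 ≤ n`
      have hnp : n < p := by omega
      have hA0 : n • P ≠ 0 := nsmul_ne_zero_of_lt hp hP0 hpP (by omega) hnp
      obtain ⟨x₁, hx₁⟩ : ∃ x₁, px W (n • P) = some x₁ := by
        cases h : px W (n • P) with
        | none => exact absurd (px_eq_none_iff.mp h) hA0
        | some x₁ => exact ⟨x₁, rfl⟩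
      obtain ⟨η₁, hη₁, -⟩ := exists_peta_of_px hx₁
      have hne : x₁ ≠ x := by
        intro hxx
        have hpx : px W (n • P) = px W P := by rw [hx₁, hx, hxx]
        rcases px_eq_iff.mp hpx with h | h
        · -- `(n - 1) • P = 0`
          have : (n - 1) • P = 0 := by
            have h' : (n - 1) • P + P = P := by
              rw [← succ_nsmul, Nat.sub_add_cancel hn1, h]
            simpa using h'
          exact nsmul_ne_zero_of_lt hp hP0 hpP (by omega) (by omega) this
        · -- `(n + 1) • P = 0`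
          have : (n + 1) • P = 0 := by
            rw [succ_nsmul, h, neg_add_cancel]
          exact nsmul_ne_zero_of_lt hp hP0 hpP (by omega) (by omega) this
      obtain ⟨x₃, x₄, hx₃, hx₄, e2, e3, -, -⟩ := F234 ht hx₁ hx hη₁ hη hne
      have hXne : x₁ - t ≠ x - t := fun h => hne (by linear_combination h)
      have hPi : (x₃ - t) * (x₄ - t) * ((x₁ - t) - (x - t)) ^ 2 =
          ((x₁ - t) * (x - t) - A4) ^ 2 := by
        apply mul_left_cancel₀ h4
        rw [hsB4] at e2
        linear_combination e2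
      have hS : ((x₃ - t) + (x₄ - t)) * ((x₁ - t) - (x - t)) ^ 2 =
          2 * (((x₁ - t) + (x - t)) * ((x₁ - t) * (x - t) + A4) +
            2 * A2 * (x₁ - t) * (x - t)) := by
        rw [hsB4, hsB2] at e3
        linear_combination e3
      have hX1 : x₁ - t ≠ 0 := hmult n (by omega) hnp hx₁
      have hZp : x₃ - t ≠ 0 := hmult (n + 1) (by omega) (by omega) (by rw [succ_nsmul]; exact hx₃)
      have hnm1 : (n - 1) • P = n • P - P := by
        have h' : (n - 1) • P + P = n • P := by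
          rw [← succ_nsmul, Nat.sub_add_cancel hn1]
        rw [← h']; abel
      have hZm : x₄ - t ≠ 0 := hmult (n - 1) (by omega) (by omega) (by rw [hnm1]; exact hx₄)
      have hk := hTL hXne hX1 hXne0 hXpos hZp hZm hPi hS
      have hTn : T n = kap v m (x₁ - t) := by
        simp only [hTdef]; rw [kapP_of_px v t m hx₁]
      have hTn1 : T (n + 1) = kap v m (x₃ - t) := by
        simp only [hTdef]; rw [succ_nsmul, kapP_of_px v t m hx₃]
      have hTn0 : T (n - 1) = kap v m (x₄ - t) := by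
        simp only [hTdef]
        have : (n - 1) • P = n • P - P := by
          have h' : (n - 1) • P + P = n • P := by
            rw [← succ_nsmul, Nat.sub_add_cancel hn1]
          rw [← h']; abel
        rw [this, kapP_of_px v t m hx₄]
      rw [hTn, hTn1, hTn0]
      simp only [tent] at hk
      rcases hk with ⟨ha, hb⟩ | ⟨ha, hb⟩
      · exact Or.inl ⟨ha, hb⟩
      · exact Or.inr ⟨hb, ha⟩
  -- the end condition
  have hend : T (N + 1) = T N := by
    simp only [hTdef]
    have : (N + 1) • P = -(N • P) := by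
      have h' : (N + 1) • P + N • P = 0 := by
        rw [← add_nsmul, show N + 1 + N = p by omega, hpP]
      exact eq_neg_of_add_eq_zero_left h'
    rw [this, kapP_neg]
  obtain ⟨k, hk⟩ := tentRecQ m s hm hs_pos hs_le N T hT0 hT1 hstep hend
  have hpk : (p : ℚ) * s = 2 * k * m := by
    rw [← hk, hN]; push_cast; ring
  -- `s < m`
  have hs_lt : s < m := by
    rcases lt_or_eq_of_le hs_le with h | h
    · exact h
    · exfalso
      rw [h] at hpk
      have h1 : (p : ℚ) = 2 * k := by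
        have hm0 : m ≠ 0 := hm.ne'
        have : ((p : ℚ) - 2 * k) * m = 0 := by linarith
        rcases mul_eq_zero.mp this with h3 | h3
        · linarith
        · exact absurd h3 hm0
      have h2' : (p : ℤ) = 2 * k := by exact_mod_cast h1
      have : (p : ℤ) % 2 = 1 := by
        rw [hN]; push_cast; omega
      omega
  -- conclusion
  have hX0 : X ≠ 0 := by
    intro h0
    rw [hsdef, kap, if_pos h0] at hs_lt
    exact lt_irrefl _ hs_lt
  have hordX : v.ord X = s := by
    have h1 : 0 < v.ord X := hsmall.resolve_left hX0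
    have h3 : s = max 0 (min (v.ord X) m) := by rw [hsdef, kap, if_neg hX0]
    have h4 : max 0 (min (v.ord X) m) = min (v.ord X) m :=
      max_eq_right (le_min h1.le hm.le)
    rw [h4] at h3
    rcases min_choice (v.ord X) m with h5 | h5
    · rw [h5] at h3; exact h3.symm
    · rw [h5] at h3; exact absurd h3 hs_lt.ne
  exact ⟨hX0, by rw [hordX]; exact hs_lt, k, by rw [hordX]; exact hpk⟩

/-- **The component of a `p`-torsion point near the node** (from the general tent lemmas). -/
theorem node_component (v : OrdFn F) {t : F} (ht : cf W.b₂ W.b₄ W.b₆ t = 0)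
    (hm : 0 < v.ord (sB4 W t / 2))
    (hTL : TentLemma v (sB2 W t / 4) (sB4 W t / 2))
    (hTD : TentDouble v (sB2 W t / 4) (sB4 W t / 2))
    {p : ℕ} (hp : p.Prime) (hodd : p ≠ 2) {P : W.toAffine.Point} (hP0 : P ≠ 0)
    (hpP : p • P = 0) {x : F} (hx : px W P = some x) (hsmall : v.IsSmall (x - t)) :
    x - t ≠ 0 ∧ v.ord (x - t) < v.ord (sB4 W t / 2) ∧
      ∃ k : ℤ, (p : ℚ) * v.ord (x - t) = 2 * k * v.ord (sB4 W t / 2) :=
  node_component_R v ht hm hTL.toR hTD.toR hp hodd hP0 hpP hx hsmall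

end Fermat.Agent.S05
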