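import Fermat.Agent.S05.Congr
import Fermat.Agent.S05.XLawGalois
import Fermat.Agent.S05.Inertia

/-!
# The final node step

Points close to the node (`v(sB4) < v(x - t) < 1`): two points congruent in the strong sense
(`σ X / X ≡ 1`, `σ w ≡ w` for `w = η / X`) differ by a point of the kernel of reduction.
-/

set_option autoImplicit false
set_option linter.unusedSectionVars false

namespace Fermat.Agent.S05

open WeierstrassCurve WeierstrassCurve.Affine
open Fermat.Agent.S51

section general

variable {K : Type*} [Field K] [DecidableEq K] [CharZero K]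
variable {A : ValuationSubring K} {W : WeierstrassCurve K}

/-- near the node, `v η = v X` -/
lemma val_eta_eq_of_near_node {t : K} (ht : cf W.b₂ W.b₄ W.b₆ t = 0)
    (h2 : A.valuation (2 : K) = 1)
    (hB2 : A.valuation (sB2 W t) = 1)
    {P : W.toAffine.Point} {x η : K}
    (hP : px W P = some x) (hη : peta W P = some η)
    (hX1 : A.valuation (x - t) < 1) (hB4X : A.valuation (sB4 W t) < A.valuation (x - t)) :
    A.valuation η = A.valuation (x - t) := by
  set v := A.valuation with hv
  set X := x - t with hXdef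
  have h4 : v (4 : K) = 1 := by
    have : (4 : K) = 2 * 2 := by norm_num
    rw [this, map_mul, h2, one_mul]
  have hXpos : 0 < v X := lt_of_le_of_lt zero_le hB4X
  have hsq := peta_sq_shift ht hP hη
  -- valuations of the three terms
  have hA : v (4 * X ^ 3) < v (sB2 W t * X ^ 2) := by
    rw [map_mul, map_mul, h4, hB2, one_mul, one_mul, map_pow, map_pow, pow_succ (v X) 2]
    calc v X ^ 2 * v X < v X ^ 2 * 1 := by
          apply mul_lt_mul_of_pos_left hX1 (pow_pos hXpos 2)
      _ = v X ^ 2 := mul_one _
  have hC : v (2 * sB4 W t * X) < v (sB2 W t * X ^ 2) := by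
    rw [map_mul, map_mul, map_mul, h2, hB2, one_mul, one_mul, map_pow, pow_two]
    exact mul_lt_mul_of_pos_right hB4X hXpos
  have hsum : v (4 * X ^ 3 + sB2 W t * X ^ 2 + 2 * sB4 W t * X) = v (sB2 W t * X ^ 2) := by
    rw [Valuation.map_add_eq_of_lt_left v, Valuation.map_add_eq_of_lt_right v hA]
    rw [Valuation.map_add_eq_of_lt_right v hA]
    exact hC
  have h := congrArg v hsq
  rw [hsum, map_pow, map_mul, hB2, one_mul, map_pow] at h
  exact (pow_left_inj₀ zero_le zero_le two_ne_zero).mp h

/-- **Node step, Galois-free form.** `P = (x, η)` near the node (`v(sB4) < v(X) < 1`,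
`X = x - t`), `P' = (x', η')` with `v(x' - x) < v(X)` and
`v(η' X - η X') < v(X) v(X')` (i.e. `η'/X' ≡ η/X`). Then `P' - P` is in the kernel of
reduction. -/
theorem sub_inKer_of_congr_node {t : K} (ht : cf W.b₂ W.b₄ W.b₆ t = 0) (htA : t ∈ A)
    (h2 : A.valuation (2 : K) = 1) (hB2 : A.valuation (sB2 W t) = 1)
    {P P' : W.toAffine.Point} {x η x' η' : K}
    (hP : px W P = some x) (hη : peta W P = some η)
    (hP' : px W P' = some x') (hη' : peta W P' = some η')
    (hX1 : A.valuation (x - t) < 1) (hB4X : A.valuation (sB4 W t) < A.valuation (x - t))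
    (hdX : A.valuation (x' - x) < A.valuation (x - t))
    (hw : A.valuation (η' * (x - t) - η * (x' - t)) <
      A.valuation (x - t) * A.valuation (x' - t)) :
    InKer A W (P' - P) := by
  set v := A.valuation with hv
  have hvη := val_eta_eq_of_near_node ht h2 hB2 hP hη hX1 hB4X
  rw [← hv] at hvη
  set X := x - t with hXdef
  set X' := x' - t with hX'def
  have hXpos : 0 < v X := lt_of_le_of_lt zero_le hB4X
  have h4 : v (4 : K) = 1 := by
    have : (4 : K) = 2 * 2 := by norm_num
    rw [this, map_mul, h2, one_mul]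
  have hXX' : v X' = v X := by
    have : X' = X + (x' - x) := by rw [hXdef, hX'def]; ring
    rw [this, Valuation.map_add_eq_of_lt_left v hdX]
  rw [hXX'] at hw
  by_cases hxx : x' = x
  · have hxx' : x = x' := hxx.symm
    subst hxx'
    have hpx : px W P' = px W P := by rw [hP, hP']
    rcases px_eq_iff.mp hpx with rfl | rfl
    · rw [sub_self]; exact inKer_zero
    · exfalso
      have hη'' : η' = -η := by
        have := peta_neg_of_some hη
        rw [hη'] at this
        exact Option.some.inj this
      have : η' * X - η * X' = -(2 * η * X) := by rw [hη'', hX'def, hXdef]; ring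
      rw [this, Valuation.map_neg, map_mul, map_mul, h2, one_mul, hvη] at hw
      exact lt_irrefl _ hw
  · obtain ⟨x₃, x₄, -, h4x, -, -, -, e4⟩ := F234 ht hP' hP hη' hη hxx
    intro x₅ hx₅
    rw [h4x] at hx₅
    cases hx₅
    -- valuation of the right-hand side
    have hR : v (η' * X + η * X') = v X * v X := by
      have : η' * X + η * X' = 2 * η * X' + (η' * X - η * X') := by ring
      rw [this, Valuation.map_add_eq_of_lt_left v
        (by rw [map_mul, map_mul, h2, one_mul, hvη, hXX']; exact hw),
        map_mul, map_mul, h2, one_mul, hvη, hXX']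
    have hd0 : x' - x ≠ 0 := sub_ne_zero.mpr hxx
    have hdpos : 0 < v (x' - x) := zero_lt_iff.mpr ((Valuation.ne_zero_iff v).mpr hd0)
    rw [← hXdef, ← hX'def] at e4
    have hv4 := congrArg v e4
    simp only [map_mul, map_pow, h4, one_mul, hXX', hR] at hv4
    -- v (x₄ - t) * v X * v X * v d ^ 2 = (v X * v X) ^ 2
    have h1 : 1 < v (x₄ - t) := by
      by_contra hle
      rw [not_lt] at hle
      have hlt : v (x₄ - t) * v X * v X * v (x' - x) ^ 2 < (v X * v X) ^ 2 := by
        calc v (x₄ - t) * v X * v X * v (x' - x) ^ 2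
            ≤ 1 * v X * v X * v (x' - x) ^ 2 := by gcongr
          _ = (v X * v X) * v (x' - x) ^ 2 := by rw [one_mul]
          _ < (v X * v X) * v X ^ 2 := by
              apply mul_lt_mul_of_pos_left _ (mul_pos hXpos hXpos)
              gcongr
          _ = (v X * v X) ^ 2 := by rw [pow_two (v X), pow_two (v X * v X)]
      rw [hv4] at hlt
      exact lt_irrefl _ hlt
    intro hx₄A
    have : x₄ - t ∈ A := sub_mem hx₄A htA
    rw [← A.valuation_le_one_iff] at this
    exact absurd this (not_le.mpr h1)

end general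

section galois

local notation "Qbar" => AlgebraicClosure ℚ

/-- **Node step for inertia.** `σ` in the inertia group of `A`, `P = (x, η)` a point of `E(ℚ̄)`
near the node relative to the rational 2-torsion abscissa `t`, such that `v(x - t) = v(r)` for
some `σ`-fixed `r` (e.g. `r` rational). Then `σ P - P` is in the kernel of reduction. -/
theorem smul_sub_inKer_node (E : WeierstrassCurve ℚ) (A : ValuationSubring Qbar)
    {t : Qbar} (ht : cf (E⁄Qbar).b₂ (E⁄Qbar).b₄ (E⁄Qbar).b₆ t = 0) (htA : t ∈ A)
    (h2 : A.valuation (2 : Qbar) = 1) (hB2 : A.valuation (sB2 (E⁄Qbar) t) = 1)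
    {σ : Qbar ≃ₐ[ℚ] Qbar} (hσ : σ ∈ A.inertiaSubgroupIn ℚ) (hσt : σ t = t)
    {P : (E⁄Qbar).toAffine.Point} {x η : Qbar}
    (hP : px (E⁄Qbar) P = some x) (hη : peta (E⁄Qbar) P = some η)
    (hX1 : A.valuation (x - t) < 1)
    (hB4X : A.valuation (sB4 (E⁄Qbar) t) < A.valuation (x - t))
    (hr : ∃ r : Qbar, σ r = r ∧ A.valuation (x - t) = A.valuation r) :
    InKer A (E⁄Qbar) (σ • P - P) := by
  set v := A.valuation with hv
  have hP' : px (E⁄Qbar) (σ • P) = some (σ x) := by rw [px_galois, hP]; rfl
  have hη' : peta (E⁄Qbar) (σ • P) = some (σ η) := by rw [peta_galois, hη]; rfl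
  have hvη := val_eta_eq_of_near_node ht h2 hB2 hP hη hX1 hB4X
  rw [← hv] at hvη
  have hXpos : 0 < v (x - t) := lt_of_le_of_lt zero_le hB4X
  have hX0 : x - t ≠ 0 := (Valuation.ne_zero_iff v).mp (ne_of_gt hXpos)
  obtain ⟨r, hσr, hvr⟩ := hr
  have hr0 : r ≠ 0 := by
    apply (Valuation.ne_zero_iff v).mp
    rw [← hvr]; exact ne_of_gt hXpos
  have hσX : σ (x - t) = σ x - t := by rw [map_sub, hσt]
  have hvσX : v (σ x - t) = v (x - t) := by rw [← hσX]; exact valuation_apply_eq_rat hσ _
  -- `u = X / r` is a unit, so `σ u - u` is small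
  have hdX : v (σ x - x) < v (x - t) := by
    have hu : (x - t) / r ∈ A := by
      rw [← A.valuation_le_one_iff, map_div₀, ← hv, hvr, div_self]
      rw [← hvr]; exact ne_of_gt hXpos
    have h := valuation_apply_sub_lt_one hσ hu
    rw [map_div₀, hσr, hσX] at h
    have : (σ x - t) / r - (x - t) / r = (σ x - x) / r := by field_simp; ring
    rw [this, map_div₀, ← hv, ← hvr] at h
    rwa [div_lt_one₀ hXpos] at h
  -- `w = η / X` is a unit, so `σ w - w` is small
  have hw : v (σ η * (x - t) - η * (σ x - t)) < v (x - t) * v (σ x - t) := by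
    have hwA : η / (x - t) ∈ A := by
      rw [← A.valuation_le_one_iff, map_div₀, ← hv, hvη, div_self (ne_of_gt hXpos)]
    have h := valuation_apply_sub_lt_one hσ hwA
    rw [map_div₀, hσX] at h
    have hσX0 : σ x - t ≠ 0 := by
      apply (Valuation.ne_zero_iff v).mp
      rw [hvσX]; exact ne_of_gt hXpos
    have : σ η / (σ x - t) - η / (x - t) =
        (σ η * (x - t) - η * (σ x - t)) / ((x - t) * (σ x - t)) := by
      field_simp
    rw [this, map_div₀, ← hv, map_mul] at h
    have hpos : 0 < v (x - t) * v (σ x - t) := by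
      rw [hvσX]; exact mul_pos hXpos hXpos
    rwa [div_lt_one₀ hpos] at h
  exact sub_inKer_of_congr_node ht htA h2 hB2 hP hη hP' hη' hX1 hB4X hdX hw

end galois

end Fermat.Agent.S05
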