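import Fermat.Agent.S05.Congr

/-!
# Nonsingular reduction criterion

With `X = x - t` (`t` a 2-torsion abscissa), `η² = X (4 X² + B2 X + 2 B4)`; if the discriminant
`B2² - 32 B4` of the quadratic factor is a unit and (`B4` is a unit or `X` is a unit), then at every
integral point either `η` or the derivative of the 2-division cubic is a unit.
-/

set_option autoImplicit false
set_option linter.unusedSectionVars false

namespace Fermat.Agent.S05

open WeierstrassCurve WeierstrassCurve.Affine
open Fermat.Agent.S51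

variable {K : Type*} [Field K] [DecidableEq K] [CharZero K]
variable {A : ValuationSubring K} {W : WeierstrassCurve K}

lemma cf1_shift (t x : K) :
    cf1 W.b₂ W.b₄ x = 12 * (x - t) ^ 2 + 2 * sB2 W t * (x - t) + 2 * sB4 W t := by
  simp only [cf1, sB2, sB4]; ring

/-- in the multiplicative case the discriminant of the quadratic factor is a unit -/
lemma disc_unit_of_mult {t : K} (h2 : A.valuation (2 : K) = 1)
    (hB2 : A.valuation (sB2 W t) = 1) (hB4 : A.valuation (sB4 W t) < 1) :
    A.valuation (sB2 W t ^ 2 - 32 * sB4 W t) = 1 := by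
  set v := A.valuation
  have h32 : v (32 : K) = 1 := by
    have : (32 : K) = 2 ^ 5 := by norm_num
    rw [this, map_pow, h2, one_pow]
  have h1 : v (sB2 W t ^ 2) = 1 := by rw [map_pow, hB2, one_pow]
  have h3 : v (32 * sB4 W t) < 1 := by rw [map_mul, h32, one_mul]; exact hB4
  rw [Valuation.map_sub_eq_of_lt_left v (by rw [h1]; exact h3), h1]

/-- **Nonsingular reduction criterion.** -/
theorem nonsing {t : K} (ht : cf W.b₂ W.b₄ W.b₆ t = 0) (htA : t ∈ A)
    (h2 : A.valuation (2 : K) = 1) (hB2 : sB2 W t ∈ A) (hB4 : sB4 W t ∈ A)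
    (hdisc : A.valuation (sB2 W t ^ 2 - 32 * sB4 W t) = 1)
    {P : W.toAffine.Point} {x η : K}
    (hP : px W P = some x) (hη : peta W P = some η) (hx : x ∈ A)
    (h : A.valuation (sB4 W t) = 1 ∨ A.valuation (x - t) = 1) :
    A.valuation η = 1 ∨ A.valuation (cf1 W.b₂ W.b₄ x) = 1 := by
  set v := A.valuation with hv
  set X := x - t with hXdef
  set B2 := sB2 W t with hB2def
  set B4 := sB4 W t with hB4def
  have hXA : X ∈ A := sub_mem hx htA
  have hvX : v X ≤ 1 := (A.valuation_le_one_iff _).mpr hXA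
  have hvB2 : v B2 ≤ 1 := (A.valuation_le_one_iff _).mpr hB2
  have hvB4 : v B4 ≤ 1 := (A.valuation_le_one_iff _).mpr hB4
  have hnat : ∀ n : ℕ, v (n : K) ≤ 1 := fun n => (A.valuation_le_one_iff _).mpr (natCast_mem A n)
  have h4 : v (4 : K) = 1 := by
    have : (4 : K) = 2 * 2 := by norm_num
    rw [this, map_mul, h2, one_mul]
  have h16 : v (16 : K) = 1 := by
    have : (16 : K) = 2 ^ 4 := by norm_num
    rw [this, map_pow, h2, one_pow]
  have h8 : v (8 : K) ≤ 1 := by simpa using hnat 8
  have h12 : v (12 : K) ≤ 1 := by simpa using hnat 12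
  have hsq := peta_sq_shift ht hP hη
  rw [← hXdef, ← hB2def, ← hB4def] at hsq
  -- the quadratic factor and its derivative
  set g := 4 * X ^ 2 + B2 * X + 2 * B4 with hgdef
  set g' := 8 * X + B2 with hg'def
  have hfac : η ^ 2 = X * g := by rw [hsq, hgdef]; ring
  have hcf1 : cf1 W.b₂ W.b₄ x = g + X * g' := by
    rw [cf1_shift t x, ← hXdef, ← hB2def, ← hB4def, hgdef, hg'def]; ring
  have hcf1' : cf1 W.b₂ W.b₄ x = 2 * B4 + X * (12 * X + 2 * B2) := by
    rw [cf1_shift t x, ← hXdef, ← hB2def, ← hB4def]; ring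
  have hg'sq : g' ^ 2 = (B2 ^ 2 - 32 * B4) + 16 * g := by rw [hgdef, hg'def]; ring
  have hvg : v g ≤ 1 := by
    rw [hgdef]
    refine Valuation.map_add_le v (Valuation.map_add_le v ?_ ?_) ?_
    · rw [map_mul, map_pow, h4, one_mul]; exact pow_le_one₀ zero_le hvX
    · rw [map_mul]; exact mul_le_one₀ hvB2 zero_le hvX
    · rw [map_mul, h2, one_mul]; exact hvB4
  have hvη : v η ≤ 1 := by
    apply val_le_one_of_sq_le
    rw [hfac, map_mul]; exact mul_le_one₀ hvX zero_le hvg
  rcases lt_or_eq_of_le hvη with hlt | heq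
  swap
  · left; exact heq
  right
  -- v (X g) < 1
  have hXg : v X * v g < 1 := by
    rw [← map_mul, ← hfac, map_pow]; exact pow_lt_one₀ zero_le hlt (by norm_num)
  rcases lt_or_eq_of_le hvX with hXlt | hXeq
  · -- X small: then B4 is a unit
    have hB4u : v B4 = 1 := by
      rcases h with h | h
      · exact h
      · exact absurd h (ne_of_lt hXlt)
    rw [hcf1']
    have hs : v (X * (12 * X + 2 * B2)) < 1 := by
      rw [map_mul]
      have : v (12 * X + 2 * B2) ≤ 1 := by
        refine Valuation.map_add_le v ?_ ?_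
        · rw [map_mul]; exact mul_le_one₀ h12 zero_le hvX
        · rw [map_mul, h2, one_mul]; exact hvB2
      calc v X * v (12 * X + 2 * B2) ≤ v X * 1 := by gcongr
        _ = v X := mul_one _
        _ < 1 := hXlt
    have hb : v (2 * B4) = 1 := by rw [map_mul, h2, one_mul, hB4u]
    rw [Valuation.map_add_eq_of_lt_left v (by rw [hb]; exact hs), hb]
  · -- X unit: g small, g' unit
    have hglt : v g < 1 := by rwa [hXeq, one_mul] at hXg
    have hvg' : v g' = 1 := by
      have h1 : v (g' ^ 2) = 1 := by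
        rw [hg'sq, Valuation.map_add_eq_of_lt_left v, hdisc]
        rw [hdisc, map_mul, h16, one_mul]; exact hglt
      rw [map_pow] at h1
      exact (pow_eq_one_iff_of_nonneg zero_le two_ne_zero).mp h1
    rw [hcf1, Valuation.map_add_eq_of_lt_right v, map_mul, hXeq, hvg', one_mul]
    rw [map_mul, hXeq, hvg', one_mul]; exact hglt

end Fermat.Agent.S05
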