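import Fermat.Prelude.Def_FLTPrelim_Ramification
import Fermat.Agent.S05.KernelPx
import Fermat.Agent.S05.CongrGalois
import Fermat.Agent.S05.NodeInertia
import Fermat.Agent.S05.Nonsing
import Fermat.Agent.S05.NodeComponent
import Fermat.Agent.S05.FreyLocalOrd

/-!
# S05: assembly

The mod `p` representation of the Frey curve is unramified at every prime `q ≠ 2, p`, assuming the
(restricted) tent lemmas `TentLemmaR`, `TentDoubleR` for every `ℚ`-valued valuation on `Qbar`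
(hypothesis `TentHyp`, discharged in `Fermat/Agent/S05.lean` from `Tent.lean`).
-/

set_option autoImplicit false

namespace Fermat.Agent.S05

open WeierstrassCurve WeierstrassCurve.Affine
open Fermat.Agent.S51

local notation "Qbar" => AlgebraicClosure ℚ

/-- the tent lemmas, as a hypothesis -/
def TentHyp : Prop :=
  ∀ (v : OrdFn Qbar) (A2 A4 : Qbar), v.IsUnit (2 : Qbar) → v.IsUnit A2 → A4 ≠ 0 → 0 < v.ord A4 →
    TentLemmaR v A2 A4 ∧ TentDoubleR v A2 A4

section bInv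

variable (P : FreyPackage) (A : ValuationSubring Qbar) {q : ℕ}

lemma local_b₂_mem : (P.freyCurve⁄Qbar).b₂ ∈ A := by
  rw [frey_b₂]
  have : ((P.b : Qbar) ^ P.p - (P.a : Qbar) ^ P.p) = ((P.b ^ P.p - P.a ^ P.p : ℤ) : Qbar) := by
    push_cast; ring
  rw [this]
  exact frey_intCast_mem A _

lemma local_b₄_mem (hq : q.Prime) (hq2 : q ≠ 2) (hA : A.LiesOverPrime q) :
    (P.freyCurve⁄Qbar).b₄ ∈ A := by
  rw [frey_b₄, ← A.valuation_le_one_iff, frey_val_div_eight hq hq2 A hA, Valuation.map_neg]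
  have : ((P.a : Qbar) ^ P.p * (P.b : Qbar) ^ P.p) = ((P.a ^ P.p * P.b ^ P.p : ℤ) : Qbar) := by
    push_cast; ring
  rw [this]
  exact frey_val_intCast_le A _

lemma local_b₆_mem : (P.freyCurve⁄Qbar).b₆ ∈ A := by
  rw [frey_b₆]
  exact A.zero_mem

end bInv

/-- the key local statement: inertia at `q ≠ 2, p` fixes every `p`-torsion point of the Frey
curve -/
theorem local_smul_eq (hT : TentHyp) (P : FreyPackage) {q : ℕ} (hq : q.Prime) (hq2 : q ≠ 2)
    (hqp : q ≠ P.p) (A : ValuationSubring Qbar) (hA : A.LiesOverPrime q)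
    {σ : Qbar ≃ₐ[ℚ] Qbar} (hσ : σ ∈ A.inertiaSubgroupIn ℚ)
    (Pt : (P.freyCurve⁄Qbar).toAffine.Point) (hpPt : P.p • Pt = 0) : σ • Pt = Pt := by
  classical
  by_cases hPt0 : Pt = 0
  · rw [hPt0]; exact smul_zero (A := (P.freyCurve⁄Qbar).Point) σ
  -- basic local data
  have h2 : A.valuation (2 : Qbar) = 1 := frey_val_two A hq hq2 hA
  have hn : A.valuation (P.p : Qbar) = 1 := frey_val_natCast_prime A hq P.pp hqp hA
  have hb2 := local_b₂_mem P A
  have hb4 := local_b₄_mem P A hq hq2 hA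
  have hb6 := local_b₆_mem P A
  have hpx : px (P.freyCurve⁄Qbar) Pt = some (Kernel.xCoord Pt) := px_of_ne_zero hPt0
  set x := Kernel.xCoord Pt with hxdef
  obtain ⟨η, hη, -⟩ := exists_peta_of_px hpx
  -- (i) integrality of `x`
  by_cases hxA : x ∈ A
  swap
  · exact absurd hpPt (nsmul_ne_zero_of_px h2 hb2 hb4 hb6 hn hpx hxA)
  -- the final step
  have hfin : InKer A (P.freyCurve⁄Qbar) (σ • Pt - Pt) → σ • Pt = Pt :=
    smul_eq_of_sub_inKer P.freyCurve A h2 hb2 hb4 hb6 hn σ hpPt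
  apply hfin
  obtain ⟨t, ⟨r, htr⟩, htA, hcf, hB2A, hB4A, hcase⟩ := frey_local P hq hq2 A hA
  have hσt : σ t = t := by rw [htr]; exact σ.commutes r
  rcases hcase with ⟨h4, hdisc⟩ | ⟨hB2, n, hn0, hnlt, h4⟩
  · -- good reduction
    have hns := nonsing hcf htA h2 hB2A hB4A hdisc hpx hη hxA (Or.inl h4)
    exact smul_sub_inKer P.freyCurve A h2 hb2 hb4 hb6 hσ hpx hη hxA hns
  · -- multiplicative reduction
    have hn0' : (n : Qbar) ≠ 0 := by exact_mod_cast hn0
    have hB4lt : A.valuation (sB4 (P.freyCurve⁄Qbar) t) < 1 := by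
      rw [h4]; exact pow_lt_one₀ zero_le hnlt P.hp0
    have hdisc := disc_unit_of_mult (W := P.freyCurve⁄Qbar) h2 hB2 hB4lt
    have hXA : x - t ∈ A := sub_mem hxA htA
    have hXle : A.valuation (x - t) ≤ 1 := (A.valuation_le_one_iff _).mpr hXA
    rcases lt_or_eq_of_le hXle with hX1 | hX1
    swap
    · have hns := nonsing hcf htA h2 hB2A hB4A hdisc hpx hη hxA (Or.inr hX1)
      exact smul_sub_inKer P.freyCurve A h2 hb2 hb4 hb6 hσ hpx hη hxA hns
    -- the node case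
    have halg : Algebra.IsAlgebraic ℚ Qbar := AlgebraicClosure.isAlgebraic ℚ
    set v : OrdFn Qbar := freyOrd A hq hA with hvdef
    have hv2 : v.IsUnit (2 : Qbar) := (freyOrd_isUnit_iff A hq hA).mpr h2
    have h2ne : (2 : Qbar) ≠ 0 := two_ne_zero
    have hv4 : v.IsUnit (4 : Qbar) := by
      have := hv2.mul v hv2
      norm_num at this
      exact this
    have hvB2 : v.IsUnit (sB2 (P.freyCurve⁄Qbar) t) := (freyOrd_isUnit_iff A hq hA).mpr hB2
    have hpow0 : (n : Qbar) ^ P.p ≠ 0 := pow_ne_zero _ hn0'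
    have hB4ne : sB4 (P.freyCurve⁄Qbar) t ≠ 0 := by
      intro h0
      rw [h0, map_zero] at h4
      have : A.valuation (n : Qbar) ^ P.p ≠ 0 := by
        rw [← map_pow]
        exact (Valuation.ne_zero_iff _).mpr hpow0
      exact this h4.symm
    have hordB4 : v.ord (sB4 (P.freyCurve⁄Qbar) t) = (P.p : ℚ) * v.ord (n : Qbar) := by
      have h4' : A.valuation (sB4 (P.freyCurve⁄Qbar) t) = A.valuation ((n : Qbar) ^ P.p) := by
        rw [h4, map_pow]
      rw [hvdef, freyOrd_eq_of_val_eq A hq hA hB4ne hpow0 h4', OrdFn.ord_pow _ hn0']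
    have hordn : 0 < v.ord (n : Qbar) := (freyOrd_pos_iff A hq hA hn0').mpr hnlt
    have hA4ne : sB4 (P.freyCurve⁄Qbar) t / 2 ≠ 0 := div_ne_zero hB4ne h2ne
    have hordA4 : v.ord (sB4 (P.freyCurve⁄Qbar) t / 2) = v.ord (sB4 (P.freyCurve⁄Qbar) t) := by
      rw [v.ord_div hB4ne h2ne, hv2.2, sub_zero]
    have hp0 : (0 : ℚ) < P.p := by exact_mod_cast P.hppos
    have hm : 0 < v.ord (sB4 (P.freyCurve⁄Qbar) t / 2) := by
      rw [hordA4, hordB4]; exact mul_pos hp0 hordn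
    have hvA2 : v.IsUnit (sB2 (P.freyCurve⁄Qbar) t / 4) := by
      rw [div_eq_mul_inv]; exact hvB2.mul v (hv4.inv v)
    obtain ⟨hTL, hTD⟩ := hT v _ _ hv2 hvA2 hA4ne hm
    have hsmall : v.IsSmall (x - t) :=
      (freyOrd_isSmall_iff A hq hA).mpr (A.mem_nonunits_iff.mpr hX1)
    have hodd : P.p ≠ 2 := by have := P.hp5; omega
    obtain ⟨hX0, hXlt, k, hk⟩ :=
      node_component_R v hcf hm hTL hTD P.pp hodd hPt0 hpPt hpx hsmall
    rw [hordA4] at hXlt
    rw [hordA4, hordB4] at hk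
    -- `ord X = 2 k ord n`
    have hordX : v.ord (x - t) = v.ord ((n : Qbar) ^ (2 * k)) := by
      rw [v.ord_zpow hn0']
      have hp0' : (P.p : ℚ) ≠ 0 := hp0.ne'
      have : (P.p : ℚ) * v.ord (x - t) = (P.p : ℚ) * (((2 * k : ℤ) : ℚ) * v.ord (n : Qbar)) := by
        rw [hk]; push_cast; ring
      exact mul_left_cancel₀ hp0' this
    have hr0 : (n : Qbar) ^ (2 * k) ≠ 0 := zpow_ne_zero _ hn0'
    have hvr : A.valuation (x - t) = A.valuation ((n : Qbar) ^ (2 * k)) := by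
      apply le_antisymm
      · exact (ordOf_le_iff A hq hA hr0 hX0).mp hordX.ge
      · exact (ordOf_le_iff A hq hA hX0 hr0).mp hordX.le
    have hσr : σ ((n : Qbar) ^ (2 * k)) = (n : Qbar) ^ (2 * k) := by
      rw [map_zpow₀, map_intCast]
    have hB4X : A.valuation (sB4 (P.freyCurve⁄Qbar) t) < A.valuation (x - t) :=
      (ordOf_lt_iff A hq hA hX0 hB4ne).mp hXlt
    exact smul_sub_inKer_node P.freyCurve A hcf htA h2 hB2 hσ hσt hpx hη hX1 hB4X
      ⟨_, hσr, hvr⟩

/-- **S05 modulo the tent lemmas.** -/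
theorem frey_unramified_of_tent (hT : TentHyp) (P : FreyPackage) {q : ℕ} (hq : q.Prime)
    (hq2 : q ≠ 2) (hqp : q ≠ P.p) : P.GaloisRepUnramifiedAt q := by
  intro A hA σ hσ x
  apply Subtype.ext
  have hx : (P.p : ℤ) • x.1 = 0 := (Submodule.mem_torsionBy_iff _ _).mp x.2
  rw [natCast_zsmul] at hx
  exact local_smul_eq hT P hq hq2 hqp A hA hσ x.1 hx

end Fermat.Agent.S05
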