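import Fermat.Agent.S05.Defs

set_option autoImplicit false

/-!
S05, the tent lemma (pure valuation algebra over an abstract `ℚ`-valued `OrdFn`).

Given `X1 ≠ X2` and two numbers `Zp`, `Zm` whose product and sum are given by the
`x`-coordinate addition formulas on `Y² = X³ + A2 X² + A4 X` (`A2` a unit, `0 < ord A4 = m`),
the clamped valuations satisfy
`{kap Zp, kap Zm} = {tent m (kap X1 + kap X2), |kap X1 - kap X2|}`.

The proof is the Newton polygon of the quadratic with roots `Zp`, `Zm`, plus dominant-term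
casework on the sizes of `X1`, `X2`.
-/

namespace Fermat.Agent.S05

namespace OrdFn

variable {K : Type*} [Field K] {v : OrdFn K}

/-- `ord x ≥ c`, with the convention `ord 0 = ∞` -/
def Ge (v : OrdFn K) (x : K) (c : ℚ) : Prop := x = 0 ∨ c ≤ v.ord x

/-- `x ≠ 0` and `ord x = c` -/
def Is (v : OrdFn K) (x : K) (c : ℚ) : Prop := x ≠ 0 ∧ v.ord x = c

lemma ge_zero (c : ℚ) : v.Ge 0 c := Or.inl rfl

lemma Ge.mono {x : K} {c c' : ℚ} (h : v.Ge x c) (hc : c' ≤ c) : v.Ge x c' :=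
  h.imp id (le_trans hc)

lemma Ge.le_ord {x : K} {c : ℚ} (h : v.Ge x c) (hx : x ≠ 0) : c ≤ v.ord x :=
  h.resolve_left hx

lemma Is.ge {x : K} {c : ℚ} (h : v.Is x c) : v.Ge x c := Or.inr h.2.ge

lemma Is.ge_of_le {x : K} {c c' : ℚ} (h : v.Is x c) (hc : c' ≤ c) : v.Ge x c' :=
  h.ge.mono hc

lemma Is.congr {x : K} {c c' : ℚ} (h : v.Is x c) (hc : c = c') : v.Is x c' := hc ▸ h

lemma is_self {x : K} (hx : x ≠ 0) : v.Is x (v.ord x) := ⟨hx, rfl⟩

lemma IsUnit.is {x : K} (h : v.IsUnit x) : v.Is x 0 := h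

lemma Ge.neg {x : K} {c : ℚ} (h : v.Ge x c) : v.Ge (-x) c := by
  rcases h with h | h
  · exact Or.inl (by simp [h])
  · exact Or.inr (by rwa [v.ord_neg])

lemma Is.neg {x : K} {c : ℚ} (h : v.Is x c) : v.Is (-x) c :=
  ⟨neg_ne_zero.mpr h.1, by rw [v.ord_neg, h.2]⟩

lemma Ge.add {x y : K} {c : ℚ} (hx : v.Ge x c) (hy : v.Ge y c) : v.Ge (x + y) c := by
  by_cases hx0 : x = 0
  · simpa [hx0] using hy
  by_cases hy0 : y = 0
  · simpa [hy0] using hx
  by_cases hxy : x + y = 0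
  · exact Or.inl hxy
  · exact Or.inr (le_trans (le_min (hx.le_ord hx0) (hy.le_ord hy0)) (v.ord_add x y hx0 hy0 hxy))

lemma Ge.sub {x y : K} {c : ℚ} (hx : v.Ge x c) (hy : v.Ge y c) : v.Ge (x - y) c := by
  rw [sub_eq_add_neg]; exact hx.add hy.neg

lemma Ge.mul {x y : K} {a b : ℚ} (hx : v.Ge x a) (hy : v.Ge y b) : v.Ge (x * y) (a + b) := by
  by_cases hx0 : x = 0
  · exact Or.inl (by simp [hx0])
  by_cases hy0 : y = 0
  · exact Or.inl (by simp [hy0])
  · right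
    rw [v.ord_mul x y hx0 hy0]
    have := hx.le_ord hx0
    have := hy.le_ord hy0
    linarith

lemma Is.mul {x y : K} {a b : ℚ} (hx : v.Is x a) (hy : v.Is y b) : v.Is (x * y) (a + b) :=
  ⟨mul_ne_zero hx.1 hy.1, by rw [v.ord_mul x y hx.1 hy.1, hx.2, hy.2]⟩

lemma Is.sq {x : K} {a : ℚ} (hx : v.Is x a) : v.Is (x ^ 2) (2 * a) := by
  rw [pow_two]; exact (hx.mul hx).congr (by ring)

lemma Ge.sq {x : K} {a : ℚ} (hx : v.Ge x a) : v.Ge (x ^ 2) (2 * a) := by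
  rw [pow_two]; exact (hx.mul hx).mono (by linarith)

/-- the dominant term wins (the remainder may vanish) -/
lemma Is.add_ge {x y : K} {a c : ℚ} (hx : v.Is x a) (hy : v.Ge y c) (h : a < c) :
    v.Is (x + y) a := by
  by_cases hy0 : y = 0
  · simpa [hy0] using hx
  · have := v.ord_add_eq_of_lt hx.1 hy0 (by rw [hx.2]; exact lt_of_lt_of_le h (hy.le_ord hy0))
    exact ⟨this.1, by rw [this.2, hx.2]⟩

lemma Is.sub_ge {x y : K} {a c : ℚ} (hx : v.Is x a) (hy : v.Ge y c) (h : a < c) :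
    v.Is (x - y) a := by
  rw [sub_eq_add_neg]; exact hx.add_ge hy.neg h

lemma Is.ge_add {x y : K} {a c : ℚ} (hx : v.Is x a) (hy : v.Ge y c) (h : a < c) :
    v.Is (y + x) a := by
  rw [add_comm]; exact hx.add_ge hy h

lemma Is.ge_sub {x y : K} {a c : ℚ} (hx : v.Is x a) (hy : v.Ge y c) (h : a < c) :
    v.Is (y - x) a := by
  rw [sub_eq_add_neg, add_comm]; exact hx.neg.add_ge hy h

/-- divide out a factor of known valuation -/
lemma Is.of_mul_eq {a D b : K} {e c : ℚ} (hD : v.Is D e) (hb : v.Is b c) (h : a * D = b) :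
    v.Is a (c - e) := by
  have ha : a ≠ 0 := by
    rintro rfl
    rw [zero_mul] at h
    exact hb.1 h.symm
  refine ⟨ha, ?_⟩
  have := v.ord_mul a D ha hD.1
  rw [h, hb.2, hD.2] at this
  linarith

lemma Ge.of_mul_eq {a D b : K} {e c : ℚ} (hD : v.Is D e) (hb : v.Ge b c) (h : a * D = b) :
    v.Ge a (c - e) := by
  by_cases ha : a = 0
  · exact Or.inl ha
  · right
    have hb0 : b ≠ 0 := by rw [← h]; exact mul_ne_zero ha hD.1
    have := v.ord_mul a D ha hD.1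
    rw [h, hD.2] at this
    have := hb.le_ord hb0
    linarith

/-! ### Newton polygon of a quadratic, in terms of its two roots -/

private lemma both_ge_aux {z1 z2 : K} {c : ℚ} (hS : v.Ge (z1 + z2) c)
    (hP : v.Ge (z1 * z2) (2 * c)) : v.Ge z1 c := by
  by_cases h1 : z1 = 0
  · exact Or.inl h1
  right
  by_contra hlt
  rw [not_le] at hlt
  by_cases h2 : z2 = 0
  · rw [h2, add_zero] at hS
    have := hS.le_ord h1
    linarith
  · have hP' := hP.le_ord (mul_ne_zero h1 h2)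
    rw [v.ord_mul z1 z2 h1 h2] at hP'
    have := v.ord_add_eq_of_lt h1 h2 (by linarith)
    have hS' := hS.le_ord this.1
    rw [this.2] at hS'
    linarith

/-- sum and product large: both roots large -/
lemma both_ge {z1 z2 : K} {c : ℚ} (hS : v.Ge (z1 + z2) c) (hP : v.Ge (z1 * z2) (2 * c)) :
    v.Ge z1 c ∧ v.Ge z2 c :=
  ⟨both_ge_aux hS hP, both_ge_aux (by rwa [add_comm]) (by rwa [mul_comm])⟩

/-- product of exact valuation `2c`, sum at least `c`: both roots have valuation `c` -/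
lemma both_is {z1 z2 : K} {c : ℚ} (hS : v.Ge (z1 + z2) c) (hP : v.Is (z1 * z2) (2 * c)) :
    v.Is z1 c ∧ v.Is z2 c := by
  have h1 : z1 ≠ 0 := left_ne_zero_of_mul hP.1
  have h2 : z2 ≠ 0 := right_ne_zero_of_mul hP.1
  obtain ⟨g1, g2⟩ := both_ge hS hP.ge
  have e1 := g1.le_ord h1
  have e2 := g2.le_ord h2
  have := hP.2
  rw [v.ord_mul z1 z2 h1 h2] at this
  exact ⟨⟨h1, by linarith⟩, ⟨h2, by linarith⟩⟩

private lemma both_le_aux {z1 z2 : K} {p : ℚ} (hP : v.Is (z1 * z2) p) (hp : p ≤ 0)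
    (hS : v.Ge (z1 + z2) p) : z1 ≠ 0 ∧ v.ord z1 ≤ 0 := by
  have h1 : z1 ≠ 0 := left_ne_zero_of_mul hP.1
  have h2 : z2 ≠ 0 := right_ne_zero_of_mul hP.1
  refine ⟨h1, ?_⟩
  by_contra hlt
  rw [not_le] at hlt
  have hp2 := hP.2
  rw [v.ord_mul z1 z2 h1 h2] at hp2
  have := v.ord_add_eq_of_gt h1 h2 (by linarith)
  have hS' := hS.le_ord this.1
  rw [this.2] at hS'
  linarith

/-- product of valuation `p ≤ 0`, sum at least `p`: both roots have valuation `≤ 0` -/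
lemma both_le {z1 z2 : K} {p : ℚ} (hP : v.Is (z1 * z2) p) (hp : p ≤ 0)
    (hS : v.Ge (z1 + z2) p) : (z1 ≠ 0 ∧ v.ord z1 ≤ 0) ∧ (z2 ≠ 0 ∧ v.ord z2 ≤ 0) :=
  ⟨both_le_aux hP hp hS, both_le_aux (by rwa [mul_comm]) hp (by rwa [add_comm])⟩

/-- the two slopes of the Newton polygon: exact version -/
lemma split_is {z1 z2 : K} {e p : ℚ} (hS : v.Is (z1 + z2) e) (hP : v.Is (z1 * z2) p)
    (h : 2 * e < p) :
    (v.Is z1 e ∧ v.Is z2 (p - e)) ∨ (v.Is z2 e ∧ v.Is z1 (p - e)) := by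
  have h1 : z1 ≠ 0 := left_ne_zero_of_mul hP.1
  have h2 : z2 ≠ 0 := right_ne_zero_of_mul hP.1
  have hp2 := hP.2
  rw [v.ord_mul z1 z2 h1 h2] at hp2
  rcases lt_trichotomy (v.ord z1) (v.ord z2) with hlt | heq | hgt
  · left
    have := v.ord_add_eq_of_lt h1 h2 hlt
    rw [hS.2] at this
    exact ⟨⟨h1, this.2.symm⟩, ⟨h2, by linarith [this.2]⟩⟩
  · exfalso
    have := v.ord_add z1 z2 h1 h2 hS.1
    rw [hS.2, heq, min_self] at this
    linarith
  · right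
    have := v.ord_add_eq_of_gt h1 h2 hgt
    rw [hS.2] at this
    exact ⟨⟨h2, this.2.symm⟩, ⟨h1, by linarith [this.2]⟩⟩

/-- the two slopes of the Newton polygon: the large root only bounded below -/
lemma split_ge {z1 z2 : K} {e c : ℚ} (hS : v.Is (z1 + z2) e) (hP : v.Ge (z1 * z2) (e + c))
    (h : e < c) :
    (v.Is z1 e ∧ v.Ge z2 c) ∨ (v.Is z2 e ∧ v.Ge z1 c) := by
  by_cases h1 : z1 = 0
  · right
    rw [h1, zero_add] at hS
    exact ⟨hS, Or.inl h1⟩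
  by_cases h2 : z2 = 0
  · left
    rw [h2, add_zero] at hS
    exact ⟨hS, Or.inl h2⟩
  have hp2 := hP.le_ord (mul_ne_zero h1 h2)
  rw [v.ord_mul z1 z2 h1 h2] at hp2
  rcases lt_trichotomy (v.ord z1) (v.ord z2) with hlt | heq | hgt
  · left
    have := v.ord_add_eq_of_lt h1 h2 hlt
    rw [hS.2] at this
    exact ⟨⟨h1, this.2.symm⟩, Or.inr (by linarith [this.2])⟩
  · exfalso
    have := v.ord_add z1 z2 h1 h2 hS.1
    rw [hS.2, heq, min_self] at this
    linarith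
  · right
    have := v.ord_add_eq_of_gt h1 h2 hgt
    rw [hS.2] at this
    exact ⟨⟨h2, this.2.symm⟩, Or.inr (by linarith [this.2])⟩

end OrdFn

open OrdFn

/-! ### the clamped valuation -/

section kapLemmas

variable {K : Type*} [Field K] {v : OrdFn K} {m : ℚ}

lemma kap_of_is {z : K} {c : ℚ} (h : v.Is z c) : kap v m z = max 0 (min c m) := by
  unfold kap
  rw [if_neg h.1, h.2]

lemma kap_of_is_mid {z : K} {c : ℚ} (h : v.Is z c) (h0 : 0 ≤ c) (h1 : c ≤ m) :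
    kap v m z = c := by
  rw [kap_of_is h, min_eq_left h1, max_eq_right h0]

lemma kap_of_is_nonpos {z : K} {c : ℚ} (h : v.Is z c) (h0 : c ≤ 0) : kap v m z = 0 := by
  rw [kap_of_is h]
  exact max_eq_left (le_trans (min_le_left _ _) h0)

lemma kap_of_ord_nonpos {z : K} (hz : z ≠ 0) (h : v.ord z ≤ 0) : kap v m z = 0 :=
  kap_of_is_nonpos ⟨hz, rfl⟩ h

lemma kap_of_ge (hm : 0 ≤ m) {z : K} (h : v.Ge z m) : kap v m z = m := by
  unfold kap
  split_ifs with hz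
  · rfl
  · rw [min_eq_right (h.le_ord hz), max_eq_right hm]

lemma kap_nonneg (hm : 0 ≤ m) (z : K) : 0 ≤ kap v m z := by
  unfold kap
  split_ifs with hz
  · exact hm
  · exact le_max_left _ _

lemma kap_le (hm : 0 ≤ m) (z : K) : kap v m z ≤ m := by
  unfold kap
  split_ifs with hz
  · exact le_rfl
  · exact max_le hm (min_le_right _ _)

end kapLemmas

/-! ### the numerators of the product and of the sum -/

section numerators

variable {K : Type*} [Field K] {v : OrdFn K} {A2 A4 X1 X2 : K}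

lemma numP_is_lt {m c : ℚ} (hA4 : v.Is A4 m) (h : v.Is (X1 * X2) c) (hc : c < m) :
    v.Is (X1 * X2 - A4) c := h.sub_ge hA4.ge hc

lemma numP_is_gt {m c : ℚ} (hA4 : v.Is A4 m) (h : v.Ge (X1 * X2) c) (hc : m < c) :
    v.Is (X1 * X2 - A4) m := hA4.ge_sub h hc

lemma numP_ge {m c : ℚ} (hA4 : v.Ge A4 m) (h : v.Ge (X1 * X2) c) (hc : c ≤ m) :
    v.Ge (X1 * X2 - A4) c := h.sub (hA4.mono hc)

/-- lower bound for the numerator of the sum -/
lemma numS_ge (h2 : v.IsUnit (2 : K)) (hA2 : v.IsUnit A2) {m a b e c n : ℚ}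
    (hA4 : v.Ge A4 m) (h1 : v.Ge X1 a) (hx2 : v.Ge X2 b) (he1 : e ≤ a) (he2 : e ≤ b)
    (hc1 : c ≤ a + b) (hc2 : c ≤ m) (hn1 : n ≤ e + c) (hn2 : n ≤ a + b) :
    v.Ge (2 * ((X1 + X2) * (X1 * X2 + A4) + 2 * A2 * X1 * X2)) n := by
  have hσ : v.Ge (X1 + X2) e := (h1.mono he1).add (hx2.mono he2)
  have hq : v.Ge (X1 * X2 + A4) c := ((h1.mul hx2).mono hc1).add (hA4.mono hc2)
  have ht1 : v.Ge ((X1 + X2) * (X1 * X2 + A4)) n := (hσ.mul hq).mono hn1
  have ht2 : v.Ge (2 * A2 * X1 * X2) n := by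
    have := ((h2.is.ge.mul hA2.is.ge).mul h1).mul hx2
    exact this.mono (by linarith)
  have := h2.is.ge.mul (ht1.add ht2)
  exact this.mono (by linarith)

/-- exact valuation of the numerator of the sum when both abscissas are small -/
lemma numS_is (h2 : v.IsUnit (2 : K)) (hA2 : v.IsUnit A2) {m a b : ℚ}
    (hA4 : v.Ge A4 m) (h1 : v.Is X1 a) (hx2 : v.Is X2 b) (ha : 0 < a) (hab : a ≤ b)
    (hb : b < m) :
    v.Is (2 * ((X1 + X2) * (X1 * X2 + A4) + 2 * A2 * X1 * X2)) (a + b) := by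
  have hσ : v.Ge (X1 + X2) a := h1.ge.add (hx2.ge_of_le hab)
  have hq : v.Ge (X1 * X2 + A4) (min (a + b) m) :=
    ((h1.ge.mul hx2.ge).mono (min_le_left _ _)).add (hA4.mono (min_le_right _ _))
  have ht1 := hσ.mul hq
  have ht2 : v.Is (2 * A2 * X1 * X2) (a + b) :=
    (((h2.is.mul hA2.is).mul h1).mul hx2).congr (by ring)
  have hlt : a + b < a + min (a + b) m := by
    have : b < min (a + b) m := lt_min (by linarith) hb
    linarith
  have := ht2.ge_add ht1 hlt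
  exact (h2.is.mul this).congr (by ring)

end numerators

/-! ### the conclusion of the tent lemma -/

section concl

variable {K : Type*} [Field K]

/-- the conclusion of the tent lemma -/
def TentConcl (v : OrdFn K) (m : ℚ) (X1 X2 Zp Zm : K) : Prop :=
  (kap v m Zp = tent m (kap v m X1 + kap v m X2) ∧ kap v m Zm = |kap v m X1 - kap v m X2|) ∨
  (kap v m Zm = tent m (kap v m X1 + kap v m X2) ∧ kap v m Zp = |kap v m X1 - kap v m X2|)

variable {v : OrdFn K} {m : ℚ} {X1 X2 Zp Zm : K}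

lemma TentConcl.swap (h : TentConcl v m X2 X1 Zp Zm) : TentConcl v m X1 X2 Zp Zm := by
  unfold TentConcl at h ⊢
  rwa [add_comm (kap v m X1), abs_sub_comm (kap v m X1)]

lemma tentConcl_of_both {c : ℚ} (hp : kap v m Zp = c) (hmm : kap v m Zm = c)
    (hT : tent m (kap v m X1 + kap v m X2) = c) (hD : |kap v m X1 - kap v m X2| = c) :
    TentConcl v m X1 X2 Zp Zm :=
  Or.inl ⟨hp.trans hT.symm, hmm.trans hD.symm⟩

end concl

/-! ### the cases -/

section cases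

variable {K : Type*} [Field K] {v : OrdFn K} {A2 A4 X1 X2 Zp Zm : K}

/-- `X1` not small, `X2` at least as small as `A4` -/
lemma tent_case1 (h2 : v.IsUnit (2 : K)) (hA2 : v.IsUnit A2) {m o1 : ℚ} (hm : 0 < m)
    (hA4 : v.Is A4 m) (h1 : v.Is X1 o1) (ho1 : o1 ≤ 0) (hx2 : v.Ge X2 m)
    (hPi : Zp * Zm * (X1 - X2) ^ 2 = (X1 * X2 - A4) ^ 2)
    (hS : (Zp + Zm) * (X1 - X2) ^ 2 = 2 * ((X1 + X2) * (X1 * X2 + A4) + 2 * A2 * X1 * X2)) :
    TentConcl v m X1 X2 Zp Zm := by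
  have hd : v.Is (X1 - X2) o1 := h1.sub_ge hx2 (by linarith)
  have hR : v.Ge (X1 * X2 - A4) (o1 + m) := numP_ge hA4.ge (h1.ge.mul hx2) (by linarith)
  have hN := numS_ge h2 hA2 hA4.ge h1.ge hx2 (e := o1) (c := o1 + m) (n := 2 * o1 + m)
    le_rfl (by linarith) le_rfl (by linarith) (by linarith) (by linarith)
  have hPr : v.Ge (Zp * Zm) (2 * m) := (Ge.of_mul_eq hd.sq hR.sq hPi).mono (by linarith)
  have hSm : v.Ge (Zp + Zm) m := (Ge.of_mul_eq hd.sq hN hS).mono (by linarith)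
  obtain ⟨gp, gm⟩ := both_ge hSm hPr
  have k1 : kap v m X1 = 0 := kap_of_is_nonpos h1 ho1
  have k2 : kap v m X2 = m := kap_of_ge hm.le hx2
  refine tentConcl_of_both (c := m) (kap_of_ge hm.le gp) (kap_of_ge hm.le gm) ?_ ?_
  · rw [k1, k2]; unfold tent; rw [zero_add, min_eq_left (by linarith)]
  · rw [k1, k2, zero_sub, abs_neg, abs_of_pos hm]

/-- `X1` not small, `X2` strictly smaller than `X1` but not as small as `A4` -/
lemma tent_case2 (h2 : v.IsUnit (2 : K)) (hA2 : v.IsUnit A2) {m o1 o2 : ℚ} (hm : 0 < m)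
    (hA4 : v.Is A4 m) (h1 : v.Is X1 o1) (ho1 : o1 ≤ 0) (hx2 : v.Is X2 o2) (h12 : o1 < o2)
    (h2m : o2 < m)
    (hPi : Zp * Zm * (X1 - X2) ^ 2 = (X1 * X2 - A4) ^ 2)
    (hS : (Zp + Zm) * (X1 - X2) ^ 2 = 2 * ((X1 + X2) * (X1 * X2 + A4) + 2 * A2 * X1 * X2)) :
    TentConcl v m X1 X2 Zp Zm := by
  have hd : v.Is (X1 - X2) o1 := h1.sub_ge hx2.ge h12
  have hR : v.Is (X1 * X2 - A4) (o1 + o2) := numP_is_lt hA4 (h1.mul hx2) (by linarith)
  have hN := numS_ge h2 hA2 hA4.ge h1.ge hx2.ge (e := o1) (c := o1 + o2) (n := 2 * o1 + o2)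
    le_rfl h12.le le_rfl (by linarith) (by linarith) (by linarith)
  have hPr : v.Is (Zp * Zm) (2 * o2) := (Is.of_mul_eq hd.sq hR.sq hPi).congr (by ring)
  have hSm : v.Ge (Zp + Zm) o2 := (Ge.of_mul_eq hd.sq hN hS).mono (by linarith)
  obtain ⟨ip, im⟩ := both_is hSm hPr
  have k1 : kap v m X1 = 0 := kap_of_is_nonpos h1 ho1
  have kp : kap v m Zp = kap v m X2 := by rw [kap_of_is ip, kap_of_is hx2]
  have km : kap v m Zm = kap v m X2 := by rw [kap_of_is im, kap_of_is hx2]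
  have hk0 : 0 ≤ kap v m X2 := kap_nonneg hm.le X2
  have hkm : kap v m X2 ≤ m := kap_le hm.le X2
  refine tentConcl_of_both (c := kap v m X2) kp km ?_ ?_
  · rw [k1, zero_add]; unfold tent; rw [min_eq_left (by linarith)]
  · rw [k1, zero_sub, abs_neg, abs_of_nonneg hk0]

/-- `X1`, `X2` not small, of the same valuation -/
lemma tent_case3 (h2 : v.IsUnit (2 : K)) (hA2 : v.IsUnit A2) {m o1 : ℚ} (hm : 0 < m)
    (hA4 : v.Is A4 m) (h1 : v.Is X1 o1) (ho1 : o1 ≤ 0) (hx2 : v.Is X2 o1) (hne : X1 ≠ X2)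
    (hPi : Zp * Zm * (X1 - X2) ^ 2 = (X1 * X2 - A4) ^ 2)
    (hS : (Zp + Zm) * (X1 - X2) ^ 2 = 2 * ((X1 + X2) * (X1 * X2 + A4) + 2 * A2 * X1 * X2)) :
    TentConcl v m X1 X2 Zp Zm := by
  have hd0 : X1 - X2 ≠ 0 := sub_ne_zero.mpr hne
  have hδ : o1 ≤ v.ord (X1 - X2) := (h1.ge.sub hx2.ge).le_ord hd0
  have hd : v.Is (X1 - X2) (v.ord (X1 - X2)) := is_self hd0
  generalize v.ord (X1 - X2) = δ at hδ hd
  have hR : v.Is (X1 * X2 - A4) (o1 + o1) := numP_is_lt hA4 (h1.mul hx2) (by linarith)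
  have hN := numS_ge h2 hA2 hA4.ge h1.ge hx2.ge (e := o1) (c := o1 + o1) (n := 4 * o1)
    le_rfl le_rfl le_rfl (by linarith) (by linarith) (by linarith)
  have hPr : v.Is (Zp * Zm) (4 * o1 - 2 * δ) := (Is.of_mul_eq hd.sq hR.sq hPi).congr (by ring)
  have hSm : v.Ge (Zp + Zm) (4 * o1 - 2 * δ) := Ge.of_mul_eq hd.sq hN hS
  obtain ⟨⟨hp0, hp⟩, ⟨hm0, hm'⟩⟩ := both_le hPr (by linarith) hSm
  have k1 : kap v m X1 = 0 := kap_of_is_nonpos h1 ho1
  have k2 : kap v m X2 = 0 := kap_of_is_nonpos hx2 ho1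
  refine tentConcl_of_both (c := 0) (kap_of_ord_nonpos hp0 hp) (kap_of_ord_nonpos hm0 hm') ?_ ?_
  · rw [k1, k2]; unfold tent; rw [add_zero, min_eq_left (by linarith)]
  · rw [k1, k2, sub_self, abs_zero]

/-- `X1` small but not as small as `A4`, `X2` at least as small as `A4` -/
lemma tent_case4 (h2 : v.IsUnit (2 : K)) (hA2 : v.IsUnit A2) {m o1 : ℚ} (hm : 0 < m)
    (hA4 : v.Is A4 m) (h1 : v.Is X1 o1) (ho1 : 0 < o1) (h1m : o1 < m) (hx2 : v.Ge X2 m)
    (hPi : Zp * Zm * (X1 - X2) ^ 2 = (X1 * X2 - A4) ^ 2)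
    (hS : (Zp + Zm) * (X1 - X2) ^ 2 = 2 * ((X1 + X2) * (X1 * X2 + A4) + 2 * A2 * X1 * X2)) :
    TentConcl v m X1 X2 Zp Zm := by
  have hd : v.Is (X1 - X2) o1 := h1.sub_ge hx2 h1m
  have hR : v.Is (X1 * X2 - A4) m := numP_is_gt hA4 (h1.ge.mul hx2) (by linarith)
  have hN := numS_ge h2 hA2 hA4.ge h1.ge hx2 (e := o1) (c := m) (n := o1 + m)
    le_rfl h1m.le (by linarith) le_rfl le_rfl le_rfl
  have hPr : v.Is (Zp * Zm) (2 * (m - o1)) := (Is.of_mul_eq hd.sq hR.sq hPi).congr (by ring)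
  have hSm : v.Ge (Zp + Zm) (m - o1) := (Ge.of_mul_eq hd.sq hN hS).mono (by linarith)
  obtain ⟨ip, im⟩ := both_is hSm hPr
  have k1 : kap v m X1 = o1 := kap_of_is_mid h1 ho1.le h1m.le
  have k2 : kap v m X2 = m := kap_of_ge hm.le hx2
  refine tentConcl_of_both (c := m - o1) (kap_of_is_mid ip (by linarith) (by linarith))
    (kap_of_is_mid im (by linarith) (by linarith)) ?_ ?_
  · rw [k1, k2]; unfold tent; rw [min_eq_right (by linarith)]; ring
  · rw [k1, k2, abs_of_nonpos (by linarith)]; ring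

/-- `X1`, `X2` both at least as small as `A4` -/
lemma tent_case6 (h2 : v.IsUnit (2 : K)) (hA2 : v.IsUnit A2) {m : ℚ} (hm : 0 < m)
    (hA4 : v.Is A4 m) (h1 : v.Ge X1 m) (hx2 : v.Ge X2 m) (hne : X1 ≠ X2)
    (hPi : Zp * Zm * (X1 - X2) ^ 2 = (X1 * X2 - A4) ^ 2)
    (hS : (Zp + Zm) * (X1 - X2) ^ 2 = 2 * ((X1 + X2) * (X1 * X2 + A4) + 2 * A2 * X1 * X2)) :
    TentConcl v m X1 X2 Zp Zm := by
  have hd0 : X1 - X2 ≠ 0 := sub_ne_zero.mpr hne
  have hδ : m ≤ v.ord (X1 - X2) := (h1.sub hx2).le_ord hd0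
  have hd : v.Is (X1 - X2) (v.ord (X1 - X2)) := is_self hd0
  generalize v.ord (X1 - X2) = δ at hδ hd
  have hR : v.Is (X1 * X2 - A4) m := numP_is_gt hA4 (h1.mul hx2) (by linarith)
  have hN := numS_ge h2 hA2 hA4.ge h1 hx2 (e := m) (c := m) (n := 2 * m)
    le_rfl le_rfl (by linarith) le_rfl (by linarith) (by linarith)
  have hPr : v.Is (Zp * Zm) (2 * m - 2 * δ) := Is.of_mul_eq hd.sq hR.sq hPi
  have hSm : v.Ge (Zp + Zm) (2 * m - 2 * δ) := Ge.of_mul_eq hd.sq hN hS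
  obtain ⟨⟨hp0, hp⟩, ⟨hm0, hm'⟩⟩ := both_le hPr (by linarith) hSm
  have k1 : kap v m X1 = m := kap_of_ge hm.le h1
  have k2 : kap v m X2 = m := kap_of_ge hm.le hx2
  refine tentConcl_of_both (c := 0) (kap_of_ord_nonpos hp0 hp) (kap_of_ord_nonpos hm0 hm') ?_ ?_
  · rw [k1, k2]; unfold tent; rw [min_eq_right (by linarith)]; ring
  · rw [k1, k2, sub_self, abs_zero]

/-- `X1`, `X2` both small but not as small as `A4`: the generic case -/
lemma tent_case5 (h2 : v.IsUnit (2 : K)) (hA2 : v.IsUnit A2) {m a b δ : ℚ} (hm : 0 < m)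
    (hA4 : v.Is A4 m) (h1 : v.Is X1 a) (hx2 : v.Is X2 b) (ha : 0 < a) (hab : a ≤ b)
    (hb : b < m) (hd : v.Is (X1 - X2) δ) (hδ : a ≤ δ) (hδ' : a < b → δ = a)
    (hPi : Zp * Zm * (X1 - X2) ^ 2 = (X1 * X2 - A4) ^ 2)
    (hS : (Zp + Zm) * (X1 - X2) ^ 2 = 2 * ((X1 + X2) * (X1 * X2 + A4) + 2 * A2 * X1 * X2)) :
    TentConcl v m X1 X2 Zp Zm := by
  have hN := numS_is h2 hA2 hA4.ge h1 hx2 ha hab hb
  have hSm : v.Is (Zp + Zm) (a + b - 2 * δ) := Is.of_mul_eq hd.sq hN hS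
  have k1 : kap v m X1 = a := kap_of_is_mid h1 ha.le (by linarith)
  have k2 : kap v m X2 = b := kap_of_is_mid hx2 (by linarith) hb.le
  -- the root carrying the difference
  have hDroot : ∀ z : K, v.Is z (a + b - 2 * δ) → kap v m z = |kap v m X1 - kap v m X2| := by
    intro z hz
    rw [k1, k2]
    rcases hab.lt_or_eq with h | h
    · have hδa := hδ' h
      rw [kap_of_is_mid hz (by linarith) (by linarith), abs_of_nonpos (by linarith), hδa]
      ring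
    · rw [kap_of_is_nonpos hz (by linarith), h, sub_self, abs_zero]
  -- the root carrying the tent
  rcases lt_trichotomy (a + b) m with hlt | heq | hgt
  · have hR : v.Is (X1 * X2 - A4) (a + b) := numP_is_lt hA4 (h1.mul hx2) hlt
    have hPr : v.Is (Zp * Zm) (2 * (a + b) - 2 * δ) := Is.of_mul_eq hd.sq hR.sq hPi
    have hT : ∀ z : K, v.Is z (2 * (a + b) - 2 * δ - (a + b - 2 * δ)) →
        kap v m z = tent m (kap v m X1 + kap v m X2) := by
      intro z hz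
      rw [k1, k2, kap_of_is_mid hz (by linarith) (by linarith)]
      unfold tent
      rw [min_eq_left (by linarith)]
      ring
    rcases split_is hSm hPr (by linarith) with ⟨hp, hmm⟩ | ⟨hmm, hp⟩
    · exact Or.inr ⟨hT _ hmm, hDroot _ hp⟩
    · exact Or.inl ⟨hT _ hp, hDroot _ hmm⟩
  · have hR : v.Ge (X1 * X2 - A4) (a + b) := numP_ge hA4.ge (h1.ge.mul hx2.ge) heq.le
    have hPr : v.Ge (Zp * Zm) (a + b - 2 * δ + m) :=
      (Ge.of_mul_eq hd.sq hR.sq hPi).mono (by linarith)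
    have hT : ∀ z : K, v.Ge z m → kap v m z = tent m (kap v m X1 + kap v m X2) := by
      intro z hz
      rw [k1, k2, kap_of_ge hm.le hz]
      unfold tent
      rw [min_eq_left (by linarith)]
      linarith
    rcases split_ge hSm hPr (by linarith) with ⟨hp, hmm⟩ | ⟨hmm, hp⟩
    · exact Or.inr ⟨hT _ hmm, hDroot _ hp⟩
    · exact Or.inl ⟨hT _ hp, hDroot _ hmm⟩
  · have hR : v.Is (X1 * X2 - A4) m := numP_is_gt hA4 (h1.ge.mul hx2.ge) hgt
    have hPr : v.Is (Zp * Zm) (2 * m - 2 * δ) := Is.of_mul_eq hd.sq hR.sq hPi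
    have hT : ∀ z : K, v.Is z (2 * m - 2 * δ - (a + b - 2 * δ)) →
        kap v m z = tent m (kap v m X1 + kap v m X2) := by
      intro z hz
      rw [k1, k2, kap_of_is_mid hz (by linarith) (by linarith)]
      unfold tent
      rw [min_eq_right (by linarith)]
      ring
    rcases split_is hSm hPr (by linarith) with ⟨hp, hmm⟩ | ⟨hmm, hp⟩
    · exact Or.inr ⟨hT _ hmm, hDroot _ hp⟩
    · exact Or.inl ⟨hT _ hp, hDroot _ hmm⟩

end cases

/-! ### assembly -/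

section main

variable {K : Type*} [Field K]

/-- the tent lemma, under the normalisation `ord X1 ≤ ord X2` (with `ord 0 = ∞`) -/
theorem tent_lemma_aux (v : OrdFn K) (h2 : v.IsUnit (2 : K)) {A2 A4 : K} (hA2 : v.IsUnit A2)
    (hA4 : A4 ≠ 0) (hm : 0 < v.ord A4) {X1 X2 Zp Zm : K} (hne : X1 ≠ X2)
    (hPi : Zp * Zm * (X1 - X2) ^ 2 = (X1 * X2 - A4) ^ 2)
    (hS : (Zp + Zm) * (X1 - X2) ^ 2 = 2 * ((X1 + X2) * (X1 * X2 + A4) + 2 * A2 * X1 * X2))
    (hX1 : X1 ≠ 0) (hord : X2 = 0 ∨ (X2 ≠ 0 ∧ v.ord X1 ≤ v.ord X2)) :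
    TentConcl v (v.ord A4) X1 X2 Zp Zm := by
  have hA4is : v.Is A4 (v.ord A4) := is_self hA4
  have h1 : v.Is X1 (v.ord X1) := is_self hX1
  generalize v.ord A4 = m at hm hA4is ⊢
  rcases le_or_gt (v.ord X1) 0 with ho1 | ho1
  · by_cases hx2 : v.Ge X2 m
    · exact tent_case1 h2 hA2 hm hA4is h1 ho1 hx2 hPi hS
    · have hX2 : X2 ≠ 0 := fun h => hx2 (Or.inl h)
      have h2m : v.ord X2 < m := by
        by_contra h
        exact hx2 (Or.inr (not_lt.mp h))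
      have hle : v.ord X1 ≤ v.ord X2 := (hord.resolve_left hX2).2
      rcases hle.lt_or_eq with hlt | heq
      · exact tent_case2 h2 hA2 hm hA4is h1 ho1 (is_self hX2) hlt h2m hPi hS
      · exact tent_case3 h2 hA2 hm hA4is h1 ho1 ⟨hX2, heq.symm⟩ hne hPi hS
  · rcases lt_or_ge (v.ord X1) m with h1m | h1m
    · by_cases hx2 : v.Ge X2 m
      · exact tent_case4 h2 hA2 hm hA4is h1 ho1 h1m hx2 hPi hS
      · have hX2 : X2 ≠ 0 := fun h => hx2 (Or.inl h)
        have h2m : v.ord X2 < m := by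
          by_contra h
          exact hx2 (Or.inr (not_lt.mp h))
        have hle : v.ord X1 ≤ v.ord X2 := (hord.resolve_left hX2).2
        have hx2is : v.Is X2 (v.ord X2) := is_self hX2
        rcases hle.lt_or_eq with hlt | heq
        · have hd : v.Is (X1 - X2) (v.ord X1) := h1.sub_ge hx2is.ge hlt
          exact tent_case5 h2 hA2 hm hA4is h1 hx2is ho1 hle h2m hd le_rfl (fun _ => rfl) hPi hS
        · have hd0 : X1 - X2 ≠ 0 := sub_ne_zero.mpr hne
          have hδ : v.ord X1 ≤ v.ord (X1 - X2) :=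
            (h1.ge.sub (hx2is.ge_of_le hle)).le_ord hd0
          exact tent_case5 h2 hA2 hm hA4is h1 hx2is ho1 hle h2m (is_self hd0) hδ
            (fun h => absurd heq h.ne) hPi hS
    · have hx2 : v.Ge X2 m := by
        rcases hord with h | ⟨_, hle⟩
        · exact Or.inl h
        · exact Or.inr (by linarith)
      exact tent_case6 h2 hA2 hm hA4is (h1.ge_of_le h1m) hx2 hne hPi hS

/-- **The tent lemma.** -/
theorem tent_lemma (v : OrdFn K) (h2 : v.IsUnit (2 : K)) {A2 A4 : K} (hA2 : v.IsUnit A2)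
    (hA4 : A4 ≠ 0) (hm : 0 < v.ord A4) {X1 X2 Zp Zm : K} (hne : X1 ≠ X2)
    (hPi : Zp * Zm * (X1 - X2) ^ 2 = (X1 * X2 - A4) ^ 2)
    (hS : (Zp + Zm) * (X1 - X2) ^ 2 = 2 * ((X1 + X2) * (X1 * X2 + A4) + 2 * A2 * X1 * X2)) :
    (kap v (v.ord A4) Zp = tent (v.ord A4) (kap v (v.ord A4) X1 + kap v (v.ord A4) X2) ∧
      kap v (v.ord A4) Zm = |kap v (v.ord A4) X1 - kap v (v.ord A4) X2|) ∨
    (kap v (v.ord A4) Zm = tent (v.ord A4) (kap v (v.ord A4) X1 + kap v (v.ord A4) X2) ∧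
      kap v (v.ord A4) Zp = |kap v (v.ord A4) X1 - kap v (v.ord A4) X2|) := by
  have hPi' : Zp * Zm * (X2 - X1) ^ 2 = (X2 * X1 - A4) ^ 2 := by linear_combination hPi
  have hS' : (Zp + Zm) * (X2 - X1) ^ 2 =
      2 * ((X2 + X1) * (X2 * X1 + A4) + 2 * A2 * X2 * X1) := by linear_combination hS
  change TentConcl v (v.ord A4) X1 X2 Zp Zm
  by_cases hX2 : X2 = 0
  · have hX1 : X1 ≠ 0 := fun h => hne (h.trans hX2.symm)
    exact tent_lemma_aux v h2 hA2 hA4 hm hne hPi hS hX1 (Or.inl hX2)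
  by_cases hX1 : X1 = 0
  · exact (tent_lemma_aux v h2 hA2 hA4 hm hne.symm hPi' hS' hX2 (Or.inl hX1)).swap
  rcases le_total (v.ord X1) (v.ord X2) with h | h
  · exact tent_lemma_aux v h2 hA2 hA4 hm hne hPi hS hX1 (Or.inr ⟨hX2, h⟩)
  · exact (tent_lemma_aux v h2 hA2 hA4 hm hne.symm hPi' hS' hX2 (Or.inr ⟨hX1, h⟩)).swap

end main

end Fermat.Agent.S05
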