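import Fermat.Agent.S05.Tent
import Fermat.Agent.S05.NodeComponent

/-!
S05: the restricted duplication tent lemma `TentDoubleR` (hedge, helper9), from helper8's `Is`/`Ge`
dominant-term API in `Tent.lean`.
-/

set_option autoImplicit false

namespace Fermat.Agent.S05.TD9

open Fermat.Agent.S05 Fermat.Agent.S05.OrdFn

variable {K : Type*} [Field K]

theorem tent_double_R (v : OrdFn K) (h2 : v.IsUnit (2 : K)) {A2 A4 : K} (hA2 : v.IsUnit A2)
    (hA4 : A4 ≠ 0) (hm : 0 < v.ord A4) : TentDoubleR v A2 A4 := by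
  intro X Y Z hY hX hs hZ hE hD
  set m := v.ord A4 with hmdef
  set s := v.ord X with hsdef
  have iA4 : v.Is A4 m := ⟨hA4, rfl⟩
  have iX : v.Is X s := ⟨hX, rfl⟩
  have iA2 : v.Is A2 0 := hA2
  have i2 : v.Is (2 : K) 0 := h2
  have i4 : v.Is (4 : K) 0 := by
    have := i2.mul i2
    norm_num at this
    exact this
  have iX2 : v.Is (X ^ 2) (2 * s) := iX.sq
  have iA2X : v.Is (A2 * X) s := (iA2.mul iX).congr (by ring)
  -- factorisation
  have hfac : 4 * Y ^ 2 = 4 * X * (X ^ 2 + A2 * X + A4) := by rw [hE]; ring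
  have hkX : kap v m X = max 0 (min s m) := kap_of_is iX
  rcases lt_trichotomy s m with hsm | hsm | hsm
  · -- `s < m`
    have hkX' : kap v m X = s := by
      rw [hkX, min_eq_left hsm.le, max_eq_right hs.le]
    have iG : v.Is (X ^ 2 + A2 * X + A4) s := by
      have h1 : v.Is (X ^ 2 + A2 * X) s := iA2X.ge_add iX2.ge (by linarith)
      exact h1.add_ge iA4.ge hsm
    have iD : v.Is (4 * Y ^ 2) (2 * s) := by
      rw [hfac]
      exact ((i4.mul iX).mul iG).congr (by ring)
    rw [hkX']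
    rcases lt_trichotomy (2 * s) m with h | h | h
    · have iN : v.Is (X ^ 2 - A4) (2 * s) := iX2.sub_ge iA4.ge h
      have iZ : v.Is Z (2 * s) := (Is.of_mul_eq iD iN.sq hD).congr (by ring)
      rw [kap_of_is_mid iZ (by linarith) h.le, tent, min_eq_left (by linarith)]
    · have gN : v.Ge (X ^ 2 - A4) m := (iX2.ge.mono h.ge).sub iA4.ge
      have gZ : v.Ge Z m := (Ge.of_mul_eq iD gN.sq hD).mono (by linarith)
      rw [kap_of_ge hm.le gZ, tent, h, min_eq_left (by linarith)]
    · have iN : v.Is (X ^ 2 - A4) m := iA4.ge_sub iX2.ge h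
      have iZ : v.Is Z (2 * m - 2 * s) := (Is.of_mul_eq iD iN.sq hD).congr (by ring)
      rw [kap_of_is_mid iZ (by linarith) (by linarith), tent, min_eq_right (by linarith)]
  · -- `s = m`
    have hkX' : kap v m X = m := by
      rw [hkX, hsm, min_self, max_eq_right hm.le]
    have iN : v.Is (X ^ 2 - A4) m := iA4.ge_sub iX2.ge (by linarith)
    have gG : v.Ge (X ^ 2 + A2 * X + A4) m :=
      ((iX2.ge.mono (by linarith)).add (iA2X.ge.mono hsm.ge)).add iA4.ge
    have gD : v.Ge (4 * Y ^ 2) (2 * m) := by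
      rw [hfac]
      exact (((i4.mul iX).ge).mul gG).mono (by linarith)
    have hD0 : 4 * Y ^ 2 ≠ 0 := mul_ne_zero i4.1 (pow_ne_zero 2 hY)
    have hordZ : v.ord Z ≤ 0 := by
      have h1 := v.ord_mul Z (4 * Y ^ 2) hZ hD0
      rw [hD, iN.sq.2] at h1
      have h3 := gD.le_ord hD0
      linarith
    rw [kap_of_ord_nonpos hZ hordZ, hkX', tent, min_eq_right (by linarith)]
    ring
  · -- `m < s`
    have hkX' : kap v m X = m := by
      rw [hkX, min_eq_right hsm.le, max_eq_right hm.le]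
    have iN : v.Is (X ^ 2 - A4) m := iA4.ge_sub iX2.ge (by linarith)
    have iG : v.Is (X ^ 2 + A2 * X + A4) m := by
      have h1 : v.Ge (X ^ 2 + A2 * X) s := (iX2.ge.mono (by linarith)).add iA2X.ge
      exact iA4.ge_add h1 hsm
    have iD : v.Is (4 * Y ^ 2) (s + m) := by
      rw [hfac]
      exact ((i4.mul iX).mul iG).congr (by ring)
    have iZ : v.Is Z (m - s) := (Is.of_mul_eq iD iN.sq hD).congr (by ring)
    rw [kap_of_is_nonpos iZ (by linarith), hkX', tent, min_eq_right (by linarith)]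
    ring

end Fermat.Agent.S05.TD9
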