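import Mathlib

/-!
# S05 helper: signed component value near a node (pure valuation algebra)

Curve `(y - αx)(y - βx) = x(x² + a₄)` (i.e. `y² + a₁xy = x³ + a₂x² + a₄x` with
`a₁ = -(α+β)`, `a₂ = -αβ`) over a valued field, with `α, β` integral, `α - β` and `2` units and
`0 < v a₄ < 1`.  We attach to an affine point `(x, y)` a value `cval x y` in the value group:

* `1` if `1 ≤ v x` (point does not reduce to the node),
* `v a₄` if `v x ≤ v a₄`,
* `v x` if `v a₄ < v x < 1` and `v (y - αx) < v x` (branch `α`),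
* `(v x)⁻¹` otherwise (branch `β`).

Main result (`cval_mul_of_line`): for three points on a line whose `x`-coordinates are the roots of
the cubic cut out by the line, the product of the three `cval`s is an even power of `v a₄`.
-/

set_option autoImplicit false

namespace Fermat.Agent.S05

section G0

variable {Γ₀ : Type*} [LinearOrderedCommGroupWithZero Γ₀]

lemma g0_mul_self_lt {a b : Γ₀} (h : a < b) : a * a < b * b :=
  mul_lt_mul'' h h zero_le zero_le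

lemma g0_eq_of_mul_self_eq {a b : Γ₀} (h : a * a = b * b) : a = b := by
  rcases lt_trichotomy a b with h1 | h1 | h1
  · exact absurd h (g0_mul_self_lt h1).ne
  · exact h1
  · exact absurd h.symm (g0_mul_self_lt h1).ne

lemma g0_mul_lt_of_lt_of_le {a b c d : Γ₀} (h : a < c) (h' : b ≤ d) (hd : 0 < d) :
    a * b < c * d :=
  calc a * b ≤ a * d := by gcongr
    _ < c * d := by gcongr

lemma g0_mul_lt_of_le_of_lt {a b c d : Γ₀} (h : a ≤ c) (h' : b < d) (hc : 0 < c) :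
    a * b < c * d :=
  calc a * b ≤ c * b := by gcongr
    _ < c * d := by gcongr

end G0

variable {F : Type*} [Field F] {Γ₀ : Type*} [LinearOrderedCommGroupWithZero Γ₀]

/-- Data of a nodal model `(y - αx)(y - βx) = x(x² + a₄)` over a valued field. -/
structure NodeData (v : Valuation F Γ₀) where
  α : F
  β : F
  a₄ : F
  hα : v α ≤ 1
  hβ : v β ≤ 1
  hδ : v (α - β) = 1
  h2 : v (2 : F) = 1
  ha₄ : v a₄ < 1
  ha₄0 : a₄ ≠ 0

namespace NodeData

variable {v : Valuation F Γ₀} (D : NodeData v)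

/-- The curve equation. -/
def OnCurve (x y : F) : Prop :=
  (y - D.α * x) * (y - D.β * x) = x * (x ^ 2 + D.a₄)

/-- The data with the two tangent directions swapped. -/
def swap : NodeData v where
  α := D.β
  β := D.α
  a₄ := D.a₄
  hα := D.hβ
  hβ := D.hα
  hδ := by rw [Valuation.map_sub_swap]; exact D.hδ
  h2 := D.h2
  ha₄ := D.ha₄
  ha₄0 := D.ha₄0

lemma onCurve_swap {x y : F} : D.swap.OnCurve x y ↔ D.OnCurve x y := by
  unfold OnCurve swap; simp only; rw [mul_comm]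

lemma eps_pos : 0 < v D.a₄ := by
  rw [zero_lt_iff]; exact (Valuation.ne_zero_iff v).mpr D.ha₄0

lemma eps_ne_zero : v D.a₄ ≠ 0 := (Valuation.ne_zero_iff v).mpr D.ha₄0

/-- The signed component value. -/
noncomputable def cval (x y : F) : Γ₀ :=
  if 1 ≤ v x then 1
  else if v x ≤ v D.a₄ then v D.a₄
  else if v (y - D.α * x) < v x then v x
  else (v x)⁻¹

lemma cval_of_one_le {x y : F} (h : 1 ≤ v x) : D.cval x y = 1 := by
  simp [cval, h]

lemma cval_of_le_eps {x y : F} (h : v x ≤ v D.a₄) : D.cval x y = v D.a₄ := by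
  have : ¬ (1 ≤ v x) := not_le.mpr (lt_of_le_of_lt h D.ha₄)
  simp [cval, this, h]

lemma cval_of_alpha {x y : F} (h1 : v x < 1) (h2 : v D.a₄ < v x) (h3 : v (y - D.α * x) < v x) :
    D.cval x y = v x := by
  simp [cval, not_le.mpr h1, not_le.mpr h2, h3]

lemma cval_of_not_alpha {x y : F} (h1 : v x < 1) (h2 : v D.a₄ < v x)
    (h3 : ¬ v (y - D.α * x) < v x) : D.cval x y = (v x)⁻¹ := by
  simp [cval, not_le.mpr h1, not_le.mpr h2, h3]

/-- `x ∈ 𝔪` on the curve forces `y ∈ 𝔪`. -/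
lemma v_y_lt_one {x y : F} (hc : D.OnCurve x y) (hx : v x < 1) : v y < 1 := by
  by_contra hy
  rw [not_lt] at hy
  have hαx : v (D.α * x) < 1 := by
    rw [map_mul]; exact lt_of_le_of_lt (mul_le_of_le_one_left' D.hα) hx
  have hβx : v (D.β * x) < 1 := by
    rw [map_mul]; exact lt_of_le_of_lt (mul_le_of_le_one_left' D.hβ) hx
  have h1 : v (y - D.α * x) = v y :=
    Valuation.map_sub_eq_of_lt_left v (lt_of_lt_of_le hαx hy)
  have h2 : v (y - D.β * x) = v y :=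
    Valuation.map_sub_eq_of_lt_left v (lt_of_lt_of_le hβx hy)
  have h3 : v (x * (x ^ 2 + D.a₄)) < 1 := by
    rw [map_mul]
    have : v (x ^ 2 + D.a₄) ≤ 1 := by
      apply Valuation.map_add_le
      · rw [map_pow]; exact pow_le_one' hx.le 2
      · exact D.ha₄.le
    exact lt_of_le_of_lt (mul_le_of_le_one_right' this) hx
  rw [← hc, map_mul, h1, h2] at h3
  exact absurd h3 (not_lt.mpr (one_le_mul_of_one_le_of_one_le hy hy))

/-- In the regime `v a₄ ≤ v x < 1` both `y - αx` and `y - βx` have valuation at most `v x`. -/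
lemma v_fα_le {x y : F} (hc : D.OnCurve x y) (hx : v x < 1) (hε : v D.a₄ ≤ v x) :
    v (y - D.α * x) ≤ v x := by
  by_contra h
  rw [not_le] at h
  have hδx : v ((D.α - D.β) * x) = v x := by rw [map_mul, D.hδ, one_mul]
  have h2 : v (y - D.β * x) = v (y - D.α * x) := by
    have : y - D.β * x = (y - D.α * x) + (D.α - D.β) * x := by ring
    rw [this]
    exact Valuation.map_add_eq_of_lt_left v (by rw [hδx]; exact h)
  have hx0 : 0 < v x := lt_of_lt_of_le D.eps_pos hε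
  have h3 : v (x * (x ^ 2 + D.a₄)) ≤ v x * v x := by
    rw [map_mul]
    have : v (x ^ 2 + D.a₄) ≤ v x := by
      apply Valuation.map_add_le
      · rw [map_pow, pow_two]; exact mul_le_of_le_one_left' hx.le
      · exact hε
    gcongr
  rw [← hc, map_mul, h2] at h3
  exact absurd h3 (not_le.mpr (mul_lt_mul'' h h hx0.le hx0.le))

lemma v_fβ_le {x y : F} (hc : D.OnCurve x y) (hx : v x < 1) (hε : v D.a₄ ≤ v x) :
    v (y - D.β * x) ≤ v x :=
  D.swap.v_fα_le (D.onCurve_swap.mpr hc) hx hε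

/-- Dichotomy, part 1: in the regime `v a₄ < v x < 1` at least one branch. -/
lemma branch_or {x y : F} (hc : D.OnCurve x y) (hx : v x < 1) (hε : v D.a₄ < v x) :
    v (y - D.α * x) < v x ∨ v (y - D.β * x) < v x := by
  by_contra h
  rw [not_or, not_lt, not_lt] at h
  have h1 : v (y - D.α * x) = v x := le_antisymm (D.v_fα_le hc hx hε.le) h.1
  have h2 : v (y - D.β * x) = v x := le_antisymm (D.v_fβ_le hc hx hε.le) h.2
  have hx0 : 0 < v x := lt_trans D.eps_pos hε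
  have h3 : v (x * (x ^ 2 + D.a₄)) < v x * v x := by
    rw [map_mul]
    apply mul_lt_mul_of_pos_left _ hx0
    apply Valuation.map_add_lt
    · rw [map_pow, pow_two]
      calc v x * v x < 1 * v x := mul_lt_mul_of_pos_right hx hx0
        _ = v x := one_mul _
    · exact hε
  rw [← hc, map_mul, h1, h2] at h3
  exact lt_irrefl _ h3

/-- Dichotomy, part 2: not both branches. -/
lemma not_both_branches {x y : F} (h1 : v (y - D.α * x) < v x)
    (h2 : v (y - D.β * x) < v x) : False := by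
  have h3 : v ((y - D.β * x) - (y - D.α * x)) < v x := Valuation.map_sub_lt v h2 h1
  have : (y - D.β * x) - (y - D.α * x) = (D.α - D.β) * x := by ring
  rw [this, map_mul, D.hδ, one_mul] at h3
  exact lt_irrefl _ h3

/-! ### Roots of the cubic when the line is (nearly) tangent to the `α`-branch -/

section rootB

variable {x y ℓ c : F}

/-- Type of a root when `v (ℓ - α) < 1`, `v c < 1`: small roots are of type `e`. -/
lemma cval_rootB_big (hc : D.OnCurve x y) (hl : y = ℓ * x + c) (hμ : v (ℓ - D.α) < 1)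
    (hx : v x < 1) (hε : v D.a₄ < v x) (hN : v c < v x) : D.cval x y = v x := by
  apply D.cval_of_alpha hx hε
  have : y - D.α * x = (ℓ - D.α) * x + c := by rw [hl]; ring
  rw [this]
  apply Valuation.map_add_lt v _ hN
  rw [map_mul]
  exact mul_lt_of_lt_one_left (lt_trans D.eps_pos hε) hμ

lemma cval_rootB_mid (hc : D.OnCurve x y) (hl : y = ℓ * x + c) (hμ : v (ℓ - D.α) < 1)
    (hx : v x < 1) (hε : v D.a₄ < v x) (hN : v x ≤ v c) :
    v x = v c ∧ D.cval x y = (v c)⁻¹ := by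
  have hx0 : 0 < v x := lt_trans D.eps_pos hε
  have hf : y - D.α * x = (ℓ - D.α) * x + c := by rw [hl]; ring
  have hμx : v ((ℓ - D.α) * x) < v x := by
    rw [map_mul]; exact mul_lt_of_lt_one_left hx0 hμ
  have hfv : v (y - D.α * x) = v c := by
    rw [hf]; exact Valuation.map_add_eq_of_lt_right v (lt_of_lt_of_le hμx hN)
  have hle := D.v_fα_le hc hx hε.le
  rw [hfv] at hle
  have hxc : v x = v c := le_antisymm hN hle
  refine ⟨hxc, ?_⟩
  rw [← hxc]
  apply D.cval_of_not_alpha hx hε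
  rw [hfv, hxc]; exact lt_irrefl _

end rootB

/-! ### Valuation of the second symmetric function -/

section sym

variable {x₁ x₂ x₃ : F}

lemma v_e2_eq (h₁ : v x₃ < v x₁) (h₂ : v x₃ < v x₂) :
    v (x₁ * x₂ + x₁ * x₃ + x₂ * x₃) = v x₁ * v x₂ := by
  have h0₁ : 0 < v x₁ := lt_of_le_of_lt zero_le h₁
  have h0₂ : 0 < v x₂ := lt_of_le_of_lt zero_le h₂
  have : x₁ * x₂ + x₁ * x₃ + x₂ * x₃ = x₁ * x₂ + (x₁ * x₃ + x₂ * x₃) := by ring
  rw [this, ← map_mul]
  apply Valuation.map_add_eq_of_lt_left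
  apply Valuation.map_add_lt
  · rw [map_mul, map_mul]; gcongr
  · rw [map_mul, map_mul, mul_comm (v x₁)]; gcongr

lemma v_e2_lt {T : Γ₀} (h12 : v x₁ * v x₂ < T) (h13 : v x₁ * v x₃ < T) (h23 : v x₂ * v x₃ < T) :
    v (x₁ * x₂ + x₁ * x₃ + x₂ * x₃) < T := by
  apply Valuation.map_add_lt
  · apply Valuation.map_add_lt
    · rwa [map_mul]
    · rwa [map_mul]
  · rwa [map_mul]

end sym

/-- Three points of the curve on the line `y = ℓ x + c`, whose `x`-coordinates are the three roots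
of the cubic cut out by the line. -/
structure LineData (x₁ y₁ x₂ y₂ x₃ y₃ ℓ c : F) : Prop where
  c₁ : D.OnCurve x₁ y₁
  c₂ : D.OnCurve x₂ y₂
  c₃ : D.OnCurve x₃ y₃
  l₁ : y₁ = ℓ * x₁ + c
  l₂ : y₂ = ℓ * x₂ + c
  l₃ : y₃ = ℓ * x₃ + c
  e₁ : x₁ + x₂ + x₃ = (ℓ - D.α) * (ℓ - D.β)
  e₂ : x₁ * x₂ + x₁ * x₃ + x₂ * x₃ = D.a₄ - (2 * ℓ - D.α - D.β) * c
  e₃ : x₁ * x₂ * x₃ = c ^ 2

namespace LineData

variable {D} {x₁ y₁ x₂ y₂ x₃ y₃ ℓ c : F}

lemma perm132 (h : D.LineData x₁ y₁ x₂ y₂ x₃ y₃ ℓ c) : D.LineData x₁ y₁ x₃ y₃ x₂ y₂ ℓ c :=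
  ⟨h.c₁, h.c₃, h.c₂, h.l₁, h.l₃, h.l₂, by rw [← h.e₁]; ring, by rw [← h.e₂]; ring,
    by rw [← h.e₃]; ring⟩

lemma perm213 (h : D.LineData x₁ y₁ x₂ y₂ x₃ y₃ ℓ c) : D.LineData x₂ y₂ x₁ y₁ x₃ y₃ ℓ c :=
  ⟨h.c₂, h.c₁, h.c₃, h.l₂, h.l₁, h.l₃, by rw [← h.e₁]; ring, by rw [← h.e₂]; ring,
    by rw [← h.e₃]; ring⟩

lemma perm321 (h : D.LineData x₁ y₁ x₂ y₂ x₃ y₃ ℓ c) : D.LineData x₃ y₃ x₂ y₂ x₁ y₁ ℓ c :=
  ⟨h.c₃, h.c₂, h.c₁, h.l₃, h.l₂, h.l₁, by rw [← h.e₁]; ring, by rw [← h.e₂]; ring,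
    by rw [← h.e₃]; ring⟩

lemma swap (h : D.LineData x₁ y₁ x₂ y₂ x₃ y₃ ℓ c) : D.swap.LineData x₁ y₁ x₂ y₂ x₃ y₃ ℓ c :=
  ⟨D.onCurve_swap.mpr h.c₁, D.onCurve_swap.mpr h.c₂, D.onCurve_swap.mpr h.c₃, h.l₁, h.l₂, h.l₃,
    by rw [h.e₁]; simp only [NodeData.swap]; ring, by rw [h.e₂]; simp only [NodeData.swap]; ring,
    h.e₃⟩

lemma v_prod (h : D.LineData x₁ y₁ x₂ y₂ x₃ y₃ ℓ c) : v x₁ * v x₂ * v x₃ = v c * v c := by
  rw [← map_mul, ← map_mul, h.e₃, pow_two, map_mul]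

/-- `∏ (y_i - α x_i) = c (c² + a₄ (ℓ-α)²)`. -/
lemma prod_fα (h : D.LineData x₁ y₁ x₂ y₂ x₃ y₃ ℓ c) :
    (y₁ - D.α * x₁) * (y₂ - D.α * x₂) * (y₃ - D.α * x₃) =
      c * (c ^ 2 + D.a₄ * (ℓ - D.α) ^ 2) := by
  have e₁ := h.e₁
  have e₂ := h.e₂
  have e₃ := h.e₃
  rw [h.l₁, h.l₂, h.l₃]
  linear_combination (ℓ - D.α) ^ 3 * e₃ + (ℓ - D.α) ^ 2 * c * e₂ + (ℓ - D.α) * c ^ 2 * e₁

/-! ### Case B: all three points reduce to the node -/

section caseB

omit [Field F] in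
lemma g0_perm₁ (a b d : Γ₀) : a * b * d = d * (a * b) := by ac_rfl

omit [Field F] in
lemma g0_perm₂ (a b d : Γ₀) : a * b * d = b * (a * d) := by ac_rfl

omit [Field F] in
lemma g0_perm₃ (a b d : Γ₀) : a * b * d = a * (b * d) := by ac_rfl

lemma B_v_ell_le (hμ : v (ℓ - D.α) < 1) : v ℓ ≤ 1 := by
  have : ℓ = (ℓ - D.α) + D.α := by ring
  rw [this]; exact Valuation.map_add_le v hμ.le D.hα

lemma B_v_u (hμ : v (ℓ - D.α) < 1) : v (2 * ℓ - D.α - D.β) = 1 := by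
  have : 2 * ℓ - D.α - D.β = (D.α - D.β) + 2 * (ℓ - D.α) := by ring
  rw [this]
  have h2 : v (2 * (ℓ - D.α)) < 1 := by rw [map_mul, D.h2, one_mul]; exact hμ
  rw [Valuation.map_add_eq_of_lt_left v (by rw [D.hδ]; exact h2), D.hδ]

lemma B_v_c (h : D.LineData x₁ y₁ x₂ y₂ x₃ y₃ ℓ c) (hμ : v (ℓ - D.α) < 1) (h₁ : v x₁ < 1) :
    v c < 1 := by
  have : c = y₁ - ℓ * x₁ := by rw [h.l₁]; ring
  rw [this]
  apply Valuation.map_sub_lt v (D.v_y_lt_one h.c₁ h₁)
  rw [map_mul]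
  exact lt_of_le_of_lt (mul_le_of_le_one_left' (B_v_ell_le hμ)) h₁

/-- Sub-case `v a₄ < v c`, distinguished root `x₃` with `v x₃ ≤ v c`. -/
lemma B_caseI_aux (h : D.LineData x₁ y₁ x₂ y₂ x₃ y₃ ℓ c) (hμ : v (ℓ - D.α) < 1) (h₁ : v x₁ < 1) (h₂ : v x₂ < 1) (h₃ : v x₃ < 1)
    (hN : v D.a₄ < v c) (h3 : v x₃ ≤ v c) :
    D.cval x₁ y₁ * D.cval x₂ y₂ * D.cval x₃ y₃ = 1 := by
  have hc0 : 0 < v c := lt_trans D.eps_pos hN
  have hP := h.v_prod
  have he₂ : v (x₁ * x₂ + x₁ * x₃ + x₂ * x₃) = v c := by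
    rw [h.e₂]
    have : v ((2 * ℓ - D.α - D.β) * c) = v c := by rw [map_mul, B_v_u hμ, one_mul]
    rw [Valuation.map_sub_eq_of_lt_right v (by rw [this]; exact hN), this]
  -- the other two roots are bigger than `v c`
  have big : ∀ {a b : Γ₀}, a < 1 → a * b * v x₃ = v c * v c → b ≤ v c → False := by
    intro a b ha hab hb
    have h1 : a * b * v x₃ ≤ a * (v c * v c) := by
      rw [mul_assoc]; gcongr
    have h2 : a * (v c * v c) < 1 * (v c * v c) := by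
      have : 0 < v c * v c := mul_pos hc0 hc0
      gcongr
    rw [one_mul] at h2
    exact absurd hab (lt_of_le_of_lt h1 h2).ne
  have hx₂ : v c < v x₂ := by
    by_contra hcon
    exact big h₁ hP (not_lt.mp hcon)
  have hx₁ : v c < v x₁ := by
    by_contra hcon
    refine big h₂ ?_ (not_lt.mp hcon)
    rw [mul_comm (v x₂)]; exact hP
  have he₂' := v_e2_eq (lt_of_le_of_lt h3 hx₁) (lt_of_le_of_lt h3 hx₂)
  rw [he₂] at he₂'
  have hx₃ : v x₃ = v c := by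
    rw [← he₂'] at hP
    have : v c * v x₃ = v c * v c := by rw [← hP, he₂']
    exact mul_left_cancel₀ hc0.ne' this
  rw [D.cval_rootB_big h.c₁ h.l₁ hμ h₁ (lt_trans hN hx₁) hx₁,
    D.cval_rootB_big h.c₂ h.l₂ hμ h₂ (lt_trans hN hx₂) hx₂,
    (D.cval_rootB_mid h.c₃ h.l₃ hμ h₃ (by rw [hx₃]; exact hN) h3).2, ← he₂']
  exact mul_inv_cancel₀ hc0.ne'

/-- Sub-case `v a₄ < v c`: some root has `v x ≤ v c`. -/
lemma B_caseI_exists (h : D.LineData x₁ y₁ x₂ y₂ x₃ y₃ ℓ c) (hμ : v (ℓ - D.α) < 1)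
    (hN : v D.a₄ < v c) :
    v x₁ ≤ v c ∨ v x₂ ≤ v c ∨ v x₃ ≤ v c := by
  by_contra hcon
  rw [not_or, not_or, not_le, not_le, not_le] at hcon
  obtain ⟨g₁, g₂, g₃⟩ := hcon
  have hc0 : 0 < v c := lt_trans D.eps_pos hN
  have hP := h.v_prod
  have he₂ : v (x₁ * x₂ + x₁ * x₃ + x₂ * x₃) = v c := by
    rw [h.e₂]
    have : v ((2 * ℓ - D.α - D.β) * c) = v c := by rw [map_mul, B_v_u hμ, one_mul]
    rw [Valuation.map_sub_eq_of_lt_right v (by rw [this]; exact hN), this]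
  have small : ∀ {a b d : Γ₀}, v c < a → a * (b * d) = v c * v c → b * d < v c := by
    intro a b d ha hab
    by_contra hcon
    rw [not_lt] at hcon
    have : v c * v c < a * (b * d) := g0_mul_lt_of_lt_of_le ha hcon (lt_of_lt_of_le hc0 hcon)
    exact absurd hab this.ne'
  have := v_e2_lt (x₁ := x₁) (x₂ := x₂) (x₃ := x₃) (T := v c)
    (small (b := v x₁) (d := v x₂) g₃ (by rw [← hP, g0_perm₁]))
    (small (b := v x₁) (d := v x₃) g₂ (by rw [← hP, g0_perm₂]))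
    (small (b := v x₂) (d := v x₃) g₁ (by rw [← hP, g0_perm₃]))
  rw [he₂] at this
  exact lt_irrefl _ this

lemma B_caseI (h : D.LineData x₁ y₁ x₂ y₂ x₃ y₃ ℓ c) (hμ : v (ℓ - D.α) < 1) (h₁ : v x₁ < 1)
    (h₂ : v x₂ < 1) (h₃ : v x₃ < 1) (hN : v D.a₄ < v c) :
    D.cval x₁ y₁ * D.cval x₂ y₂ * D.cval x₃ y₃ = 1 := by
  rcases B_caseI_exists h hμ hN with g | g | g
  · have := B_caseI_aux h.perm321 hμ h₃ h₂ h₁ hN g
    rw [← this]; ac_rfl
  · have := B_caseI_aux h.perm132 hμ h₁ h₃ h₂ hN g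
    rw [← this]; ac_rfl
  · exact B_caseI_aux h hμ h₁ h₂ h₃ hN g

/-- If two of three elements of `𝔪` have valuation `≤ v a₄`, the second symmetric function has
valuation `< v a₄`. -/
lemma v_e2_lt_eps {a b d : F} (ha : v a < 1) (hb : v b ≤ v D.a₄) (hd : v d ≤ v D.a₄) :
    v (a * b + a * d + b * d) < v D.a₄ := by
  have hε0 := D.eps_pos
  apply v_e2_lt
  · have := g0_mul_lt_of_lt_of_le ha hb hε0
    rwa [one_mul] at this
  · have := g0_mul_lt_of_lt_of_le ha hd hε0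
    rwa [one_mul] at this
  · exact lt_of_le_of_lt (mul_le_mul' hb hd) (mul_lt_of_lt_one_left hε0 D.ha₄)

/-- Sub-case `v c < v a₄`, distinguished root `x₃` with `v x₃ ≤ v a₄`. -/
lemma B_caseII_aux (h : D.LineData x₁ y₁ x₂ y₂ x₃ y₃ ℓ c) (hμ : v (ℓ - D.α) < 1) (h₁ : v x₁ < 1)
    (h₂ : v x₂ < 1) (hN : v c < v D.a₄) (h3 : v x₃ ≤ v D.a₄) :
    D.cval x₁ y₁ * D.cval x₂ y₂ * D.cval x₃ y₃ = v D.a₄ * v D.a₄ := by
  have he₂ : v (x₁ * x₂ + x₁ * x₃ + x₂ * x₃) = v D.a₄ := by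
    rw [h.e₂]
    have : v ((2 * ℓ - D.α - D.β) * c) = v c := by rw [map_mul, B_v_u hμ, one_mul]
    exact Valuation.map_sub_eq_of_lt_left v (by rw [this]; exact hN)
  have hx₂ : v D.a₄ < v x₂ := by
    by_contra hcon
    have := v_e2_lt_eps (D := D) h₁ (not_lt.mp hcon) h3
    rw [he₂] at this; exact lt_irrefl _ this
  have hx₁ : v D.a₄ < v x₁ := by
    by_contra hcon
    have := v_e2_lt_eps (D := D) h₂ (not_lt.mp hcon) h3
    have e : x₂ * x₁ + x₂ * x₃ + x₁ * x₃ = x₁ * x₂ + x₁ * x₃ + x₂ * x₃ := by ring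
    rw [e, he₂] at this; exact lt_irrefl _ this
  have he₂' := v_e2_eq (lt_of_le_of_lt h3 hx₁) (lt_of_le_of_lt h3 hx₂)
  rw [he₂] at he₂'
  rw [D.cval_rootB_big h.c₁ h.l₁ hμ h₁ hx₁ (lt_trans hN hx₁),
    D.cval_rootB_big h.c₂ h.l₂ hμ h₂ hx₂ (lt_trans hN hx₂), D.cval_of_le_eps h3, ← he₂']

/-- Sub-case `v c < v a₄`: some root has `v x ≤ v a₄`. -/
lemma B_caseII_exists (h : D.LineData x₁ y₁ x₂ y₂ x₃ y₃ ℓ c) (hμ : v (ℓ - D.α) < 1)
    (hN : v c < v D.a₄) :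
    v x₁ ≤ v D.a₄ ∨ v x₂ ≤ v D.a₄ ∨ v x₃ ≤ v D.a₄ := by
  by_contra hcon
  rw [not_or, not_or, not_le, not_le, not_le] at hcon
  obtain ⟨g₁, g₂, g₃⟩ := hcon
  have hε0 := D.eps_pos
  have hP := h.v_prod
  have he₂ : v (x₁ * x₂ + x₁ * x₃ + x₂ * x₃) = v D.a₄ := by
    rw [h.e₂]
    have : v ((2 * ℓ - D.α - D.β) * c) = v c := by rw [map_mul, B_v_u hμ, one_mul]
    exact Valuation.map_sub_eq_of_lt_left v (by rw [this]; exact hN)
  have hcc : v c * v c < v D.a₄ * v D.a₄ := mul_lt_mul'' hN hN zero_le zero_le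
  have small : ∀ {a b d : Γ₀}, v D.a₄ < a → a * (b * d) = v c * v c → b * d < v D.a₄ := by
    intro a b d ha hab
    by_contra hcon
    rw [not_lt] at hcon
    have : v D.a₄ * v D.a₄ < a * (b * d) := g0_mul_lt_of_lt_of_le ha hcon (lt_of_lt_of_le hε0 hcon)
    rw [hab] at this
    exact lt_irrefl _ (lt_trans this hcc)
  have := v_e2_lt (x₁ := x₁) (x₂ := x₂) (x₃ := x₃) (T := v D.a₄)
    (small (b := v x₁) (d := v x₂) g₃ (by rw [← hP, g0_perm₁]))
    (small (b := v x₁) (d := v x₃) g₂ (by rw [← hP, g0_perm₂]))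
    (small (b := v x₂) (d := v x₃) g₁ (by rw [← hP, g0_perm₃]))
  rw [he₂] at this
  exact lt_irrefl _ this

lemma B_caseII (h : D.LineData x₁ y₁ x₂ y₂ x₃ y₃ ℓ c) (hμ : v (ℓ - D.α) < 1) (h₁ : v x₁ < 1)
    (h₂ : v x₂ < 1) (h₃ : v x₃ < 1) (hN : v c < v D.a₄) :
    D.cval x₁ y₁ * D.cval x₂ y₂ * D.cval x₃ y₃ = v D.a₄ * v D.a₄ := by
  rcases B_caseII_exists h hμ hN with g | g | g
  · have := B_caseII_aux h.perm321 hμ h₃ h₂ hN g
    rw [← this]; ac_rfl
  · have := B_caseII_aux h.perm132 hμ h₁ h₃ hN g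
    rw [← this]; ac_rfl
  · exact B_caseII_aux h hμ h₁ h₂ hN g

/-- Sub-case `v c = v a₄`, distinguished root `x₃` with `v x₃ ≤ v a₄`. -/
lemma B_caseIII_aux (h : D.LineData x₁ y₁ x₂ y₂ x₃ y₃ ℓ c) (hμ : v (ℓ - D.α) < 1)
    (h₁ : v x₁ < 1) (h₂ : v x₂ < 1) (hN : v c = v D.a₄) (h3 : v x₃ ≤ v D.a₄) :
    D.cval x₁ y₁ * D.cval x₂ y₂ * D.cval x₃ y₃ = v D.a₄ * v D.a₄ := by
  have hε0 := D.eps_pos
  have hP := h.v_prod
  rw [hN] at hP
  have he₂ : v (x₁ * x₂ + x₁ * x₃ + x₂ * x₃) ≤ v D.a₄ := by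
    rw [h.e₂]
    apply Valuation.map_sub_le v le_rfl
    rw [map_mul, B_v_u hμ, one_mul, hN]
  have big : ∀ {a b : Γ₀}, a < 1 → a * b * v x₃ = v D.a₄ * v D.a₄ → b ≤ v D.a₄ → False := by
    intro a b ha hab hb
    have h1 : a * b * v x₃ ≤ a * (v D.a₄ * v D.a₄) := by
      rw [mul_assoc]; gcongr
    have h2 : a * (v D.a₄ * v D.a₄) < 1 * (v D.a₄ * v D.a₄) := by
      have : 0 < v D.a₄ * v D.a₄ := mul_pos hε0 hε0
      gcongr
    rw [one_mul] at h2
    exact absurd hab (lt_of_le_of_lt h1 h2).ne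
  have hx₂ : v D.a₄ < v x₂ := by
    by_contra hcon
    exact big h₁ hP (not_lt.mp hcon)
  have hx₁ : v D.a₄ < v x₁ := by
    by_contra hcon
    refine big h₂ ?_ (not_lt.mp hcon)
    rw [mul_comm (v x₂)]; exact hP
  have he₂' := v_e2_eq (lt_of_le_of_lt h3 hx₁) (lt_of_le_of_lt h3 hx₂)
  rw [he₂'] at he₂
  have h12 : v x₁ * v x₂ = v D.a₄ := by
    refine le_antisymm he₂ ?_
    by_contra hcon
    rw [not_le] at hcon
    have : v x₁ * v x₂ * v x₃ < v D.a₄ * v D.a₄ := g0_mul_lt_of_lt_of_le hcon h3 hε0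
    exact absurd hP this.ne
  rw [D.cval_rootB_big h.c₁ h.l₁ hμ h₁ hx₁ (by rw [hN]; exact hx₁),
    D.cval_rootB_big h.c₂ h.l₂ hμ h₂ hx₂ (by rw [hN]; exact hx₂), D.cval_of_le_eps h3, h12]

lemma B_caseIII (h : D.LineData x₁ y₁ x₂ y₂ x₃ y₃ ℓ c) (hμ : v (ℓ - D.α) < 1) (h₁ : v x₁ < 1)
    (h₂ : v x₂ < 1) (h₃ : v x₃ < 1) (hN : v c = v D.a₄) :
    D.cval x₁ y₁ * D.cval x₂ y₂ * D.cval x₃ y₃ = v D.a₄ * v D.a₄ := by
  by_cases g₁ : v x₁ ≤ v D.a₄
  · have := B_caseIII_aux h.perm321 hμ h₃ h₂ hN g₁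
    rw [← this]; ac_rfl
  by_cases g₂ : v x₂ ≤ v D.a₄
  · have := B_caseIII_aux h.perm132 hμ h₁ h₃ hN g₂
    rw [← this]; ac_rfl
  by_cases g₃ : v x₃ ≤ v D.a₄
  · exact B_caseIII_aux h hμ h₁ h₂ hN g₃
  rw [not_le] at g₁ g₂ g₃
  rw [D.cval_rootB_big h.c₁ h.l₁ hμ h₁ g₁ (by rw [hN]; exact g₁),
    D.cval_rootB_big h.c₂ h.l₂ hμ h₂ g₂ (by rw [hN]; exact g₂),
    D.cval_rootB_big h.c₃ h.l₃ hμ h₃ g₃ (by rw [hN]; exact g₃), h.v_prod, hN]

/-- Case B with the line nearly tangent to the `α`-branch. -/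
lemma B_alpha (h : D.LineData x₁ y₁ x₂ y₂ x₃ y₃ ℓ c) (hμ : v (ℓ - D.α) < 1) (h₁ : v x₁ < 1)
    (h₂ : v x₂ < 1) (h₃ : v x₃ < 1) :
    D.cval x₁ y₁ * D.cval x₂ y₂ * D.cval x₃ y₃ = 1 ∨
      D.cval x₁ y₁ * D.cval x₂ y₂ * D.cval x₃ y₃ = v D.a₄ * v D.a₄ := by
  rcases lt_trichotomy (v c) (v D.a₄) with hN | hN | hN
  · exact Or.inr (B_caseII h hμ h₁ h₂ h₃ hN)
  · exact Or.inr (B_caseIII h hμ h₁ h₂ h₃ hN)
  · exact Or.inl (B_caseI h hμ h₁ h₂ h₃ hN)

end caseB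

end LineData

/-! ### Even powers of `v a₄` -/

/-- `g` is an even (integer) power of `v a₄`. -/
def Good (g : Γ₀) : Prop := ∃ j : ℤ, g = (v D.a₄) ^ (2 * j)

lemma good_one : D.Good 1 := ⟨0, by simp⟩

lemma good_eps_sq : D.Good (v D.a₄ * v D.a₄) := ⟨1, by rw [mul_one, zpow_ofNat, pow_two]⟩

variable {D} in
lemma Good.mul {g g' : Γ₀} (h : D.Good g) (h' : D.Good g') : D.Good (g * g') := by
  obtain ⟨j, rfl⟩ := h
  obtain ⟨j', rfl⟩ := h'
  exact ⟨j + j', by rw [mul_add, zpow_add₀ D.eps_ne_zero]⟩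

variable {D} in
lemma Good.inv {g : Γ₀} (h : D.Good g) : D.Good g⁻¹ := by
  obtain ⟨j, rfl⟩ := h
  exact ⟨-j, by rw [mul_neg, zpow_neg]⟩

variable {D} in
lemma Good.ne_zero {g : Γ₀} (h : D.Good g) : g ≠ 0 := by
  obtain ⟨j, rfl⟩ := h
  exact zpow_ne_zero _ D.eps_ne_zero

variable {D} in
lemma Good.of_mul_left {g g' : Γ₀} (h : D.Good (g * g')) (h' : D.Good g') : D.Good g := by
  have := h.mul h'.inv
  rwa [mul_assoc, mul_inv_cancel₀ h'.ne_zero, mul_one] at this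

lemma good_swap_iff {g : Γ₀} : D.swap.Good g ↔ D.Good g := Iff.rfl

/-- Relation between the component values of `D` and of `D.swap`. -/
lemma cval_mul_swap {x y : F} (hc : D.OnCurve x y) : D.Good (D.cval x y * D.swap.cval x y) := by
  by_cases h1 : 1 ≤ v x
  · rw [D.cval_of_one_le h1, D.swap.cval_of_one_le h1, one_mul]; exact D.good_one
  rw [not_le] at h1
  by_cases h2 : v x ≤ v D.a₄
  · rw [D.cval_of_le_eps h2, D.swap.cval_of_le_eps h2]; exact D.good_eps_sq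
  rw [not_le] at h2
  have hx0 : v x ≠ 0 := (lt_trans D.eps_pos h2).ne'
  by_cases h3 : v (y - D.α * x) < v x
  · have h4 : ¬ v (y - D.β * x) < v x := fun h4 => D.not_both_branches h3 h4
    rw [D.cval_of_alpha h1 h2 h3, D.swap.cval_of_not_alpha h1 h2 h4, mul_inv_cancel₀ hx0]
    exact D.good_one
  · have h4 : v (y - D.β * x) < v x := (D.branch_or hc h1 h2).resolve_left h3
    rw [D.cval_of_not_alpha h1 h2 h3, D.swap.cval_of_alpha h1 h2 h4, inv_mul_cancel₀ hx0]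
    exact D.good_one

namespace LineData

variable {D} {x₁ y₁ x₂ y₂ x₃ y₃ ℓ c : F}

/-- Case B: all three points reduce to the node. -/
lemma caseB (h : D.LineData x₁ y₁ x₂ y₂ x₃ y₃ ℓ c) (h₁ : v x₁ < 1) (h₂ : v x₂ < 1)
    (h₃ : v x₃ < 1) : D.Good (D.cval x₁ y₁ * D.cval x₂ y₂ * D.cval x₃ y₃) := by
  -- `v ℓ ≤ 1`
  have hℓ : v ℓ ≤ 1 := by
    by_contra hcon
    rw [not_le] at hcon
    have hα : v (ℓ - D.α) = v ℓ :=
      Valuation.map_sub_eq_of_lt_left v (lt_of_le_of_lt D.hα hcon)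
    have hβ : v (ℓ - D.β) = v ℓ :=
      Valuation.map_sub_eq_of_lt_left v (lt_of_le_of_lt D.hβ hcon)
    have : v (x₁ + x₂ + x₃) < 1 := Valuation.map_add_lt v (Valuation.map_add_lt v h₁ h₂) h₃
    rw [h.e₁, map_mul, hα, hβ] at this
    exact absurd this (not_lt.mpr (one_le_mul_of_one_le_of_one_le hcon.le hcon.le))
  have hα : v (ℓ - D.α) ≤ 1 := Valuation.map_sub_le v hℓ D.hα
  have hβ : v (ℓ - D.β) ≤ 1 := Valuation.map_sub_le v hℓ D.hβ
  have hprod : v (ℓ - D.α) * v (ℓ - D.β) < 1 := by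
    have : v (x₁ + x₂ + x₃) < 1 := Valuation.map_add_lt v (Valuation.map_add_lt v h₁ h₂) h₃
    rwa [h.e₁, map_mul] at this
  by_cases hμ : v (ℓ - D.α) < 1
  · rcases B_alpha h hμ h₁ h₂ h₃ with e | e
    · rw [e]; exact D.good_one
    · rw [e]; exact D.good_eps_sq
  · have hμ' : v (ℓ - D.β) < 1 := by
      have : v (ℓ - D.α) = 1 := le_antisymm hα (not_lt.mp hμ)
      rwa [this, one_mul] at hprod
    have hs : D.swap.Good (D.swap.cval x₁ y₁ * D.swap.cval x₂ y₂ * D.swap.cval x₃ y₃) := by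
      rcases B_alpha h.swap hμ' h₁ h₂ h₃ with e | e
      · rw [e]; exact D.swap.good_one
      · rw [e]; exact D.swap.good_eps_sq
    rw [good_swap_iff] at hs
    have hall := ((D.cval_mul_swap h.c₁).mul (D.cval_mul_swap h.c₂)).mul (D.cval_mul_swap h.c₃)
    refine Good.of_mul_left ?_ hs
    convert hall using 1
    ac_rfl

/-- Case A2: exactly one of the three points reduces to the node: impossible. -/
lemma caseA2 (h : D.LineData x₁ y₁ x₂ y₂ x₃ y₃ ℓ c) (h₁ : 1 ≤ v x₁) (h₂ : v x₂ < 1)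
    (h₃ : 1 ≤ v x₃) : False := by
  have hy₂ := D.v_y_lt_one h.c₂ h₂
  have hc : c = y₂ - ℓ * x₂ := by rw [h.l₂]; ring
  have he₂ : x₁ * x₃ = (D.a₄ - (2 * ℓ - D.α - D.β) * c) - x₂ * (x₁ + x₃) := by
    rw [← h.e₂]; ring
  have hsum : x₁ + x₃ = (ℓ - D.α) * (ℓ - D.β) - x₂ := by rw [← h.e₁]; ring
  by_cases hℓ : v ℓ ≤ 1
  · have hvc : v c < 1 := by
      rw [hc]; apply Valuation.map_sub_lt v hy₂
      rw [map_mul]; exact lt_of_le_of_lt (mul_le_of_le_one_left' hℓ) h₂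
    have hα : v (ℓ - D.α) ≤ 1 := Valuation.map_sub_le v hℓ D.hα
    have hβ : v (ℓ - D.β) ≤ 1 := Valuation.map_sub_le v hℓ D.hβ
    have hu : v (2 * ℓ - D.α - D.β) ≤ 1 := by
      have : 2 * ℓ - D.α - D.β = (ℓ - D.α) + (ℓ - D.β) := by ring
      rw [this]; exact Valuation.map_add_le v hα hβ
    have hs : v (x₁ + x₃) ≤ 1 := by
      rw [hsum]; apply Valuation.map_sub_le v _ h₂.le
      rw [map_mul]; exact mul_le_one' hα hβ
    have : v (x₁ * x₃) < 1 := by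
      rw [he₂]
      apply Valuation.map_sub_lt v
      · apply Valuation.map_sub_lt v D.ha₄
        rw [map_mul]; exact lt_of_le_of_lt (mul_le_of_le_one_left' hu) hvc
      · rw [map_mul]; exact lt_of_le_of_lt (mul_le_of_le_one_right' hs) h₂
    rw [map_mul] at this
    exact absurd this (not_lt.mpr (one_le_mul_of_one_le_of_one_le h₁ h₃))
  · rw [not_le] at hℓ
    have hL0 : 0 < v ℓ := lt_trans zero_lt_one hℓ
    have hα : v (ℓ - D.α) = v ℓ :=
      Valuation.map_sub_eq_of_lt_left v (lt_of_le_of_lt D.hα hℓ)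
    have hβ : v (ℓ - D.β) = v ℓ :=
      Valuation.map_sub_eq_of_lt_left v (lt_of_le_of_lt D.hβ hℓ)
    have hLL : 1 < v ℓ * v ℓ := one_lt_mul_of_lt_of_le' hℓ hℓ.le
    have hvc : v c < v ℓ := by
      rw [hc]; apply Valuation.map_sub_lt v (lt_trans hy₂ hℓ)
      rw [map_mul]; exact mul_lt_of_lt_one_right hL0 h₂
    have hu : v (2 * ℓ - D.α - D.β) ≤ v ℓ := by
      have : 2 * ℓ - D.α - D.β = (ℓ - D.α) + (ℓ - D.β) := by ring
      rw [this]; exact Valuation.map_add_le v hα.le hβ.le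
    have hs : v (x₁ + x₃) = v ℓ * v ℓ := by
      have hprod : v ((ℓ - D.α) * (ℓ - D.β)) = v ℓ * v ℓ := by rw [map_mul, hα, hβ]
      rw [hsum, Valuation.map_sub_eq_of_lt_left v (by rw [hprod]; exact lt_trans h₂ hLL), hprod]
    have h13 : v (x₁ * x₃) < v ℓ * v ℓ := by
      rw [he₂]
      apply Valuation.map_sub_lt v
      · apply Valuation.map_sub_lt v (lt_trans D.ha₄ hLL)
        rw [map_mul]; exact g0_mul_lt_of_le_of_lt hu hvc hL0
      · rw [map_mul, hs]; exact mul_lt_of_lt_one_left (lt_trans zero_lt_one hLL) h₂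
    rw [map_mul] at h13
    have hmax : v ℓ * v ℓ ≤ v x₁ ∨ v ℓ * v ℓ ≤ v x₃ := by
      by_contra hcon
      rw [not_or, not_le, not_le] at hcon
      have := Valuation.map_add_lt v hcon.1 hcon.2
      rw [hs] at this; exact lt_irrefl _ this
    rcases hmax with g | g
    · exact absurd h13 (not_lt.mpr (le_trans (by rw [mul_one]) (mul_le_mul' g h₃)))
    · exact absurd h13 (not_lt.mpr (le_trans (by rw [one_mul]) (mul_le_mul' h₁ g)))

/-- In case A1 with `v x₁ = v x₂ = N'` in the middle regime, one of the two points near the node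
lies on the `α`-branch. -/
lemma A1_exists_branch (h : D.LineData x₁ y₁ x₂ y₂ x₃ y₃ ℓ c) {L N : Γ₀} (hL : 1 ≤ L)
    (h₁ : v x₁ = N) (h₂ : v x₂ = N) (hN1 : N < 1) (hεN : v D.a₄ < N)
    (hx₃ : v x₃ = L * L) (hμα : v (ℓ - D.α) = L) (hvc : v c = L * N) :
    v (y₁ - D.α * x₁) < v x₁ ∨ v (y₂ - D.α * x₂) < v x₂ := by
  by_contra hcon
  rw [not_or, not_lt, not_lt] at hcon
  have hL0 : 0 < L := lt_of_lt_of_le zero_lt_one hL
  have hN0 : 0 < N := lt_trans D.eps_pos hεN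
  have f₁ : v (y₁ - D.α * x₁) = N := by
    rw [← h₁]
    exact le_antisymm (D.v_fα_le h.c₁ (by rw [h₁]; exact hN1) (by rw [h₁]; exact hεN.le)) hcon.1
  have f₂ : v (y₂ - D.α * x₂) = N := by
    rw [← h₂]
    exact le_antisymm (D.v_fα_le h.c₂ (by rw [h₂]; exact hN1) (by rw [h₂]; exact hεN.le)) hcon.2
  have f₃ : v (y₃ - D.α * x₃) = L * (L * L) := by
    have : y₃ - D.α * x₃ = (ℓ - D.α) * x₃ + c := by rw [h.l₃]; ring
    rw [this]
    have e : v ((ℓ - D.α) * x₃) = L * (L * L) := by rw [map_mul, hμα, hx₃]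
    rw [Valuation.map_add_eq_of_lt_left v _, e]
    rw [e, hvc]
    have : N < L * L := lt_of_lt_of_le hN1 (one_le_mul_of_one_le_of_one_le hL hL)
    gcongr
  have hR : v (c * (c ^ 2 + D.a₄ * (ℓ - D.α) ^ 2)) < L * N * (L * L * N) := by
    rw [map_mul, hvc]
    have : v (c ^ 2 + D.a₄ * (ℓ - D.α) ^ 2) < L * L * N := by
      apply Valuation.map_add_lt
      · rw [map_pow, hvc, pow_two]
        have : L * N * (L * N) = L * L * N * N := by ac_rfl
        rw [this]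
        exact mul_lt_of_lt_one_right (mul_pos (mul_pos hL0 hL0) hN0) hN1
      · rw [map_mul, map_pow, hμα, pow_two, mul_comm]
        have : 0 < L * L := mul_pos hL0 hL0
        gcongr
    have h0 : 0 < L * N := mul_pos hL0 hN0
    gcongr
  rw [← h.prod_fα, map_mul, map_mul, f₁, f₂, f₃] at hR
  have : N * N * (L * (L * L)) = L * N * (L * L * N) := by ac_rfl
  rw [this] at hR
  exact lt_irrefl _ hR

/-- Core of case A1 with a scaling element `s`. -/
lemma caseA1_core (h : D.LineData x₁ y₁ x₂ y₂ x₃ y₃ ℓ c) (h₁ : v x₁ < 1) (h₂ : v x₂ < 1)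
    {s c' : F} (hs : 1 ≤ v s) (hμα : v (ℓ - D.α) = v s) (hμβ : v (ℓ - D.β) = v s)
    (hu : v (2 * ℓ - D.α - D.β) ≤ v s) (hc' : c = s * c') (hN : v c' < 1) :
    D.Good (D.cval x₁ y₁ * D.cval x₂ y₂) := by
  have hL0 : 0 < v s := lt_of_lt_of_le zero_lt_one hs
  have hLL : 1 ≤ v s * v s := one_le_mul_of_one_le_of_one_le hs hs
  have hLL0 : 0 < v s * v s := mul_pos hL0 hL0
  have hvc : v c = v s * v c' := by rw [hc', map_mul]
  -- valuation of `x₃`
  have hx₃ : v x₃ = v s * v s := by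
    have e : x₃ = (ℓ - D.α) * (ℓ - D.β) - (x₁ + x₂) := by rw [← h.e₁]; ring
    have e' : v ((ℓ - D.α) * (ℓ - D.β)) = v s * v s := by rw [map_mul, hμα, hμβ]
    rw [e, Valuation.map_sub_eq_of_lt_left v _, e']
    rw [e']; exact lt_of_lt_of_le (Valuation.map_add_lt v h₁ h₂) hLL
  -- product of the two small roots
  have hP : v x₁ * v x₂ = v c' * v c' := by
    have := h.v_prod
    rw [hx₃, hvc] at this
    have e : v s * v c' * (v s * v c') = v c' * v c' * (v s * v s) := by ac_rfl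
    rw [e] at this
    exact mul_right_cancel₀ hLL0.ne' this
  -- sum of the two small roots
  have hS : v (x₁ + x₂) ≤ max (v D.a₄) (v c') := by
    have e : x₃ * (x₁ + x₂) = D.a₄ - (2 * ℓ - D.α - D.β) * c - x₁ * x₂ := by
      rw [← h.e₂]; ring
    have b1 : v D.a₄ ≤ v s * v s * max (v D.a₄) (v c') :=
      le_trans (le_max_left _ _) (le_mul_of_one_le_left zero_le hLL)
    have b2 : v ((2 * ℓ - D.α - D.β) * c) ≤ v s * v s * max (v D.a₄) (v c') := by
      rw [map_mul, hvc]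
      calc v (2 * ℓ - D.α - D.β) * (v s * v c') ≤ v s * (v s * v c') := by gcongr
        _ = v s * v s * v c' := by ac_rfl
        _ ≤ v s * v s * max (v D.a₄) (v c') := by gcongr; exact le_max_right _ _
    have b3 : v (x₁ * x₂) ≤ v s * v s * max (v D.a₄) (v c') := by
      rw [map_mul, hP]
      calc v c' * v c' ≤ v c' := mul_le_of_le_one_left' hN.le
        _ ≤ max (v D.a₄) (v c') := le_max_right _ _
        _ ≤ v s * v s * max (v D.a₄) (v c') := le_mul_of_one_le_left zero_le hLL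
    have : v (x₃ * (x₁ + x₂)) ≤ v s * v s * max (v D.a₄) (v c') := by
      rw [e]; exact Valuation.map_sub_le v (Valuation.map_sub_le v b1 b2) b3
    rw [map_mul, hx₃] at this
    exact le_of_mul_le_mul_left this hLL0
  -- if the two valuations differ, both points are of type `e`
  have hdiff : ∀ {a b : F} {ya yb : F}, v a * v b = v c' * v c' → v a < v b →
      v (a + b) ≤ max (v D.a₄) (v c') → D.Good (D.cval a ya * D.cval b yb) := by
    intro a b ya yb hab hlt hsum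
    rw [Valuation.map_add_eq_of_lt_right v hlt] at hsum
    have hb : v c' < v b := by
      by_contra hcon
      rw [not_lt] at hcon
      rcases eq_or_lt_of_le (zero_le (a := v c')) with h0 | h0
      · rw [← h0] at hcon
        exact absurd (lt_of_le_of_lt zero_le hlt) (not_lt.mpr hcon)
      · have : v a * v b < v c' * v c' :=
          g0_mul_lt_of_lt_of_le (lt_of_lt_of_le hlt hcon) hcon h0
        exact absurd hab this.ne
    have hbε : v b ≤ v D.a₄ := by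
      rcases le_max_iff.mp hsum with g | g
      · exact g
      · exact absurd hb (not_lt.mpr g)
    rw [D.cval_of_le_eps hbε, D.cval_of_le_eps (le_trans hlt.le hbε)]
    exact D.good_eps_sq
  rcases lt_trichotomy (v x₁) (v x₂) with hlt | heq | hgt
  · exact hdiff hP hlt hS
  · -- equal valuations
    have hx₁ : v x₁ = v c' := by
      apply g0_eq_of_mul_self_eq
      rw [← hP, ← heq]
    have hx₂ : v x₂ = v c' := by rw [← heq, hx₁]
    by_cases hε : v c' ≤ v D.a₄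
    · rw [D.cval_of_le_eps (by rw [hx₁]; exact hε), D.cval_of_le_eps (by rw [hx₂]; exact hε)]
      exact D.good_eps_sq
    rw [not_le] at hε
    have hα := A1_exists_branch h hs hx₁ hx₂ hN hε hx₃ hμα hvc
    have hβ := A1_exists_branch h.swap hs hx₁ hx₂ hN hε hx₃ hμβ hvc
    change v (y₁ - D.β * x₁) < v x₁ ∨ v (y₂ - D.β * x₂) < v x₂ at hβ
    have hε₁ : v D.a₄ < v x₁ := by rw [hx₁]; exact hε
    have hε₂ : v D.a₄ < v x₂ := by rw [hx₂]; exact hε
    have hne : v c' ≠ 0 := (lt_trans D.eps_pos hε).ne'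
    rcases hα with ha | ha
    · have hb : v (y₂ - D.β * x₂) < v x₂ := hβ.resolve_left (fun g => D.not_both_branches ha g)
      have hna : ¬ v (y₂ - D.α * x₂) < v x₂ := fun g => D.not_both_branches g hb
      rw [D.cval_of_alpha h₁ hε₁ ha, D.cval_of_not_alpha h₂ hε₂ hna, hx₁, hx₂,
        mul_inv_cancel₀ hne]
      exact D.good_one
    · have hb : v (y₁ - D.β * x₁) < v x₁ := hβ.resolve_right (fun g => D.not_both_branches ha g)
      have hna : ¬ v (y₁ - D.α * x₁) < v x₁ := fun g => D.not_both_branches g hb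
      rw [D.cval_of_not_alpha h₁ hε₁ hna, D.cval_of_alpha h₂ hε₂ ha, hx₁, hx₂,
        inv_mul_cancel₀ hne]
      exact D.good_one
  · have := hdiff (a := x₂) (b := x₁) (ya := y₂) (yb := y₁) (by rw [mul_comm]; exact hP) hgt
      (by rw [add_comm]; exact hS)
    rwa [mul_comm] at this

/-- Case A1: exactly two of the three points reduce to the node. -/
lemma caseA1 (h : D.LineData x₁ y₁ x₂ y₂ x₃ y₃ ℓ c) (h₁ : v x₁ < 1) (h₂ : v x₂ < 1)
    (h₃ : 1 ≤ v x₃) : D.Good (D.cval x₁ y₁ * D.cval x₂ y₂ * D.cval x₃ y₃) := by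
  rw [D.cval_of_one_le h₃, mul_one]
  have hy₁ := D.v_y_lt_one h.c₁ h₁
  have hc : c = y₁ - ℓ * x₁ := by rw [h.l₁]; ring
  have hu' : 2 * ℓ - D.α - D.β = (ℓ - D.α) + (ℓ - D.β) := by ring
  by_cases hℓ : v ℓ ≤ 1
  · have hα : v (ℓ - D.α) ≤ 1 := Valuation.map_sub_le v hℓ D.hα
    have hβ : v (ℓ - D.β) ≤ 1 := Valuation.map_sub_le v hℓ D.hβ
    have hprod : 1 ≤ v (ℓ - D.α) * v (ℓ - D.β) := by
      by_contra hcon
      rw [not_le, ← map_mul, ← h.e₁] at hcon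
      have e : x₃ = (x₁ + x₂ + x₃) - (x₁ + x₂) := by ring
      have : v x₃ < 1 := by
        rw [e]; exact Valuation.map_sub_lt v hcon (Valuation.map_add_lt v h₁ h₂)
      exact absurd this (not_lt.mpr h₃)
    have hα1 : v (ℓ - D.α) = 1 := by
      refine le_antisymm hα ?_
      by_contra hcon
      rw [not_le] at hcon
      have : v (ℓ - D.α) * v (ℓ - D.β) < 1 * 1 := g0_mul_lt_of_lt_of_le hcon hβ zero_lt_one
      rw [one_mul] at this
      exact absurd hprod (not_le.mpr this)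
    have hβ1 : v (ℓ - D.β) = 1 := by
      rw [hα1, one_mul] at hprod; exact le_antisymm hβ hprod
    refine caseA1_core h h₁ h₂ (s := 1) (c' := c) (by rw [map_one]) (by rw [hα1, map_one])
      (by rw [hβ1, map_one]) ?_ (by rw [one_mul]) ?_
    · rw [map_one, hu']; exact Valuation.map_add_le v hα hβ
    · rw [hc]; apply Valuation.map_sub_lt v hy₁
      rw [map_mul]; exact lt_of_le_of_lt (mul_le_of_le_one_left' hℓ) h₁
  · rw [not_le] at hℓ
    have hℓ0 : ℓ ≠ 0 := by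
      intro h0; rw [h0, map_zero] at hℓ; exact absurd hℓ (not_lt.mpr zero_le)
    have hα : v (ℓ - D.α) = v ℓ :=
      Valuation.map_sub_eq_of_lt_left v (lt_of_le_of_lt D.hα hℓ)
    have hβ : v (ℓ - D.β) = v ℓ :=
      Valuation.map_sub_eq_of_lt_left v (lt_of_le_of_lt D.hβ hℓ)
    refine caseA1_core h h₁ h₂ (s := ℓ) (c' := c / ℓ) hℓ.le hα hβ ?_ ?_ ?_
    · rw [hu']; exact Valuation.map_add_le v hα.le hβ.le
    · field_simp
    · have e : c / ℓ = y₁ / ℓ - x₁ := by rw [hc]; field_simp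
      rw [e]
      apply Valuation.map_sub_lt v _ h₁
      rw [map_div₀]
      exact (div_lt_one₀ (lt_trans zero_lt_one hℓ)).mpr (lt_trans hy₁ hℓ)

/-- Main theorem: the product of the three component values along a line is an even power of
`v a₄`. -/
theorem cval_mul_of_line (h : D.LineData x₁ y₁ x₂ y₂ x₃ y₃ ℓ c) :
    D.Good (D.cval x₁ y₁ * D.cval x₂ y₂ * D.cval x₃ y₃) := by
  by_cases h₁ : v x₁ < 1 <;> by_cases h₂ : v x₂ < 1 <;> by_cases h₃ : v x₃ < 1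
  · exact caseB h h₁ h₂ h₃
  · exact caseA1 h h₁ h₂ (not_lt.mp h₃)
  · have := caseA1 h.perm132 h₁ h₃ (not_lt.mp h₂)
    convert this using 1; ac_rfl
  · exact (caseA2 h.perm213 (not_lt.mp h₂) h₁ (not_lt.mp h₃)).elim
  · have := caseA1 h.perm321 h₃ h₂ (not_lt.mp h₁)
    convert this using 1; ac_rfl
  · exact (caseA2 h (not_lt.mp h₁) h₂ (not_lt.mp h₃)).elim
  · exact (caseA2 h.perm132 (not_lt.mp h₁) h₃ (not_lt.mp h₂)).elim
  · rw [D.cval_of_one_le (not_lt.mp h₁), D.cval_of_one_le (not_lt.mp h₂),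
      D.cval_of_one_le (not_lt.mp h₃)]
    simp only [mul_one]; exact D.good_one

end LineData

end NodeData

end Fermat.Agent.S05
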