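import Mathlib

/-!
# S05 helper: the line through three points summing to zero

For three affine points `P₁ + P₂ + P₃ = 0` on a Weierstrass curve over a field there is a line
`y = ℓ x + c` through them, and the three `x`-coordinates are the roots (with multiplicity) of the
cubic obtained by substituting the line into the Weierstrass equation; we record the three
elementary symmetric functions.  Tangent lines (`P₁ = P₂`, etc.) are included.
-/

set_option autoImplicit false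

open WeierstrassCurve WeierstrassCurve.Affine Polynomial

namespace Fermat.Agent.S05

variable {F : Type*} [Field F] [DecidableEq F] {W : WeierstrassCurve.Affine F}

/-- If `P₁ + P₂ + P₃ = 0` for affine points, they lie on a line `y = ℓ x + c`, and
`x₁, x₂, x₃` are the three roots of the corresponding cubic. -/
theorem line_of_add_eq_zero {x₁ y₁ x₂ y₂ x₃ y₃ : F} {h₁ : W.Nonsingular x₁ y₁}
    {h₂ : W.Nonsingular x₂ y₂} {h₃ : W.Nonsingular x₃ y₃}
    (h : Point.some x₁ y₁ h₁ + Point.some x₂ y₂ h₂ + Point.some x₃ y₃ h₃ = 0) :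
    ∃ ℓ c : F, y₁ = ℓ * x₁ + c ∧ y₂ = ℓ * x₂ + c ∧ y₃ = ℓ * x₃ + c ∧
      x₁ + x₂ + x₃ = ℓ ^ 2 + W.a₁ * ℓ - W.a₂ ∧
      x₁ * x₂ + x₁ * x₃ + x₂ * x₃ = W.a₄ - 2 * ℓ * c - W.a₁ * c - W.a₃ * ℓ ∧
      x₁ * x₂ * x₃ = c ^ 2 + W.a₃ * c - W.a₆ := by
  have h12 : Point.some x₁ y₁ h₁ + Point.some x₂ y₂ h₂ = -Point.some x₃ y₃ h₃ :=
    eq_neg_of_add_eq_zero_left h
  have hxy : ¬(x₁ = x₂ ∧ y₁ = W.negY x₂ y₂) := by
    rintro ⟨hx, hy⟩
    rw [Point.add_of_Y_eq hx hy, Point.neg_some] at h12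
    exact Point.some_ne_zero _ h12.symm
  rw [Point.add_some hxy, Point.neg_some, Point.some.injEq] at h12
  obtain ⟨hX, hY⟩ := h12
  set ℓ := W.slope x₁ x₂ y₁ y₂ with hℓ
  have hY' : W.negAddY x₁ x₂ y₁ ℓ = y₃ := by
    rw [addY, hX] at hY
    simp only [negY] at hY
    linear_combination -hY
  have key := addPolynomial_slope h₁.1 h₂.1 hxy
  rw [← hℓ, hX, addPolynomial_eq, neg_inj, Cubic.prod_X_sub_C_eq] at key
  have kb := Cubic.b_of_eq key
  have kc := Cubic.c_of_eq key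
  have kd := Cubic.d_of_eq key
  simp only at kb kc kd
  have hy2 : y₂ = ℓ * x₂ + (y₁ - ℓ * x₁) := by
    by_cases hx : x₁ = x₂
    · have hy : y₁ ≠ W.negY x₂ y₂ := fun hy => hxy ⟨hx, hy⟩
      have := Y_eq_of_Y_ne h₁.1 h₂.1 hx hy
      rw [← this, ← hx]; ring
    · have hne : x₁ - x₂ ≠ 0 := sub_ne_zero.mpr hx
      have : ℓ = (y₁ - y₂) / (x₁ - x₂) := by rw [hℓ, slope_of_X_ne hx]
      rw [this]; field_simp; ring
  refine ⟨ℓ, y₁ - ℓ * x₁, by ring, hy2, ?_, ?_, ?_, ?_⟩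
  · rw [← hY', negAddY, hX]; ring
  · linear_combination kb
  · linear_combination -kc
  · linear_combination kd

end Fermat.Agent.S05
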