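import Mathlib
import Fermat.Agent.S05.Line
import Fermat.Agent.S05.CompCore
import Fermat.Agent.S05.XLaw

/-!
# S05 (hedge, helper28): the signed component homomorphism on Mathlib points

`W` a Weierstrass curve over a valued field with a two-torsion abscissa `t`
(`cf b₂ b₄ b₆ t = 0`), `γ ^ 2 = sB2 W t` a unit, `2` a unit, `0 < v (sB4 W t) < 1`.
In the coordinates `X = 4 (x - t)`, `Y = 4 (2 y + a₁ x + a₃)` the curve is
`(Y - γ X)(Y + γ X) = X (X ^ 2 + 8 sB4)`, to which `CompCore` applies.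

Main results:
* `comp_add_good`, `comp_nsmul_good`: `comp` is a homomorphism modulo even powers of `v (sB4)`;
* `node_rational_signed`: a point of odd prime order `p` with `v (x - t) < 1`, when
  `v (sB4) = v n ^ p`, has `v (sB4) < v (x - t)` and `v (x - t) = v (n ^ (2 k))`.
  (Same conclusion as `node_rational`, without the tent lemmas.)
-/

set_option autoImplicit false

namespace Fermat.Agent.S05.H28

open WeierstrassCurve WeierstrassCurve.Affine
open Fermat.Agent.S51 Fermat.Agent.S05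

variable {F : Type*} [Field F] [DecidableEq F] {Γ₀ : Type*} [LinearOrderedCommGroupWithZero Γ₀]

/-- Hypotheses: multiplicative reduction with node at the two-torsion abscissa `t`. -/
structure NodeAt (v : Valuation F Γ₀) (W : WeierstrassCurve F) (t γ : F) : Prop where
  ht : cf W.b₂ W.b₄ W.b₆ t = 0
  h2 : v (2 : F) = 1
  hγ : γ ^ 2 = sB2 W t
  hB2 : v (sB2 W t) = 1
  hB4 : sB4 W t ≠ 0
  hB4lt : v (sB4 W t) < 1

namespace NodeAt

variable {v : Valuation F Γ₀} {W : WeierstrassCurve F} {t γ : F} (H : NodeAt v W t γ)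
include H

lemma v_four : v (4 : F) = 1 := by
  have : (4 : F) = 2 * 2 := by norm_num
  rw [this, map_mul, H.h2, one_mul]

lemma v_eight : v (8 : F) = 1 := by
  have : (8 : F) = 2 * 4 := by norm_num
  rw [this, map_mul, H.h2, H.v_four, one_mul]

lemma v_γ : v γ = 1 := by
  have h := H.hB2
  rw [← H.hγ, map_pow, pow_two] at h
  exact g0_eq_of_mul_self_eq (by rw [h, one_mul])

/-- The associated node data. -/
def nodeData : NodeData v where
  α := γ
  β := -γ
  a₄ := 8 * sB4 W t
  hα := H.v_γ.le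
  hβ := by rw [Valuation.map_neg]; exact H.v_γ.le
  hδ := by
    have : γ - -γ = 2 * γ := by ring
    rw [this, map_mul, H.h2, H.v_γ, one_mul]
  h2 := H.h2
  ha₄ := by rw [map_mul, H.v_eight, one_mul]; exact H.hB4lt
  ha₄0 := by
    have h8 : (8 : F) ≠ 0 := by
      intro h; have := H.v_eight; rw [h, map_zero] at this; exact zero_ne_one this
    exact mul_ne_zero h8 H.hB4

lemma v_a₄ : v H.nodeData.a₄ = v (sB4 W t) := by
  change v (8 * sB4 W t) = _
  rw [map_mul, H.v_eight, one_mul]

/-- Shifted and scaled coordinates. -/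
def sX (_H : NodeAt v W t γ) (x : F) : F := 4 * (x - t)

/-- Shifted and scaled coordinates. -/
def sY (_H : NodeAt v W t γ) (x y : F) : F := 4 * (2 * y + W.a₁ * x + W.a₃)

lemma v_sX (x : F) : v (H.sX x) = v (x - t) := by
  rw [sX, map_mul, H.v_four, one_mul]

lemma onCurve {x y : F} (h : W.toAffine.Equation x y) :
    H.nodeData.OnCurve (H.sX x) (H.sY x y) := by
  rw [Affine.equation_iff] at h
  have ht := H.ht
  have hγ := H.hγ
  simp only [cf, sB2, sB4, WeierstrassCurve.b₂, WeierstrassCurve.b₄, WeierstrassCurve.b₆] at ht hγ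
  change (H.sY x y - γ * H.sX x) * (H.sY x y - -γ * H.sX x) =
    H.sX x * (H.sX x ^ 2 + 8 * sB4 W t)
  simp only [sX, sY, sB4, WeierstrassCurve.b₂, WeierstrassCurve.b₄]
  linear_combination 64 * h + 16 * ht - 16 * (x - t) ^ 2 * hγ

/-- The line data in shifted coordinates. -/
lemma lineData {x₁ y₁ x₂ y₂ x₃ y₃ : F} {h₁ : W.toAffine.Nonsingular x₁ y₁}
    {h₂ : W.toAffine.Nonsingular x₂ y₂} {h₃ : W.toAffine.Nonsingular x₃ y₃}
    (h : Point.some x₁ y₁ h₁ + Point.some x₂ y₂ h₂ + Point.some x₃ y₃ h₃ = 0) :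
    ∃ ℓ c : F, H.nodeData.LineData (H.sX x₁) (H.sY x₁ y₁) (H.sX x₂) (H.sY x₂ y₂)
      (H.sX x₃) (H.sY x₃ y₃) ℓ c := by
  obtain ⟨ℓ, c, l₁, l₂, l₃, e₁, e₂, e₃⟩ := line_of_add_eq_zero h
  have ht := H.ht
  have hγ := H.hγ
  simp only [cf, sB2, sB4, WeierstrassCurve.b₂, WeierstrassCurve.b₄, WeierstrassCurve.b₆] at ht hγ
  refine ⟨2 * ℓ + W.a₁, 4 * t * (2 * ℓ + W.a₁) + 8 * c + 4 * W.a₃,
    H.onCurve h₁.1, H.onCurve h₂.1, H.onCurve h₃.1, ?_, ?_, ?_, ?_, ?_, ?_⟩
  · simp only [sX, sY]; rw [l₁]; ring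
  · simp only [sX, sY]; rw [l₂]; ring
  · simp only [sX, sY]; rw [l₃]; ring
  · change _ = (_ - γ) * (_ - -γ)
    simp only [sX]
    linear_combination 4 * e₁ + hγ
  · change _ = 8 * sB4 W t - (2 * (2 * ℓ + W.a₁) - γ - -γ) * _
    simp only [sX, sB4, WeierstrassCurve.b₂, WeierstrassCurve.b₄]
    linear_combination 16 * e₂ - 32 * t * e₁
  · simp only [sX]
    linear_combination 64 * e₃ - 64 * t * e₂ + 64 * t ^ 2 * e₁ - 16 * ht

/-- The component value of a point. -/
noncomputable def comp (H : NodeAt v W t γ) : W.toAffine.Point → Γ₀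
  | .zero => 1
  | .some x y _ => H.nodeData.cval (H.sX x) (H.sY x y)

lemma comp_zero : H.comp (0 : W.toAffine.Point) = 1 := rfl

lemma comp_some {x y : F} (h : W.toAffine.Nonsingular x y) :
    H.comp (Point.some x y h) = H.nodeData.cval (H.sX x) (H.sY x y) := rfl

/-- `cval` is never zero. -/
lemma cval_ne_zero (x y : F) : H.nodeData.cval x y ≠ 0 := by
  unfold NodeData.cval
  split_ifs with h1 h2 h3
  · exact one_ne_zero
  · exact H.nodeData.eps_ne_zero
  · rw [not_le] at h2; exact (lt_trans H.nodeData.eps_pos h2).ne'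
  · rw [not_le] at h2; exact inv_ne_zero (lt_trans H.nodeData.eps_pos h2).ne'

lemma comp_ne_zero (P : W.toAffine.Point) : H.comp P ≠ 0 := by
  cases P with
  | zero => exact one_ne_zero
  | some x y h => exact H.cval_ne_zero _ _

/-- `cval` at `(X, -Y)` is the swapped `cval` at `(X, Y)`. -/
lemma cval_neg (X Y : F) : H.nodeData.cval X (-Y) = H.nodeData.swap.cval X Y := by
  have e : v (-Y - H.nodeData.α * X) = v (Y - H.nodeData.swap.α * X) := by
    change v (-Y - γ * X) = v (Y - -γ * X)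
    have : -Y - γ * X = -(Y - -γ * X) := by ring
    rw [this, Valuation.map_neg]
  unfold NodeData.cval
  rw [e]
  rfl

lemma comp_neg_mul (P : W.toAffine.Point) : H.nodeData.Good (H.comp P * H.comp (-P)) := by
  cases P with
  | zero =>
    change H.nodeData.Good (1 * 1)
    rw [one_mul]; exact H.nodeData.good_one
  | some x y h =>
    rw [Point.neg_some, comp_some, comp_some]
    have : H.sY x (W.toAffine.negY x y) = -H.sY x y := by
      simp only [sY, Affine.negY]; ring
    rw [this, H.cval_neg]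
    exact H.nodeData.cval_mul_swap (H.onCurve h.1)

/-- Three points with sum zero: the product of the component values is good. -/
theorem comp_mul_of_add_eq_zero {P₁ P₂ P₃ : W.toAffine.Point} (h : P₁ + P₂ + P₃ = 0) :
    H.nodeData.Good (H.comp P₁ * H.comp P₂ * H.comp P₃) := by
  cases P₁ with
  | zero =>
    change (0 : W.toAffine.Point) + P₂ + P₃ = 0 at h
    rw [zero_add] at h
    have : P₃ = -P₂ := (neg_eq_of_add_eq_zero_right h).symm
    rw [this]
    change H.nodeData.Good (1 * _ * _)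
    rw [one_mul]; exact H.comp_neg_mul P₂
  | some x₁ y₁ h₁ =>
    cases P₂ with
    | zero =>
      change Point.some x₁ y₁ h₁ + (0 : W.toAffine.Point) + P₃ = 0 at h
      rw [add_zero] at h
      have : P₃ = -Point.some x₁ y₁ h₁ := (neg_eq_of_add_eq_zero_right h).symm
      rw [this]
      change H.nodeData.Good (_ * 1 * _)
      rw [mul_one]; exact H.comp_neg_mul _
    | some x₂ y₂ h₂ =>
      cases P₃ with
      | zero =>
        change Point.some x₁ y₁ h₁ + Point.some x₂ y₂ h₂ + (0 : W.toAffine.Point) = 0 at h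
        rw [add_zero] at h
        have : Point.some x₂ y₂ h₂ = -Point.some x₁ y₁ h₁ :=
          (neg_eq_of_add_eq_zero_right h).symm
        rw [this]
        change H.nodeData.Good (_ * _ * 1)
        rw [mul_one]; exact H.comp_neg_mul _
      | some x₃ y₃ h₃ =>
        obtain ⟨ℓ, c, hL⟩ := H.lineData h
        exact hL.cval_mul_of_line

/-- `comp` is additive modulo good elements. -/
theorem comp_add_good (P Q : W.toAffine.Point) :
    H.nodeData.Good (H.comp (P + Q) * (H.comp P * H.comp Q)⁻¹) := by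
  have h1 := H.comp_mul_of_add_eq_zero (P₁ := P) (P₂ := Q) (P₃ := -(P + Q)) (by abel)
  have h2 := H.comp_neg_mul (P + Q)
  -- comp (-(P+Q)) = g₂ / comp (P+Q); so comp P comp Q g₂ / comp (P+Q) = g₁
  have hne := H.comp_ne_zero (P + Q)
  have hne' := H.comp_ne_zero (-(P + Q))
  have hP := H.comp_ne_zero P
  have hQ := H.comp_ne_zero Q
  have := h2.mul h1.inv
  convert this using 1
  field_simp

/-- `comp (n • P)` is `comp P ^ n` modulo good elements. -/
theorem comp_nsmul_good (P : W.toAffine.Point) (n : ℕ) :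
    H.nodeData.Good (H.comp (n • P) * (H.comp P ^ n)⁻¹) := by
  induction n with
  | zero =>
    rw [zero_smul, pow_zero, inv_one, mul_one]
    exact H.nodeData.good_one
  | succ n ih =>
    have h1 := H.comp_add_good (n • P) P
    have := h1.mul ih
    rw [succ_nsmul, pow_succ]
    convert this using 1
    have hP := H.comp_ne_zero P
    have hn := H.comp_ne_zero (n • P)
    field_simp

/-- For a torsion point, `comp P ^ n` is good. -/
theorem comp_pow_good_of_nsmul_eq_zero {P : W.toAffine.Point} {n : ℕ} (h : n • P = 0) :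
    H.nodeData.Good (H.comp P ^ n) := by
  have := (H.comp_nsmul_good P n).inv
  rw [h] at this
  change H.nodeData.Good (1 * _)⁻¹ at this
  rwa [one_mul, inv_inv] at this

/-- **The component of a `p`-torsion point near the node** (signed version, no tent lemmas). -/
theorem node_signed {g : Γ₀} {p : ℕ} (hg : v (sB4 W t) = g ^ p) (hp : p.Prime) (hp2 : p ≠ 2)
    {P : W.toAffine.Point} (hpP : p • P = 0) {x : F} (hx : px W P = some x)
    (hX1 : v (x - t) < 1) :
    v (sB4 W t) < v (x - t) ∧ ∃ k : ℕ, v (x - t) = g ^ (2 * k) := by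
  obtain ⟨y, h, rfl⟩ : ∃ y h, P = Point.some x y h := by
    cases P with
    | zero => simp [px] at hx
    | some x' y' h' =>
      simp only [px, Option.some.injEq] at hx
      subst hx
      exact ⟨y', h', rfl⟩
  have hp0 : p ≠ 0 := hp.ne_zero
  have hε : v H.nodeData.a₄ = g ^ p := by rw [H.v_a₄, hg]
  have hε0 : 0 < g ^ p := by rw [← hε]; exact H.nodeData.eps_pos
  have hg0 : 0 < g := by
    rcases eq_or_lt_of_le (zero_le (a := g)) with h0 | h0
    · rw [← h0, zero_pow hp0] at hε0; exact absurd hε0 (lt_irrefl _)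
    · exact h0
  have hg1 : g < 1 := by
    by_contra hcon
    rw [not_lt] at hcon
    have : 1 ≤ g ^ p := one_le_pow₀ hcon
    rw [← hε] at this
    exact absurd H.nodeData.ha₄ (not_lt.mpr this)
  -- `comp P = g ^ (2 j)`
  obtain ⟨j, hj⟩ := H.comp_pow_good_of_nsmul_eq_zero hpP
  rw [hε] at hj
  have hcomp : H.comp (Point.some x y h) = g ^ (2 * j) := by
    have e : (g ^ p) ^ (2 * j) = (g ^ (2 * j)) ^ p := by
      rw [← zpow_natCast, ← zpow_mul, ← zpow_natCast, ← zpow_mul, mul_comm]
    rw [e] at hj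
    exact (pow_left_inj₀ zero_le zero_le hp0).mp hj
  rw [comp_some] at hcomp
  have hX : v (H.sX x) = v (x - t) := H.v_sX x
  rw [← hX] at hX1 ⊢
  rw [← H.v_a₄]
  -- positivity of the exponent from `g ^ m < 1`
  have hpos : ∀ {m : ℤ}, g ^ m < 1 → ∃ k : ℕ, m = k := by
    intro m hm
    have : 0 < m := (zpow_lt_one_iff_right_of_lt_one₀ hg0 hg1).mp hm
    exact ⟨m.toNat, (Int.toNat_of_nonneg this.le).symm⟩
  by_cases h2 : v (H.sX x) ≤ v H.nodeData.a₄
  · -- type `e`: impossible by parity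
    exfalso
    rw [H.nodeData.cval_of_le_eps h2, hε, ← zpow_natCast] at hcomp
    have := (zpow_right_inj₀ hg0 hg1.ne).mp hcomp
    have heven : Even p := by
      rw [← Int.even_coe_nat, this]; exact even_two_mul j
    exact hp2 ((Nat.Prime.even_iff hp).mp heven)
  rw [not_le] at h2
  refine ⟨h2, ?_⟩
  by_cases h3 : v (H.sY x y - H.nodeData.α * H.sX x) < v (H.sX x)
  · rw [H.nodeData.cval_of_alpha hX1 h2 h3] at hcomp
    rw [hcomp] at hX1
    obtain ⟨k, hk⟩ := hpos hX1
    have h2k : (2 : ℤ) * j = ((2 * (k / 2) + k % 2 : ℕ) : ℤ) := by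
      rw [hk]; congr 1; omega
    have hkeven : k % 2 = 0 := by
      have : (2 : ℤ) ∣ (k : ℤ) := ⟨j, hk.symm⟩
      omega
    refine ⟨k / 2, ?_⟩
    rw [hcomp, hk, zpow_natCast]
    congr 1; omega
  · rw [H.nodeData.cval_of_not_alpha hX1 h2 h3] at hcomp
    have hcomp' : v (H.sX x) = g ^ (2 * (-j)) := by
      rw [mul_neg, zpow_neg, ← hcomp, inv_inv]
    rw [hcomp'] at hX1
    obtain ⟨k, hk⟩ := hpos hX1
    have hkeven : k % 2 = 0 := by
      have : (2 : ℤ) ∣ (k : ℤ) := ⟨-j, hk.symm⟩
      omega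
    refine ⟨k / 2, ?_⟩
    rw [hcomp', hk, zpow_natCast]
    congr 1; omega

end NodeAt

/-- **Drop-in replacement for `node_rational`** (no tent lemmas; needs a square root `γ` of
`sB2 W t` and `v (sB2 W t) = 1`). -/
theorem node_rational_signed {K : Type*} [Field K] [DecidableEq K] (A : ValuationSubring K)
    (W : WeierstrassCurve K) {t γ : K} (ht : cf W.b₂ W.b₄ W.b₆ t = 0)
    (h2 : A.valuation (2 : K) = 1) (hγ : γ ^ 2 = sB2 W t) (hB2 : A.valuation (sB2 W t) = 1)
    (hB4 : sB4 W t ≠ 0) {n : K} {p : ℕ}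
    (hn : A.valuation (sB4 W t) = A.valuation n ^ p) (hn1 : A.valuation n < 1)
    (hp : p.Prime) (hp2 : p ≠ 2) {P : W.toAffine.Point} (hpP : p • P = 0)
    {x : K} (hx : px W P = some x) (hX1 : A.valuation (x - t) < 1) :
    A.valuation (sB4 W t) < A.valuation (x - t) ∧
      ∃ k : ℕ, A.valuation (x - t) = A.valuation (n ^ (2 * k)) := by
  have hlt : A.valuation (sB4 W t) < 1 := by
    rw [hn]
    rcases eq_or_lt_of_le (zero_le (a := A.valuation n)) with h0 | h0
    · rw [← h0, zero_pow hp.ne_zero]; exact zero_lt_one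
    · exact pow_lt_one₀ h0.le hn1 hp.ne_zero
  have H : NodeAt A.valuation W t γ := ⟨ht, h2, hγ, hB2, hB4, hlt⟩
  obtain ⟨h1, k, hk⟩ := H.node_signed hn hp hp2 hpP hx hX1
  exact ⟨h1, k, by rw [hk, map_pow]⟩

end Fermat.Agent.S05.H28
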