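import Fermat.Agent.S05.FreyLocal

/-!
# Integrality of the `b`-invariants of the Frey curve at an odd prime
-/

set_option autoImplicit false

namespace Fermat.Agent.S05

open WeierstrassCurve
open Fermat.Agent.S51

local notation "Qbar" => AlgebraicClosure ℚ

variable (P : FreyPackage) {q : ℕ} (hq : q.Prime) (hq2 : q ≠ 2)
  (A : ValuationSubring Qbar) (hA : A.LiesOverPrime q)

lemma frey_b₂_mem : (P.freyCurve⁄Qbar).b₂ ∈ A := by
  rw [frey_b₂]
  have : ((P.b : Qbar) ^ P.p - (P.a : Qbar) ^ P.p) = ((P.b ^ P.p - P.a ^ P.p : ℤ) : Qbar) := by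
    push_cast; ring
  rw [this]
  exact frey_intCast_mem A _

include hq hq2 hA in
lemma frey_b₄_mem : (P.freyCurve⁄Qbar).b₄ ∈ A := by
  rw [frey_b₄, ← A.valuation_le_one_iff, frey_val_div_eight hq hq2 A hA, Valuation.map_neg]
  have : ((P.a : Qbar) ^ P.p * (P.b : Qbar) ^ P.p) = ((P.a ^ P.p * P.b ^ P.p : ℤ) : Qbar) := by
    push_cast; ring
  rw [this]
  exact frey_val_intCast_le A _

lemma frey_b₆_mem : (P.freyCurve⁄Qbar).b₆ ∈ A := by
  rw [frey_b₆]
  exact A.zero_mem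

/-- Galois invariance of a rational abscissa -/
lemma frey_galois_fix {t : Qbar} (ht : ∃ r : ℚ, t = algebraMap ℚ Qbar r)
    (σ : Qbar ≃ₐ[ℚ] Qbar) : σ t = t := by
  obtain ⟨r, rfl⟩ := ht
  exact σ.commutes r

/-- Galois invariance of integer powers of integers -/
lemma frey_galois_fix_int_pow (n : ℤ) (k : ℕ) (σ : Qbar ≃ₐ[ℚ] Qbar) :
    σ ((n : Qbar) ^ k) = (n : Qbar) ^ k := by
  rw [map_pow, map_intCast]

lemma frey_galois_fix_int_zpow (n : ℤ) (k : ℤ) (σ : Qbar ≃ₐ[ℚ] Qbar) :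
    σ ((n : Qbar) ^ k) = (n : Qbar) ^ k := by
  rw [map_zpow₀, map_intCast]

end Fermat.Agent.S05
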