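import Fermat.Prelude.Def_FLTPrelim_FreyPackage
import Fermat.Prelude.Def_FLTPrelim_Ramification
import Fermat.Agent.S05.XLaw

/-!
# Local arithmetic of the Frey curve at an odd prime `q ≠ p`

For a valuation subring `A` of `Qbar` lying over `q` we compute the valuations of the
invariants of the Frey curve relative to a suitable `2`-torsion abscissa `t`.
-/

set_option autoImplicit false

namespace Fermat.Agent.S05

open WeierstrassCurve
open Fermat.Agent.S51

local notation "Qbar" => AlgebraicClosure ℚ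

section Ints

variable {K : Type*} [Field K] (A : ValuationSubring K)

lemma frey_intCast_mem (n : ℤ) : (n : K) ∈ A := intCast_mem A n

lemma frey_val_intCast_le (n : ℤ) : A.valuation (n : K) ≤ 1 :=
  (A.valuation_le_one_iff _).mpr (frey_intCast_mem A n)

lemma frey_val_int_lt_one {q : ℕ} (hA : A.LiesOverPrime q) {n : ℤ} (hn : (q : ℤ) ∣ n) :
    A.valuation (n : K) < 1 := by
  obtain ⟨m, rfl⟩ := hn
  have h1 : A.valuation ((q : ℕ) : K) < 1 := A.mem_nonunits_iff.mp hA
  have h2 : A.valuation (m : K) ≤ 1 := frey_val_intCast_le A m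
  push_cast
  rw [map_mul]
  calc A.valuation (q : K) * A.valuation (m : K) ≤ A.valuation (q : K) * 1 := by gcongr
    _ = A.valuation (q : K) := mul_one _
    _ < 1 := h1

lemma frey_val_int_eq_one {q : ℕ} (hq : q.Prime) (hA : A.LiesOverPrime q) {n : ℤ}
    (hn : ¬ (q : ℤ) ∣ n) : A.valuation (n : K) = 1 := by
  have hcop : IsCoprime (q : ℤ) n := by
    rw [Int.isCoprime_iff_gcd_eq_one]
    have := (Nat.Prime.coprime_iff_not_dvd hq).mpr (fun h => hn (Int.natCast_dvd.mpr h))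
    simpa [Int.gcd] using this
  obtain ⟨u, w, huw⟩ := hcop
  rcases lt_or_eq_of_le (frey_val_intCast_le A n) with h | h
  · exfalso
    have h1 : A.valuation ((q : ℕ) : K) < 1 := A.mem_nonunits_iff.mp hA
    have e : (1 : K) = (u : K) * (q : K) + (w : K) * (n : K) := by
      have := congrArg (Int.cast : ℤ → K) huw
      push_cast at this
      exact this.symm
    have : A.valuation (1 : K) < 1 := by
      rw [e]
      refine lt_of_le_of_lt (A.valuation.map_add _ _) (max_lt ?_ ?_)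
      · rw [map_mul]
        calc A.valuation (u : K) * A.valuation (q : K) ≤ 1 * A.valuation (q : K) := by
              gcongr; exact frey_val_intCast_le A u
          _ = A.valuation (q : K) := one_mul _
          _ < 1 := h1
      · rw [map_mul]
        calc A.valuation (w : K) * A.valuation (n : K) ≤ 1 * A.valuation (n : K) := by
              gcongr; exact frey_val_intCast_le A w
          _ = A.valuation (n : K) := one_mul _
          _ < 1 := h
    simp at this
  · exact h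

lemma frey_val_two {q : ℕ} (hq : q.Prime) (hq2 : q ≠ 2) (hA : A.LiesOverPrime q) :
    A.valuation (2 : K) = 1 := by
  have h : ¬ (q : ℤ) ∣ (2 : ℤ) := by
    intro h
    have h' : q ∣ 2 := by exact_mod_cast h
    exact hq2 ((Nat.prime_dvd_prime_iff_eq hq Nat.prime_two).mp h')
  have := frey_val_int_eq_one A hq hA h
  simpa using this

lemma frey_val_natCast_prime {q p : ℕ} (hq : q.Prime) (hp : p.Prime) (hqp : q ≠ p)
    (hA : A.LiesOverPrime q) : A.valuation (p : K) = 1 := by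
  have h : ¬ (q : ℤ) ∣ (p : ℤ) := by
    intro h
    have h' : q ∣ p := by exact_mod_cast h
    exact hqp ((Nat.prime_dvd_prime_iff_eq hq hp).mp h')
  have := frey_val_int_eq_one A hq hA h
  simpa using this

lemma frey_val_pow_two {q : ℕ} (hq : q.Prime) (hq2 : q ≠ 2) (hA : A.LiesOverPrime q) (k : ℕ) :
    A.valuation ((2 : K) ^ k) = 1 := by
  rw [map_pow, frey_val_two A hq hq2 hA, one_pow]

end Ints

section Frey

variable (P : FreyPackage)

lemma frey_b₂ :
    (P.freyCurve⁄Qbar).b₂ = (P.b : Qbar) ^ P.p - (P.a : Qbar) ^ P.p := by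
  simp only [WeierstrassCurve.baseChange, WeierstrassCurve.map_b₂]
  simp only [WeierstrassCurve.b₂, FreyPackage.freyCurve, map_add, map_mul, map_sub, map_div₀,
    map_pow, map_intCast, map_ofNat, map_one]
  field_simp
  ring

lemma frey_b₄ :
    (P.freyCurve⁄Qbar).b₄ = -((P.a : Qbar) ^ P.p * (P.b : Qbar) ^ P.p) / 8 := by
  simp only [WeierstrassCurve.baseChange, WeierstrassCurve.map_b₄]
  simp only [WeierstrassCurve.b₄, FreyPackage.freyCurve, map_add, map_mul, map_div₀,
    map_pow, map_intCast, map_ofNat, map_one, map_neg, map_zero]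
  field_simp
  ring

lemma frey_b₆ : (P.freyCurve⁄Qbar).b₆ = 0 := by
  simp only [WeierstrassCurve.baseChange, WeierstrassCurve.map_b₆]
  simp only [WeierstrassCurve.b₆, FreyPackage.freyCurve, map_add, map_mul,
    map_pow, map_ofNat, map_zero]
  ring

/-- the Fermat equation, in `Qbar` -/
lemma frey_flt : (P.a : Qbar) ^ P.p + (P.b : Qbar) ^ P.p = (P.c : Qbar) ^ P.p := by
  have := congrArg (Int.cast : ℤ → Qbar) P.hFLT
  push_cast at this
  exact this

lemma frey_not_dvd_of_dvd {q : ℕ} (hq : q.Prime) {x y : ℤ} (hxy : gcd x y = 1)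
    (hx : (q : ℤ) ∣ x) : ¬ (q : ℤ) ∣ y := by
  intro hy
  have h1 : (q : ℤ) ∣ gcd x y := dvd_gcd hx hy
  rw [hxy] at h1
  have h2 : (q : ℤ) = 1 ∨ (q : ℤ) = -1 := Int.isUnit_iff.mp (isUnit_of_dvd_one h1)
  have h3 := hq.one_lt
  omega

lemma frey_not_dvd_of_dvd' {q : ℕ} (hq : q.Prime) {x y : ℤ} (hxy : gcd x y = 1)
    (hy : (q : ℤ) ∣ y) : ¬ (q : ℤ) ∣ x := by
  intro hx
  exact frey_not_dvd_of_dvd hq hxy hx hy

/-- shifted invariants at `t = 0` -/
lemma frey_shift_zero :
    sB2 (P.freyCurve⁄Qbar) 0 = (P.b : Qbar) ^ P.p - (P.a : Qbar) ^ P.p ∧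
    sB4 (P.freyCurve⁄Qbar) 0 = -((P.a : Qbar) ^ P.p * (P.b : Qbar) ^ P.p) / 8 ∧
    cf (P.freyCurve⁄Qbar).b₂ (P.freyCurve⁄Qbar).b₄ (P.freyCurve⁄Qbar).b₆ 0 = 0 := by
  refine ⟨?_, ?_, ?_⟩
  · simp only [sB2, frey_b₂]; ring
  · simp only [sB4, frey_b₂, frey_b₄]; ring
  · simp only [cf, frey_b₂, frey_b₄, frey_b₆]; ring

/-- shifted invariants at `t = a ^ p / 4` -/
lemma frey_shift_quarter :
    sB2 (P.freyCurve⁄Qbar) ((P.a : Qbar) ^ P.p / 4) = (P.c : Qbar) ^ P.p + (P.a : Qbar) ^ P.p ∧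
    sB4 (P.freyCurve⁄Qbar) ((P.a : Qbar) ^ P.p / 4) =
      (P.a : Qbar) ^ P.p * (P.c : Qbar) ^ P.p / 8 ∧
    cf (P.freyCurve⁄Qbar).b₂ (P.freyCurve⁄Qbar).b₄ (P.freyCurve⁄Qbar).b₆
      ((P.a : Qbar) ^ P.p / 4) = 0 := by
  have hflt := frey_flt P
  refine ⟨?_, ?_, ?_⟩
  · simp only [sB2, frey_b₂]; linear_combination hflt
  · simp only [sB4, frey_b₂, frey_b₄]
    linear_combination ((P.a : Qbar) ^ P.p / 8) * hflt
  · simp only [cf, frey_b₂, frey_b₄, frey_b₆]; ring

/-- the discriminant of the quadratic factor at `t = 0` -/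
lemma frey_disc_zero :
    sB2 (P.freyCurve⁄Qbar) 0 ^ 2 - 32 * sB4 (P.freyCurve⁄Qbar) 0 = ((P.c : Qbar) ^ P.p) ^ 2 := by
  obtain ⟨h2, h4, -⟩ := frey_shift_zero P
  rw [h2, h4, ← frey_flt P]; ring

variable {P}

lemma frey_val_div_eight {q : ℕ} (hq : q.Prime) (hq2 : q ≠ 2) (A : ValuationSubring Qbar)
    (hA : A.LiesOverPrime q) (x : Qbar) : A.valuation (x / 8) = A.valuation x := by
  have h8 : A.valuation (8 : Qbar) = 1 := by
    have := frey_val_pow_two A hq hq2 hA 3
    norm_num at this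
    exact this
  rw [map_div₀, h8, div_one]

lemma frey_val_div_four {q : ℕ} (hq : q.Prime) (hq2 : q ≠ 2) (A : ValuationSubring Qbar)
    (hA : A.LiesOverPrime q) (x : Qbar) : A.valuation (x / 4) = A.valuation x := by
  have h4 : A.valuation (4 : Qbar) = 1 := by
    have := frey_val_pow_two A hq hq2 hA 2
    norm_num at this
    exact this
  rw [map_div₀, h4, div_one]

variable (P)

/-- **Local data of the Frey curve** at a valuation subring of `Qbar` over an odd prime `q`: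
there is a rational `2`-torsion abscissa `t`, integral at `A`, such that the shifted model
`η² = 4 X³ + sB2 X² + 2 sB4 X` (`X = x - t`) is integral and either has nonsingular reduction
(`sB4` and the discriminant `sB2² - 32 sB4` of the quadratic factor are units), or has a node at
`X = 0` with `sB2` a unit and `v (sB4) = v (n) ^ p` for a nonzero integer `n` divisible by `q`. -/
theorem frey_local {q : ℕ} (hq : q.Prime) (hq2 : q ≠ 2) (A : ValuationSubring Qbar)
    (hA : A.LiesOverPrime q) :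
    ∃ t : Qbar, (∃ r : ℚ, t = algebraMap ℚ Qbar r) ∧ t ∈ A ∧
      cf (P.freyCurve⁄Qbar).b₂ (P.freyCurve⁄Qbar).b₄ (P.freyCurve⁄Qbar).b₆ t = 0 ∧
      sB2 (P.freyCurve⁄Qbar) t ∈ A ∧ sB4 (P.freyCurve⁄Qbar) t ∈ A ∧
      ((A.valuation (sB4 (P.freyCurve⁄Qbar) t) = 1 ∧
        A.valuation (sB2 (P.freyCurve⁄Qbar) t ^ 2 - 32 * sB4 (P.freyCurve⁄Qbar) t) = 1) ∨
       (A.valuation (sB2 (P.freyCurve⁄Qbar) t) = 1 ∧
        ∃ n : ℤ, n ≠ 0 ∧ A.valuation (n : Qbar) < 1 ∧
          A.valuation (sB4 (P.freyCurve⁄Qbar) t) = A.valuation (n : Qbar) ^ P.p)) := by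
  obtain ⟨z2, z4, zcf⟩ := frey_shift_zero P
  obtain ⟨w2, w4, wcf⟩ := frey_shift_quarter P
  have hp0 : P.p ≠ 0 := P.hp0
  have hle : ∀ n : ℤ, A.valuation (n : Qbar) ≤ 1 := frey_val_intCast_le A
  have hpow_lt : ∀ n : ℤ, A.valuation (n : Qbar) < 1 → A.valuation ((n : Qbar) ^ P.p) < 1 := by
    intro n hn
    rw [map_pow]
    exact pow_lt_one₀ zero_le hn hp0
  have hpow_one : ∀ n : ℤ, A.valuation (n : Qbar) = 1 → A.valuation ((n : Qbar) ^ P.p) = 1 := by
    intro n hn
    rw [map_pow, hn, one_pow]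
  have hmem2_zero : sB2 (P.freyCurve⁄Qbar) 0 ∈ A := by
    rw [z2]
    have : ((P.b : Qbar) ^ P.p - (P.a : Qbar) ^ P.p) = ((P.b ^ P.p - P.a ^ P.p : ℤ) : Qbar) := by
      push_cast; ring
    rw [this]
    exact frey_intCast_mem A _
  have hmem2_quarter : sB2 (P.freyCurve⁄Qbar) ((P.a : Qbar) ^ P.p / 4) ∈ A := by
    rw [w2]
    have : ((P.c : Qbar) ^ P.p + (P.a : Qbar) ^ P.p) = ((P.c ^ P.p + P.a ^ P.p : ℤ) : Qbar) := by
      push_cast; ring
    rw [this]
    exact frey_intCast_mem A _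
  have hz0 : ∃ r : ℚ, (0 : Qbar) = algebraMap ℚ Qbar r := ⟨0, by simp⟩
  by_cases ha : (q : ℤ) ∣ P.a
  · -- node, `q ∣ a`
    have hb : ¬ (q : ℤ) ∣ P.b := frey_not_dvd_of_dvd hq P.hgcdab ha
    have va : A.valuation (P.a : Qbar) < 1 := frey_val_int_lt_one A hA ha
    have vb : A.valuation (P.b : Qbar) = 1 := frey_val_int_eq_one A hq hA hb
    have v4 : A.valuation (sB4 (P.freyCurve⁄Qbar) 0) = A.valuation (P.a : Qbar) ^ P.p := by
      rw [z4, frey_val_div_eight hq hq2 A hA, Valuation.map_neg, map_mul, map_pow, map_pow, vb,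
        one_pow, mul_one]
    refine ⟨0, hz0, A.zero_mem, zcf, hmem2_zero, ?_, Or.inr ⟨?_, P.a, P.ha0, va, v4⟩⟩
    · rw [← A.valuation_le_one_iff, v4]
      exact pow_le_one₀ zero_le va.le
    · rw [z2, Valuation.map_sub_eq_of_lt_left]
      · exact hpow_one _ vb
      · rw [hpow_one _ vb]; exact hpow_lt _ va
  by_cases hb : (q : ℤ) ∣ P.b
  · -- node, `q ∣ b`
    have va : A.valuation (P.a : Qbar) = 1 := frey_val_int_eq_one A hq hA ha
    have vb : A.valuation (P.b : Qbar) < 1 := frey_val_int_lt_one A hA hb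
    have v4 : A.valuation (sB4 (P.freyCurve⁄Qbar) 0) = A.valuation (P.b : Qbar) ^ P.p := by
      rw [z4, frey_val_div_eight hq hq2 A hA, Valuation.map_neg, map_mul, map_pow, map_pow, va,
        one_pow, one_mul]
    refine ⟨0, hz0, A.zero_mem, zcf, hmem2_zero, ?_, Or.inr ⟨?_, P.b, P.hb0, vb, v4⟩⟩
    · rw [← A.valuation_le_one_iff, v4]
      exact pow_le_one₀ zero_le vb.le
    · rw [z2, Valuation.map_sub_eq_of_lt_right]
      · exact hpow_one _ va
      · rw [hpow_one _ va]; exact hpow_lt _ vb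
  by_cases hc : (q : ℤ) ∣ P.c
  · -- node, `q ∣ c`
    have va : A.valuation (P.a : Qbar) = 1 := frey_val_int_eq_one A hq hA ha
    have vc : A.valuation (P.c : Qbar) < 1 := frey_val_int_lt_one A hA hc
    have v4 : A.valuation (sB4 (P.freyCurve⁄Qbar) ((P.a : Qbar) ^ P.p / 4)) =
        A.valuation (P.c : Qbar) ^ P.p := by
      rw [w4, frey_val_div_eight hq hq2 A hA, map_mul, map_pow, map_pow, va, one_pow, one_mul]
    refine ⟨(P.a : Qbar) ^ P.p / 4, ⟨(P.a : ℚ) ^ P.p / 4, by simp⟩, ?_, wcf, hmem2_quarter, ?_,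
      Or.inr ⟨?_, P.c, P.hc0, vc, v4⟩⟩
    · rw [← A.valuation_le_one_iff, frey_val_div_four hq hq2 A hA, hpow_one _ va]
    · rw [← A.valuation_le_one_iff, v4]
      exact pow_le_one₀ zero_le vc.le
    · rw [w2, Valuation.map_add_eq_of_lt_right]
      · exact hpow_one _ va
      · rw [hpow_one _ va]; exact hpow_lt _ vc
  · -- good reduction
    have va : A.valuation (P.a : Qbar) = 1 := frey_val_int_eq_one A hq hA ha
    have vb : A.valuation (P.b : Qbar) = 1 := frey_val_int_eq_one A hq hA hb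
    have vc : A.valuation (P.c : Qbar) = 1 := frey_val_int_eq_one A hq hA hc
    have v4 : A.valuation (sB4 (P.freyCurve⁄Qbar) 0) = 1 := by
      rw [z4, frey_val_div_eight hq hq2 A hA, Valuation.map_neg, map_mul, map_pow, map_pow, va,
        vb, one_pow, one_mul]
    refine ⟨0, hz0, A.zero_mem, zcf, hmem2_zero, ?_, Or.inl ⟨v4, ?_⟩⟩
    · rw [← A.valuation_le_one_iff, v4]
    · rw [frey_disc_zero, map_pow, hpow_one _ vc, one_pow]

end Frey

end Fermat.Agent.S05
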