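import Fermat.Agent.S05.XLawGalois
import Fermat.Agent.S05.Inertia

/-! Inertia moves integral points with unit `η`-coordinate into the kernel of reduction. -/

set_option autoImplicit false

namespace Fermat.Agent.S05

open WeierstrassCurve WeierstrassCurve.Affine
open Fermat.Agent.S51

local notation "Qbar" => AlgebraicClosure ℚ

section Val

variable {K : Type*} [Field K] (A : ValuationSubring K)

lemma ik_valuation_add_eq_one {a b : K} (ha : A.valuation a = 1) (hb : A.valuation b < 1) :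
    A.valuation (a + b) = 1 := by
  rw [← ha]
  exact Valuation.map_add_eq_of_lt_left _ (by rw [ha]; exact hb)

lemma ik_valuation_sub_eq_one {a b : K} (ha : A.valuation a = 1) (hb : A.valuation b < 1) :
    A.valuation (a - b) = 1 := by
  rw [sub_eq_add_neg]
  exact ik_valuation_add_eq_one A ha (by rwa [Valuation.map_neg])

end Val

/-- Step (C): if `P` has integral `x` and unit `η` and `σ` is in the inertia group, then
`σ • P - P` is in the kernel of reduction. -/
theorem smul_sub_mem_kernel (E : WeierstrassCurve ℚ) (A : ValuationSubring Qbar)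
    (h2 : A.valuation (2 : Qbar) = 1) (hb2 : (E⁄Qbar).b₂ ∈ A)
    {σ : Qbar ≃ₐ[ℚ] Qbar} (hσ : σ ∈ A.inertiaSubgroupIn ℚ)
    {P : (E⁄Qbar).toAffine.Point} {x η : Qbar} (hx : px (E⁄Qbar) P = some x)
    (hη : peta (E⁄Qbar) P = some η) (hxA : x ∈ A) (hηu : A.valuation η = 1) :
    σ • P - P = 0 ∨ ∃ x₄ : Qbar, px (E⁄Qbar) (σ • P - P) = some x₄ ∧ x₄ ∉ A := by
  have hxσ : px (E⁄Qbar) (σ • P) = some (σ x) := by rw [px_galois, hx]; rfl
  have hησ : peta (E⁄Qbar) (σ • P) = some (σ η) := by rw [peta_galois, hη]; rfl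
  have hηA : η ∈ A := (A.valuation_le_one_iff η).mp hηu.le
  have hdη : A.valuation (σ η - η) < 1 := valuation_apply_sub_lt_one hσ hηA
  have hdx : A.valuation (σ x - x) < 1 := valuation_apply_sub_lt_one hσ hxA
  have h2η : A.valuation (2 * η) = 1 := by rw [map_mul, h2, hηu, one_mul]
  by_cases hne : σ x = x
  · left
    have h1 : px (E⁄Qbar) (σ • P) = px (E⁄Qbar) P := by rw [hxσ, hx, hne]
    rcases px_eq_iff.mp h1 with h | h
    · rw [h, sub_self]
    · exfalso
      have h3 : peta (E⁄Qbar) (σ • P) = some (-η) := by rw [h]; exact peta_neg_of_some hη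
      rw [hησ, Option.some.injEq] at h3
      have h4 : σ η - η = -(2 * η) := by rw [h3]; ring
      rw [h4, Valuation.map_neg, h2η] at hdη
      exact lt_irrefl _ hdη
  · right
    obtain ⟨x₄, hx₄, hrel⟩ := px_sub_of_ne hxσ hx hησ hη hne
    refine ⟨x₄, hx₄, fun hx₄A => ?_⟩
    have hd0 : σ x - x ≠ 0 := sub_ne_zero.mpr hne
    have hσxA : σ x ∈ A := (apply_mem_iff_of_mem_inertiaSubgroupIn hσ x).mpr hxA
    have hsum : A.valuation (σ η + η) = 1 := by
      have : σ η + η = 2 * η + (σ η - η) := by ring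
      rw [this]
      exact ik_valuation_add_eq_one A h2η hdη
    have hsq : A.valuation ((σ η + η) ^ 2) = 1 := by rw [map_pow, hsum, one_pow]
    have h4 : (4 : Qbar) ∈ A := ofNat_mem A 4
    have hcoef : (E⁄Qbar).b₂ + 4 * σ x + 4 * x ∈ A :=
      add_mem (add_mem hb2 (mul_mem h4 hσxA)) (mul_mem h4 hxA)
    have hd2 : A.valuation ((σ x - x) ^ 2) < 1 := by
      rw [map_pow]
      exact pow_lt_one₀ zero_le hdx two_ne_zero
    have hterm : A.valuation (((E⁄Qbar).b₂ + 4 * σ x + 4 * x) * (σ x - x) ^ 2) < 1 := by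
      rw [map_mul]
      calc A.valuation ((E⁄Qbar).b₂ + 4 * σ x + 4 * x) * A.valuation ((σ x - x) ^ 2)
          ≤ 1 * A.valuation ((σ x - x) ^ 2) :=
            mul_le_mul_left ((A.valuation_le_one_iff _).mpr hcoef) _
        _ = A.valuation ((σ x - x) ^ 2) := one_mul _
        _ < 1 := hd2
    have hrhs : A.valuation ((σ η + η) ^ 2 -
        ((E⁄Qbar).b₂ + 4 * σ x + 4 * x) * (σ x - x) ^ 2) = 1 :=
      ik_valuation_sub_eq_one A hsq hterm
    rw [← hrel] at hrhs
    have h4A : (4 : Qbar) * x₄ ∈ A := mul_mem h4 hx₄A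
    have : A.valuation (4 * x₄ * (σ x - x) ^ 2) < 1 := by
      rw [map_mul]
      calc A.valuation (4 * x₄) * A.valuation ((σ x - x) ^ 2)
          ≤ 1 * A.valuation ((σ x - x) ^ 2) :=
            mul_le_mul_left ((A.valuation_le_one_iff _).mpr h4A) _
        _ = A.valuation ((σ x - x) ^ 2) := one_mul _
        _ < 1 := hd2
    rw [hrhs] at this
    exact lt_irrefl _ this

end Fermat.Agent.S05
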