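/-
S05 helper: the kernel of reduction of a Weierstrass curve with integral coefficients has no
torsion of order prime to the residue characteristic.

Setting: `K` a field, `A : ValuationSubring K`, `W : WeierstrassCurve K` with `aᵢ ∈ A`.
The "kernel of reduction" is `E₁ = {O} ∪ {P : x(P) ∉ A}`.  With `ξ = 1/x` and `t = ξ(P)` we show,
by a binary (double-and-add) induction, `ξ(kP) = t (k² + e)` with `e` in the maximal ideal.
-/
import Mathlib

set_option autoImplicit false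

open Polynomial WeierstrassCurve

namespace Fermat.Agent.S05.Kernel

/-! ### Point-level formulas: `x`-coordinate, duplication and the product formula -/

section Field

variable {K : Type*} [Field K] (W : WeierstrassCurve.Affine K)

/-- The numerator `x⁴ - b₄x² - 2b₆x - b₈` of the `x`-coordinate of `2P`. -/
def dblNum (x : K) : K := x ^ 4 - W.b₄ * x ^ 2 - 2 * W.b₆ * x - W.b₈

/-- The denominator `4x³ + b₂x² + 2b₄x + b₆` of the `x`-coordinate of `2P`. -/
def dblDen (x : K) : K := 4 * x ^ 3 + W.b₂ * x ^ 2 + 2 * W.b₄ * x + W.b₆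

/-- The numerator `x₁²x₂² - b₄x₁x₂ - b₆(x₁+x₂) - b₈` of `x(P+Q)·x(P-Q)`. -/
def prodNum (x₁ x₂ : K) : K := x₁ ^ 2 * x₂ ^ 2 - W.b₄ * x₁ * x₂ - W.b₆ * (x₁ + x₂) - W.b₈

lemma dblDen_of_equation {x y : K} (h : W.Equation x y) :
    dblDen W x = (y - W.negY x y) ^ 2 := by
  rw [Affine.equation_iff] at h
  simp only [dblDen, Affine.negY, b₂, b₄, b₆]
  linear_combination (-4) * h

variable {W}

/-- The `x`-coordinate of a point (junk value `0` at the point at infinity). -/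
def xCoord : W.Point → K
  | .zero => 0
  | .some x _ _ => x

@[simp] lemma xCoord_zero : xCoord (0 : W.Point) = 0 := rfl

@[simp] lemma xCoord_some {x y : K} (h : W.Nonsingular x y) :
    xCoord (Affine.Point.some x y h) = x := rfl

lemma xCoord_neg (P : W.Point) : xCoord (-P) = xCoord P := by
  cases P <;> rfl

lemma eq_or_eq_neg_of_xCoord_eq {P Q : W.Point} (hP : P ≠ 0) (hQ : Q ≠ 0)
    (h : xCoord P = xCoord Q) : P = Q ∨ P = -Q := by
  cases P with
  | zero => exact absurd rfl hP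
  | some x y hxy =>
    cases Q with
    | zero => exact absurd rfl hQ
    | some x' y' hxy' => exact Affine.Point.X_eq_iff.mp h

variable [DecidableEq K]

/-- `2P = 0` iff the duplication denominator vanishes at `x(P)`. -/
theorem add_self_eq_zero_iff {P : W.Point} (hP : P ≠ 0) :
    P + P = 0 ↔ dblDen W (xCoord P) = 0 := by
  cases P with
  | zero => exact absurd rfl hP
  | some x y h =>
    rw [xCoord_some, dblDen_of_equation W h.1]
    constructor
    · intro h0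
      by_contra hne
      have hy : y ≠ W.negY x y := fun e => hne (by rw [← e, sub_self]; ring)
      rw [Affine.Point.add_self_of_Y_ne hy] at h0
      exact Affine.Point.some_ne_zero _ h0
    · intro h0
      have : y = W.negY x y := sub_eq_zero.mp (pow_eq_zero_iff two_ne_zero |>.mp h0)
      exact Affine.Point.add_self_of_Y_eq this

/-- The duplication formula: `x(2P) · dblDen(x(P)) = dblNum(x(P))`. -/
theorem xCoord_add_self {P : W.Point} (hP : P ≠ 0) (h2 : P + P ≠ 0) :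
    xCoord (P + P) * dblDen W (xCoord P) = dblNum W (xCoord P) := by
  cases P with
  | zero => exact absurd rfl hP
  | some x y h =>
    have hy : y ≠ W.negY x y := fun e => h2 (Affine.Point.add_self_of_Y_eq e)
    rw [Affine.Point.add_self_of_Y_ne hy]
    simp only [xCoord_some]
    have hψ : y - W.negY x y ≠ 0 := sub_ne_zero.mpr hy
    rw [dblDen_of_equation W h.1, Affine.slope_of_Y_ne rfl hy]
    have h' := (Affine.equation_iff ..).mp h.1
    simp only [Affine.addX, dblNum]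
    field_simp
    simp only [Affine.negY, b₄, b₆, b₈]
    linear_combination (-(8 * x + 4 * W.a₂ + W.a₁ ^ 2)) * h'

/-- Auxiliary: the chord formula for `x(P+Q)`, in terms of `η = 2y + a₁x + a₃`. -/
lemma four_mul_addX_mul_sq {x₁ y₁ x₂ y₂ : K} (hx : x₁ ≠ x₂) :
    4 * W.addX x₁ x₂ (W.slope x₁ x₂ y₁ y₂) * (x₁ - x₂) ^ 2 =
      ((2 * y₁ + W.a₁ * x₁ + W.a₃) - (2 * y₂ + W.a₁ * x₂ + W.a₃)) ^ 2
        - (W.b₂ + 4 * x₁ + 4 * x₂) * (x₁ - x₂) ^ 2 := by
  have hd : x₁ - x₂ ≠ 0 := sub_ne_zero.mpr hx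
  rw [Affine.slope_of_X_ne hx]
  simp only [Affine.addX, b₂]
  field_simp
  ring

/-- The product formula `x(P+Q) · x(P-Q) · (x₁-x₂)² = x₁²x₂² - b₄x₁x₂ - b₆(x₁+x₂) - b₈`. -/
theorem xCoord_add_mul_xCoord_sub (h2 : (2 : K) ≠ 0) {P Q : W.Point} (hP : P ≠ 0) (hQ : Q ≠ 0)
    (hx : xCoord P ≠ xCoord Q) :
    xCoord (P + Q) * xCoord (P - Q) * (xCoord P - xCoord Q) ^ 2 =
      prodNum W (xCoord P) (xCoord Q) := by
  cases P with
  | zero => exact absurd rfl hP
  | some x₁ y₁ h₁ =>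
    cases Q with
    | zero => exact absurd rfl hQ
    | some x₂ y₂ h₂ =>
      simp only [xCoord_some] at hx ⊢
      rw [sub_eq_add_neg, Affine.Point.neg_some, Affine.Point.add_of_X_ne hx,
        Affine.Point.add_of_X_ne hx]
      simp only [xCoord_some]
      have e₁ := four_mul_addX_mul_sq (W := W) (y₁ := y₁) (y₂ := y₂) hx
      have e₂ := four_mul_addX_mul_sq (W := W) (y₁ := y₁) (y₂ := W.negY x₂ y₂) hx
      have E₁ := (Affine.equation_iff ..).mp h₁.1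
      have E₂ := (Affine.equation_iff ..).mp h₂.1
      have hd : x₁ - x₂ ≠ 0 := sub_ne_zero.mpr hx
      have h16 : (16 : K) ≠ 0 := by
        have : (16 : K) = 2 ^ 4 := by norm_num
        rw [this]; exact pow_ne_zero _ h2
      have key : 16 * (x₁ - x₂) ^ 2 * (W.addX x₁ x₂ (W.slope x₁ x₂ y₁ y₂) *
          W.addX x₁ x₂ (W.slope x₁ x₂ y₁ (W.negY x₂ y₂)) * (x₁ - x₂) ^ 2) =
          16 * (x₁ - x₂) ^ 2 * prodNum W x₁ x₂ := by
        have : 16 * (x₁ - x₂) ^ 2 * (W.addX x₁ x₂ (W.slope x₁ x₂ y₁ y₂) *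
          W.addX x₁ x₂ (W.slope x₁ x₂ y₁ (W.negY x₂ y₂)) * (x₁ - x₂) ^ 2) =
          (4 * W.addX x₁ x₂ (W.slope x₁ x₂ y₁ y₂) * (x₁ - x₂) ^ 2) *
          (4 * W.addX x₁ x₂ (W.slope x₁ x₂ y₁ (W.negY x₂ y₂)) * (x₁ - x₂) ^ 2) := by ring
        rw [this, e₁, e₂]
        simp only [Affine.negY, prodNum, b₂, b₄, b₆, b₈]
        linear_combination
          (4 * ((2 * y₁ + W.a₁ * x₁ + W.a₃) ^ 2 - (2 * y₂ + W.a₁ * x₂ + W.a₃) ^ 2
              + (4 * x₁ ^ 3 + (W.a₁ ^ 2 + 4 * W.a₂) * x₁ ^ 2 + 2 * (2 * W.a₄ + W.a₁ * W.a₃) * x₁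
                  + (W.a₃ ^ 2 + 4 * W.a₆))
              - (4 * x₂ ^ 3 + (W.a₁ ^ 2 + 4 * W.a₂) * x₂ ^ 2 + 2 * (2 * W.a₄ + W.a₁ * W.a₃) * x₂
                  + (W.a₃ ^ 2 + 4 * W.a₆)))
            - 8 * (W.a₁ ^ 2 + 4 * W.a₂ + 4 * x₁ + 4 * x₂) * (x₁ - x₂) ^ 2) * E₁
          + (-4 * ((2 * y₁ + W.a₁ * x₁ + W.a₃) ^ 2 - (2 * y₂ + W.a₁ * x₂ + W.a₃) ^ 2
              + (4 * x₁ ^ 3 + (W.a₁ ^ 2 + 4 * W.a₂) * x₁ ^ 2 + 2 * (2 * W.a₄ + W.a₁ * W.a₃) * x₁
                  + (W.a₃ ^ 2 + 4 * W.a₆))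
              - (4 * x₂ ^ 3 + (W.a₁ ^ 2 + 4 * W.a₂) * x₂ ^ 2 + 2 * (2 * W.a₄ + W.a₁ * W.a₃) * x₂
                  + (W.a₃ ^ 2 + 4 * W.a₆)))
            - 8 * (W.a₁ ^ 2 + 4 * W.a₂ + 4 * x₁ + 4 * x₂) * (x₁ - x₂) ^ 2) * E₂
      exact mul_left_cancel₀ (mul_ne_zero h16 (pow_ne_zero 2 hd)) key

end Field

/-! ### Valuation bookkeeping -/

section Val

variable {K : Type*} [Field K] (A : ValuationSubring K)

lemma mul_mem_nonunits_left {a e : K} (ha : a ∈ A) (he : e ∈ A.nonunits) :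
    a * e ∈ A.nonunits := by
  rw [ValuationSubring.mem_nonunits_iff] at he ⊢
  rw [map_mul]
  have ha' : A.valuation a ≤ 1 := (A.valuation_le_one_iff a).mpr ha
  calc A.valuation a * A.valuation e ≤ 1 * A.valuation e := mul_le_mul_left ha' _
    _ = A.valuation e := one_mul _
    _ < 1 := he

lemma mul_mem_nonunits_right {a e : K} (he : e ∈ A.nonunits) (ha : a ∈ A) :
    e * a ∈ A.nonunits := by
  rw [mul_comm]; exact mul_mem_nonunits_left A ha he

lemma mem_of_mem_nonunits {e : K} (he : e ∈ A.nonunits) : e ∈ A :=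
  A.nonunits_subset he

lemma add_mem_nonunits {e f : K} (he : e ∈ A.nonunits) (hf : f ∈ A.nonunits) :
    e + f ∈ A.nonunits := A.nonunits.add_mem he hf

lemma neg_mem_nonunits {e : K} (he : e ∈ A.nonunits) : -e ∈ A.nonunits :=
  A.nonunits.neg_mem he

lemma sub_mem_nonunits {e f : K} (he : e ∈ A.nonunits) (hf : f ∈ A.nonunits) :
    e - f ∈ A.nonunits := by
  rw [sub_eq_add_neg]; exact add_mem_nonunits A he (neg_mem_nonunits A hf)

lemma valuation_one_sub {e : K} (he : e ∈ A.nonunits) : A.valuation (1 - e) = 1 :=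
  Valuation.map_one_sub_of_lt _ ((ValuationSubring.mem_nonunits_iff A).mp he)

lemma one_sub_ne_zero {e : K} (he : e ∈ A.nonunits) : 1 - e ≠ 0 := by
  intro h
  have := valuation_one_sub A he
  rw [h, map_zero] at this
  exact zero_ne_one this

lemma inv_one_sub_mem {e : K} (he : e ∈ A.nonunits) : (1 - e)⁻¹ ∈ A := by
  rw [← A.valuation_le_one_iff, map_inv₀, valuation_one_sub A he, inv_one]

lemma not_mem_nonunits_one_sub {e : K} (he : e ∈ A.nonunits) : 1 - e ∉ A.nonunits := by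
  rw [ValuationSubring.mem_nonunits_iff, valuation_one_sub A he]
  exact lt_irrefl _

lemma mem_nonunits_of_sq {c : K} (h : c ^ 2 ∈ A.nonunits) : c ∈ A.nonunits := by
  rw [ValuationSubring.mem_nonunits_iff] at h ⊢
  rw [map_pow] at h
  by_contra hc
  push Not at hc
  have : (1 : A.ValueGroup) ≤ A.valuation c ^ 2 := one_le_pow_of_one_le' hc 2
  exact absurd h (not_lt.mpr this)

end Val

/-! ### The invariant and the two induction steps -/

section Main

variable {K : Type*} [Field K] [DecidableEq K] (A : ValuationSubring K)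
  {W : WeierstrassCurve.Affine K}

/-- The invariant: `Q` lies in the kernel of reduction and `1/x(Q) = t (c² + e)` with `e` in the
maximal ideal. -/
def Inv (t c : K) (Q : W.Point) : Prop :=
  (Q = 0 ∨ xCoord Q ∉ A) ∧ ∃ e ∈ A.nonunits, (xCoord Q)⁻¹ = t * (c ^ 2 + e)

omit [DecidableEq K] in
lemma four_mem : (4 : K) ∈ A := by exact_mod_cast natCast_mem A 4

omit [DecidableEq K] in
lemma two_mem : (2 : K) ∈ A := by exact_mod_cast natCast_mem A 2

/-- Doubling step. -/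
lemma dbl_step (hb2 : W.b₂ ∈ A) (hb4 : W.b₄ ∈ A) (hb6 : W.b₆ ∈ A) (hb8 : W.b₈ ∈ A)
    {t c : K} (ht : t ∈ A.nonunits) (ht0 : t ≠ 0) (hc : c ∈ A) {Q : W.Point}
    (hQ : Inv A t c Q) : Inv A t (2 * c) (Q + Q) := by
  obtain ⟨hQ1, e, he, hQe⟩ := hQ
  have h4A : (4 : K) ∈ A := four_mem A
  have h2A : (2 : K) ∈ A := two_mem A
  have hc2 : c ^ 2 ∈ A := pow_mem hc 2
  by_cases hQ0 : Q = 0
  · subst hQ0
    simp only [xCoord_zero, inv_zero] at hQe
    have hce : c ^ 2 + e = 0 := (mul_eq_zero.mp hQe.symm).resolve_left ht0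
    refine ⟨Or.inl (by simp), 4 * e, mul_mem_nonunits_left A h4A he, ?_⟩
    have : (2 * c) ^ 2 + 4 * e = 0 := by linear_combination 4 * hce
    simp [this]
  · have hxA : xCoord Q ∉ A := hQ1.resolve_left hQ0
    set x := xCoord Q with hx
    set s := x⁻¹ with hs
    have hx0 : x ≠ 0 := fun h => hxA (h ▸ A.zero_mem)
    have hxs : x * s = 1 := mul_inv_cancel₀ hx0
    have hce : c ^ 2 + e ∈ A := A.add_mem _ _ hc2 (mem_of_mem_nonunits A he)
    have hsm : s ∈ A.nonunits := by rw [hQe]; exact mul_mem_nonunits_right A ht hce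
    have hsA : s ∈ A := mem_of_mem_nonunits A hsm
    -- the two small quantities
    set μ := W.b₂ * s + 2 * W.b₄ * s ^ 2 + W.b₆ * s ^ 3 with hμ
    set ν := W.b₄ * s ^ 2 + 2 * W.b₆ * s ^ 3 + W.b₈ * s ^ 4 with hν
    have hμm : μ ∈ A.nonunits := by
      have : μ = (W.b₂ + 2 * W.b₄ * s + W.b₆ * s ^ 2) * s := by rw [hμ]; ring
      rw [this]
      exact mul_mem_nonunits_left A (A.add_mem _ _ (A.add_mem _ _ hb2
        (A.mul_mem _ _ (A.mul_mem _ _ h2A hb4) hsA)) (A.mul_mem _ _ hb6 (pow_mem hsA 2))) hsm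
    have hνm : ν ∈ A.nonunits := by
      have : ν = (W.b₄ * s + 2 * W.b₆ * s ^ 2 + W.b₈ * s ^ 3) * s := by rw [hν]; ring
      rw [this]
      exact mul_mem_nonunits_left A (A.add_mem _ _ (A.add_mem _ _ (A.mul_mem _ _ hb4 hsA)
        (A.mul_mem _ _ (A.mul_mem _ _ h2A hb6) (pow_mem hsA 2)))
        (A.mul_mem _ _ hb8 (pow_mem hsA 3))) hsm
    have hD : dblDen W x * s ^ 3 = 4 + μ := by
      simp only [dblDen, hμ]
      linear_combination (4 * (x ^ 2 * s ^ 2 + x * s + 1) + W.b₂ * s * (x * s + 1)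
        + 2 * W.b₄ * s ^ 2) * hxs
    have hN : dblNum W x * s ^ 4 = 1 - ν := by
      simp only [dblNum, hν]
      linear_combination ((x ^ 3 * s ^ 3 + x ^ 2 * s ^ 2 + x * s + 1) - W.b₄ * s ^ 2 * (x * s + 1)
        - 2 * W.b₆ * s ^ 3) * hxs
    by_cases h2Q : Q + Q = 0
    · have hD0 : dblDen W x = 0 := (add_self_eq_zero_iff hQ0).mp h2Q
      rw [hD0, zero_mul] at hD
      have h4m : (4 : K) ∈ A.nonunits := by
        have : (4 : K) = -μ := by linear_combination -hD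
        rw [this]; exact neg_mem_nonunits A hμm
      refine ⟨Or.inl h2Q, -(4 * c ^ 2), neg_mem_nonunits A (mul_mem_nonunits_right A h4m hc2), ?_⟩
      rw [h2Q]
      have : (2 * c) ^ 2 + -(4 * c ^ 2) = 0 := by ring
      simp [this]
    · have hx₂ := xCoord_add_self hQ0 h2Q
      rw [← hx] at hx₂
      set x₂ := xCoord (Q + Q) with hx₂def
      have hrel : x₂ * (4 + μ) * s = 1 - ν := by
        linear_combination s ^ 4 * hx₂ - x₂ * s * hD + hN
      have hu0 : 1 - ν ≠ 0 := one_sub_ne_zero A hνm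
      have huinv : (1 - ν)⁻¹ ∈ A := inv_one_sub_mem A hνm
      have h4μ : 4 + μ ∈ A := A.add_mem _ _ h4A (mem_of_mem_nonunits A hμm)
      have hx₂A : x₂ ∉ A := by
        intro hmem
        apply not_mem_nonunits_one_sub A hνm
        rw [← hrel]
        exact mul_mem_nonunits_left A (A.mul_mem _ _ hmem h4μ) hsm
      have hx₂0 : x₂ ≠ 0 := fun h => hx₂A (h ▸ A.zero_mem)
      refine ⟨Or.inr hx₂A, (4 * e + (c ^ 2 + e) * μ + 4 * c ^ 2 * ν) * (1 - ν)⁻¹, ?_, ?_⟩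
      · apply mul_mem_nonunits_right A _ huinv
        exact add_mem_nonunits A (add_mem_nonunits A (mul_mem_nonunits_left A h4A he)
          (mul_mem_nonunits_left A hce hμm)) (mul_mem_nonunits_left A (A.mul_mem _ _ h4A hc2) hνm)
      · have hs' : s = t * (c ^ 2 + e) := hQe
        have : x₂⁻¹ = (4 + μ) * s * (1 - ν)⁻¹ := by
          rw [eq_mul_inv_iff_mul_eq₀ hu0, ← hrel]
          field_simp
        rw [this, hs']
        field_simp
        ring

/-- Addition step: from `(k+1)P` and `kP` to `(2k+1)P`. -/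
lemma add_step (h2 : (2 : K) ≠ 0) (hb4 : W.b₄ ∈ A) (hb6 : W.b₆ ∈ A) (hb8 : W.b₈ ∈ A)
    {t c : K} (ht : t ∈ A.nonunits) (ht0 : t ≠ 0) (hc : c ∈ A) {P Q₁ Q₂ : W.Point}
    (hP : P ≠ 0) (hPt : (xCoord P)⁻¹ = t) (hdiff : Q₁ - Q₂ = P)
    (h₁ : Inv A t (c + 1) Q₁) (h₂ : Inv A t c Q₂) : Inv A t (2 * c + 1) (Q₁ + Q₂) := by
  obtain ⟨hQ₁, e₁, he₁, hs₁⟩ := h₁
  obtain ⟨hQ₂, e₂, he₂, hs₂⟩ := h₂
  have h4A : (4 : K) ∈ A := four_mem A
  have h2A : (2 : K) ∈ A := two_mem A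
  have hc1 : c + 1 ∈ A := A.add_mem _ _ hc A.one_mem
  have h2c1 : 2 * c + 1 ∈ A := A.add_mem _ _ (A.mul_mem _ _ h2A hc) A.one_mem
  have hxP : xCoord P ∉ A := by
    have := (A.inv_mem_nonunits_iff (x := xCoord P)).mp (hPt ▸ ht)
    rcases this with h0 | h0
    · rw [h0, inv_zero] at hPt; exact absurd hPt.symm ht0
    · exact h0
  by_cases hQ₂0 : Q₂ = 0
  · -- `Q₁ = P`
    subst hQ₂0
    rw [sub_zero] at hdiff
    subst hdiff
    rw [add_zero]
    simp only [xCoord_zero, inv_zero] at hs₂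
    have hce : c ^ 2 + e₂ = 0 := (mul_eq_zero.mp hs₂.symm).resolve_left ht0
    have hcm : c ∈ A.nonunits := by
      apply mem_nonunits_of_sq A
      have : c ^ 2 = -e₂ := by linear_combination hce
      rw [this]; exact neg_mem_nonunits A he₂
    refine ⟨Or.inr hxP, -(4 * (c + 1)) * c, mul_mem_nonunits_left A
      (A.neg_mem _ (A.mul_mem _ _ h4A hc1)) hcm, ?_⟩
    rw [hPt]
    have : (2 * c + 1) ^ 2 + -(4 * (c + 1)) * c = 1 := by ring
    rw [this, mul_one]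
  by_cases hQ₁0 : Q₁ = 0
  · -- `Q₂ = -P`
    subst hQ₁0
    have hQ₂P : Q₂ = -P := by
      rw [zero_sub] at hdiff
      rw [← hdiff, neg_neg]
    rw [zero_add, hQ₂P]
    simp only [xCoord_zero, inv_zero] at hs₁
    have hce : (c + 1) ^ 2 + e₁ = 0 := (mul_eq_zero.mp hs₁.symm).resolve_left ht0
    have hcm : c + 1 ∈ A.nonunits := by
      apply mem_nonunits_of_sq A
      have : (c + 1) ^ 2 = -e₁ := by linear_combination hce
      rw [this]; exact neg_mem_nonunits A he₁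
    refine ⟨Or.inr (by rw [xCoord_neg]; exact hxP), -(4 * c) * (c + 1), mul_mem_nonunits_left A
      (A.neg_mem _ (A.mul_mem _ _ h4A hc)) hcm, ?_⟩
    rw [xCoord_neg, hPt]
    have : (2 * c + 1) ^ 2 + -(4 * c) * (c + 1) = 1 := by ring
    rw [this, mul_one]
  -- both nonzero
  have hx₁A : xCoord Q₁ ∉ A := hQ₁.resolve_left hQ₁0
  have hx₂A : xCoord Q₂ ∉ A := hQ₂.resolve_left hQ₂0
  set x₁ := xCoord Q₁ with hx₁
  set x₂ := xCoord Q₂ with hx₂
  set s₁ := x₁⁻¹ with hs₁def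
  set s₂ := x₂⁻¹ with hs₂def
  have hx₁0 : x₁ ≠ 0 := fun h => hx₁A (h ▸ A.zero_mem)
  have hx₂0 : x₂ ≠ 0 := fun h => hx₂A (h ▸ A.zero_mem)
  have hce₁ : (c + 1) ^ 2 + e₁ ∈ A := A.add_mem _ _ (pow_mem hc1 2) (mem_of_mem_nonunits A he₁)
  have hce₂ : c ^ 2 + e₂ ∈ A := A.add_mem _ _ (pow_mem hc 2) (mem_of_mem_nonunits A he₂)
  have hs₁m : s₁ ∈ A.nonunits := by rw [hs₁]; exact mul_mem_nonunits_right A ht hce₁
  have hs₂m : s₂ ∈ A.nonunits := by rw [hs₂]; exact mul_mem_nonunits_right A ht hce₂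
  have hs₁A : s₁ ∈ A := mem_of_mem_nonunits A hs₁m
  have hs₂A : s₂ ∈ A := mem_of_mem_nonunits A hs₂m
  have hs₁0 : s₁ ≠ 0 := inv_ne_zero hx₁0
  have hs₂0 : s₂ ≠ 0 := inv_ne_zero hx₂0
  have hx₁s : x₁ = s₁⁻¹ := (inv_inv x₁).symm
  have hx₂s : x₂ = s₂⁻¹ := (inv_inv x₂).symm
  -- `g = 2c + 1 + e₁ - e₂`
  set g := 2 * c + 1 + e₁ - e₂ with hg
  have hgA : g ∈ A := sub_mem (A.add_mem _ _ h2c1 (mem_of_mem_nonunits A he₁))
    (mem_of_mem_nonunits A he₂)
  have hsg : s₁ - s₂ = t * g := by rw [hs₁, hs₂, hg]; ring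
  by_cases hxx : x₁ = x₂
  · rcases eq_or_eq_neg_of_xCoord_eq hQ₁0 hQ₂0 hxx with h | h
    · exfalso
      apply hP
      rw [← hdiff, h, sub_self]
    · have hsum : Q₁ + Q₂ = 0 := by rw [h, neg_add_cancel]
      have hss : s₁ = s₂ := by rw [hs₁def, hs₂def, hxx]
      have hg0 : g = 0 := by
        have : t * g = 0 := by rw [← hsg, hss, sub_self]
        exact (mul_eq_zero.mp this).resolve_left ht0
      have h2c1m : 2 * c + 1 ∈ A.nonunits := by
        have : 2 * c + 1 = e₂ - e₁ := by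
          have := hg0
          rw [hg] at this
          linear_combination this
        rw [this]; exact sub_mem_nonunits A he₂ he₁
      refine ⟨Or.inl hsum, -((2 * c + 1) * (2 * c + 1)),
        neg_mem_nonunits A (mul_mem_nonunits_right A h2c1m h2c1), ?_⟩
      rw [hsum]
      have : (2 * c + 1) ^ 2 + -((2 * c + 1) * (2 * c + 1)) = 0 := by ring
      simp [this]
  · have hprod := xCoord_add_mul_xCoord_sub h2 hQ₁0 hQ₂0 hxx
    rw [hdiff] at hprod
    have hxPt : xCoord P = t⁻¹ := by rw [← hPt, inv_inv]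
    rw [hxPt] at hprod
    set x₃ := xCoord (Q₁ + Q₂) with hx₃
    set ν := W.b₄ * s₁ * s₂ + W.b₆ * s₁ * s₂ * (s₁ + s₂) + W.b₈ * s₁ ^ 2 * s₂ ^ 2 with hν
    have hνm : ν ∈ A.nonunits := by
      have : ν = (W.b₄ * s₂ + W.b₆ * s₂ * (s₁ + s₂) + W.b₈ * s₁ * s₂ ^ 2) * s₁ := by
        rw [hν]; ring
      rw [this]
      exact mul_mem_nonunits_left A (A.add_mem _ _ (A.add_mem _ _ (A.mul_mem _ _ hb4 hs₂A)
        (A.mul_mem _ _ (A.mul_mem _ _ hb6 hs₂A) (A.add_mem _ _ hs₁A hs₂A)))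
        (A.mul_mem _ _ (A.mul_mem _ _ hb8 hs₁A) (pow_mem hs₂A 2))) hs₁m
    have hPi : prodNum W x₁ x₂ * (s₁ ^ 2 * s₂ ^ 2) = 1 - ν := by
      simp only [prodNum, hν]
      rw [hx₁s, hx₂s]
      field_simp
      ring
    have hd : (x₁ - x₂) * (s₁ * s₂) = s₂ - s₁ := by
      rw [hx₁s, hx₂s]
      field_simp
    have hrel : x₃ * t * g ^ 2 = 1 - ν := by
      have h1 : x₃ * t⁻¹ * (s₂ - s₁) ^ 2 = 1 - ν := by
        rw [← hPi, ← hprod, ← hd]; ring
      have h2' : (s₂ - s₁) ^ 2 = t ^ 2 * g ^ 2 := by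
        have : s₂ - s₁ = -(t * g) := by rw [← hsg]; ring
        rw [this]; ring
      rw [h2'] at h1
      rw [← h1]
      field_simp
    have hu0 : 1 - ν ≠ 0 := one_sub_ne_zero A hνm
    have huinv : (1 - ν)⁻¹ ∈ A := inv_one_sub_mem A hνm
    have hx₃A : x₃ ∉ A := by
      intro hmem
      apply not_mem_nonunits_one_sub A hνm
      rw [← hrel]
      have : x₃ * t * g ^ 2 = (x₃ * g ^ 2) * t := by ring
      rw [this]
      exact mul_mem_nonunits_left A (A.mul_mem _ _ hmem (pow_mem hgA 2)) ht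
    refine ⟨Or.inr hx₃A,
      ((e₁ - e₂) * (g + (2 * c + 1)) + (2 * c + 1) ^ 2 * ν) * (1 - ν)⁻¹, ?_, ?_⟩
    · apply mul_mem_nonunits_right A _ huinv
      exact add_mem_nonunits A
        (mul_mem_nonunits_right A (sub_mem_nonunits A he₁ he₂) (A.add_mem _ _ hgA h2c1))
        (mul_mem_nonunits_left A (pow_mem h2c1 2) hνm)
    · have : x₃⁻¹ = t * g ^ 2 * (1 - ν)⁻¹ := by
        rw [eq_mul_inv_iff_mul_eq₀ hu0, ← hrel]
        have hx₃0 : x₃ ≠ 0 := fun h => hx₃A (h ▸ A.zero_mem)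
        field_simp
      rw [this]
      have hge : g = (2 * c + 1) + (e₁ - e₂) := by rw [hg]; ring
      field_simp
      rw [hge]
      ring

omit [DecidableEq K] in
lemma Inv.congr {t c c' : K} {Q Q' : W.Point} (h : Inv A t c Q) (hc : c = c') (hQ : Q = Q') :
    Inv A t c' Q' := by
  subst hc; subst hQ; exact h

/-- The invariant holds for all multiples of a point `P` of the kernel of reduction. -/
theorem inv_nsmul (h2 : (2 : K) ≠ 0) (hb2 : W.b₂ ∈ A) (hb4 : W.b₄ ∈ A) (hb6 : W.b₆ ∈ A)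
    (hb8 : W.b₈ ∈ A) {P : W.Point} (hP : P ≠ 0) (hxP : xCoord P ∉ A) (k : ℕ) :
    Inv A (xCoord P)⁻¹ (k : K) (k • P) ∧ Inv A (xCoord P)⁻¹ ((k : K) + 1) ((k + 1) • P) := by
  have ht : (xCoord P)⁻¹ ∈ A.nonunits := A.inv_mem_nonunits_iff.mpr (Or.inr hxP)
  have hxP0 : xCoord P ≠ 0 := fun h => hxP (h ▸ A.zero_mem)
  have ht0 : (xCoord P)⁻¹ ≠ 0 := inv_ne_zero hxP0
  induction k using Nat.strong_induction_on with
  | _ k ih =>
    rcases Nat.eq_zero_or_pos k with rfl | hkpos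
    · refine ⟨⟨Or.inl (zero_nsmul P), 0, A.nonunits.zero_mem, ?_⟩,
        ⟨Or.inr (by simpa using hxP), 0, A.nonunits.zero_mem, ?_⟩⟩
      · simp
      · simp
    · rcases Nat.even_or_odd' k with ⟨j, rfl | rfl⟩
      · -- `k = 2j`
        have hj : j < 2 * j := by omega
        obtain ⟨ihj, ihj1⟩ := ih j hj
        have hjA : (j : K) ∈ A := natCast_mem A j
        refine ⟨?_, ?_⟩
        · refine (dbl_step A hb2 hb4 hb6 hb8 ht ht0 hjA ihj).congr A ?_ ?_
          · push_cast; ring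
          · rw [two_mul, add_nsmul]
        · refine (add_step A h2 hb4 hb6 hb8 ht ht0 hjA hP rfl ?_ ihj1 ihj).congr A ?_ ?_
          · rw [add_nsmul, one_nsmul, add_sub_cancel_left]
          · push_cast; ring
          · rw [← add_nsmul]; congr 1; ring
      · -- `k = 2j + 1`
        have hj : j < 2 * j + 1 := by omega
        obtain ⟨ihj, ihj1⟩ := ih j hj
        have hjA : (j : K) ∈ A := natCast_mem A j
        have hj1A : (j : K) + 1 ∈ A := A.add_mem _ _ hjA A.one_mem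
        refine ⟨?_, ?_⟩
        · refine (add_step A h2 hb4 hb6 hb8 ht ht0 hjA hP rfl ?_ ihj1 ihj).congr A ?_ ?_
          · rw [add_nsmul, one_nsmul, add_sub_cancel_left]
          · push_cast; ring
          · rw [← add_nsmul]; congr 1; ring
        · refine (dbl_step A hb2 hb4 hb6 hb8 ht ht0 hj1A ihj1).congr A ?_ ?_
          · push_cast; ring
          · rw [← add_nsmul]; congr 1; ring

omit [DecidableEq K] in
lemma b_mem (h1 : W.a₁ ∈ A) (h2 : W.a₂ ∈ A) (h3 : W.a₃ ∈ A) (h4 : W.a₄ ∈ A) (h6 : W.a₆ ∈ A) :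
    W.b₂ ∈ A ∧ W.b₄ ∈ A ∧ W.b₆ ∈ A ∧ W.b₈ ∈ A := by
  have h4A : (4 : K) ∈ A := four_mem A
  have h2A : (2 : K) ∈ A := two_mem A
  refine ⟨?_, ?_, ?_, ?_⟩
  · simp only [b₂]
    exact A.add_mem _ _ (pow_mem h1 2) (A.mul_mem _ _ h4A h2)
  · simp only [b₄]
    exact A.add_mem _ _ (A.mul_mem _ _ h2A h4) (A.mul_mem _ _ h1 h3)
  · simp only [b₆]
    exact A.add_mem _ _ (pow_mem h3 2) (A.mul_mem _ _ h4A h6)
  · simp only [b₈]
    exact sub_mem (A.add_mem _ _ (sub_mem (A.add_mem _ _ (A.mul_mem _ _ (pow_mem h1 2) h6)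
      (A.mul_mem _ _ (A.mul_mem _ _ h4A h2) h6)) (A.mul_mem _ _ (A.mul_mem _ _ h1 h3) h4))
      (A.mul_mem _ _ h2 (pow_mem h3 2))) (pow_mem h4 2)

/-- **No prime-to-residue-characteristic torsion in the kernel of reduction.**
If `W` has coefficients in the valuation ring `A`, `P ≠ O` has `x(P) ∉ A`, and the natural number
`m` is a unit of `A` (i.e. `m ∉ 𝔪_A`), then `m • P ≠ O`. -/
theorem nsmul_ne_zero_of_xCoord_not_mem (h2 : (2 : K) ≠ 0)
    (h1 : W.a₁ ∈ A) (h2' : W.a₂ ∈ A) (h3 : W.a₃ ∈ A) (h4 : W.a₄ ∈ A) (h6 : W.a₆ ∈ A)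
    (m : ℕ) (hm : (m : K) ∉ A.nonunits) {P : W.Point} (hP : P ≠ 0) (hxP : xCoord P ∉ A) :
    m • P ≠ 0 := by
  obtain ⟨hb2, hb4, hb6, hb8⟩ := b_mem A h1 h2' h3 h4 h6
  intro hmP
  obtain ⟨⟨-, e, he, hxe⟩, -⟩ := inv_nsmul A h2 hb2 hb4 hb6 hb8 hP hxP m
  rw [hmP] at hxe
  simp only [xCoord_zero, inv_zero] at hxe
  have hxP0 : xCoord P ≠ 0 := fun h => hxP (h ▸ A.zero_mem)
  have hme : (m : K) ^ 2 + e = 0 := (mul_eq_zero.mp hxe.symm).resolve_left (inv_ne_zero hxP0)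
  apply hm
  apply mem_nonunits_of_sq A
  have : (m : K) ^ 2 = -e := by linear_combination hme
  rw [this]
  exact neg_mem_nonunits A he

/-- Version for `Point.some`. -/
theorem nsmul_some_ne_zero (h2 : (2 : K) ≠ 0)
    (h1 : W.a₁ ∈ A) (h2' : W.a₂ ∈ A) (h3 : W.a₃ ∈ A) (h4 : W.a₄ ∈ A) (h6 : W.a₆ ∈ A)
    (m : ℕ) (hm : A.valuation (m : K) = 1) {x y : K} (h : W.Nonsingular x y) (hx : x ∉ A) :
    m • (Affine.Point.some x y h) ≠ 0 := by
  apply nsmul_ne_zero_of_xCoord_not_mem A h2 h1 h2' h3 h4 h6 m _ (Affine.Point.some_ne_zero h)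
    (by simpa using hx)
  rw [ValuationSubring.mem_nonunits_iff, hm]
  exact lt_irrefl _

end Main

end Fermat.Agent.S05.Kernel
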