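import Mathlib
import Fermat.Agent.S05.Ord
import Fermat.Agent.S05.NodeComponent

/-!
# S05: bridge from the `ℚ`-valued form of the node component lemma to `A.valuation`

`K` an algebraic extension of `ℚ`, `A` a valuation subring over the prime `q`.
If `v(sB4) = v(n)^p` for an integer `n` (non-unit), then a point `P ≠ O` of odd prime order `p`
whose shifted abscissa `X = x - t` is in the maximal ideal satisfies
`v(sB4) < v(X)` and `v(X) = v(n ^ (2k))` for some `k`.
-/

set_option autoImplicit false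
set_option linter.unusedSectionVars false

namespace Fermat.Agent.S05

open WeierstrassCurve WeierstrassCurve.Affine
open Fermat.Agent.S51

variable {K : Type*} [Field K] [DecidableEq K] [CharZero K] [Algebra.IsAlgebraic ℚ K]

/-- equal valuations have equal `ord`. -/
lemma ordOf_eq_of_valuation_eq (A : ValuationSubring K) {q : ℕ} (hq : q.Prime)
    (hA : (q : K) ∈ A.nonunits) {x y : K} (hx : x ≠ 0) (hy : y ≠ 0)
    (h : A.valuation x = A.valuation y) :
    (ordOf A hq hA).ord x = (ordOf A hq hA).ord y :=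
  le_antisymm ((ordOf_le_iff A hq hA hx hy).mpr h.ge) ((ordOf_le_iff A hq hA hy hx).mpr h.le)

/-- equal `ord` means equal valuations. -/
lemma valuation_eq_of_ordOf_eq (A : ValuationSubring K) {q : ℕ} (hq : q.Prime)
    (hA : (q : K) ∈ A.nonunits) {x y : K} (hx : x ≠ 0) (hy : y ≠ 0)
    (h : (ordOf A hq hA).ord x = (ordOf A hq hA).ord y) :
    A.valuation x = A.valuation y :=
  le_antisymm ((ordOf_le_iff A hq hA hy hx).mp h.ge) ((ordOf_le_iff A hq hA hx hy).mp h.le)

/-- **Bridge** (from the restricted tent lemmas). -/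
theorem node_rational_R (A : ValuationSubring K) {q : ℕ} (hq : q.Prime)
    (hA : (q : K) ∈ A.nonunits) (W : WeierstrassCurve K) {t : K}
    (ht : cf W.b₂ W.b₄ W.b₆ t = 0) (h2 : A.valuation (2 : K) = 1)
    (hB4 : sB4 W t ≠ 0)
    {n : ℤ} (hn0 : n ≠ 0) {p : ℕ}
    (hn : A.valuation (sB4 W t) = A.valuation (n : K) ^ p) (hn1 : A.valuation (n : K) < 1)
    (hp : p.Prime) (hp2 : p ≠ 2) {P : W.toAffine.Point} (hP0 : P ≠ 0) (hpP : p • P = 0)
    {x : K} (hx : px W P = some x) (hX1 : A.valuation (x - t) < 1)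
    (hTL : TentLemmaR (ordOf A hq hA) (sB2 W t / 4) (sB4 W t / 2))
    (hTD : TentDoubleR (ordOf A hq hA) (sB2 W t / 4) (sB4 W t / 2)) :
    A.valuation (sB4 W t) < A.valuation (x - t) ∧
      ∃ k : ℕ, A.valuation (x - t) = A.valuation ((n : K) ^ (2 * k)) := by
  set v := ordOf A hq hA with hv
  have h2ne : (2 : K) ≠ 0 := two_ne_zero
  have hnK : (n : K) ≠ 0 := by exact_mod_cast hn0
  have h2u : v.IsUnit (2 : K) := (isUnit_ordOf_iff A hq hA).mpr h2
  have hA4ne : sB4 W t / 2 ≠ 0 := div_ne_zero hB4 h2ne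
  -- ord (sB4/2) = ord sB4 = p * ord n
  have hordA4 : v.ord (sB4 W t / 2) = v.ord (sB4 W t) := by
    rw [v.ord_div hB4 h2ne, h2u.2, sub_zero]
  have hordB4 : v.ord (sB4 W t) = p * v.ord (n : K) := by
    rw [← v.ord_pow hnK p]
    apply ordOf_eq_of_valuation_eq A hq hA hB4 (pow_ne_zero _ hnK)
    rw [hn, map_pow]
  have hordn : 0 < v.ord (n : K) :=
    (ordOf_pos_iff A hq hA hnK).mpr (A.mem_nonunits_iff.mpr hn1)
  have hp0 : 0 < p := hp.pos
  have hpQ : (0 : ℚ) < p := by exact_mod_cast hp0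
  have hm : 0 < v.ord (sB4 W t / 2) := by
    rw [hordA4, hordB4]; positivity
  have hsmall : v.IsSmall (x - t) :=
    (isSmall_ordOf_iff A hq hA).mpr (A.mem_nonunits_iff.mpr hX1)
  obtain ⟨hX0, hlt, k, hk⟩ := node_component_R v ht hm hTL hTD hp hp2 hP0 hpP hx hsmall
  have hordX : 0 < v.ord (x - t) := hsmall.resolve_left hX0
  rw [hordA4] at hlt
  rw [hordA4, hordB4] at hk
  -- ord X = 2 k ord n
  have hk' : v.ord (x - t) = 2 * k * v.ord (n : K) := by
    have : (p : ℚ) * v.ord (x - t) = p * (2 * k * v.ord (n : K)) := by rw [hk]; ring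
    exact mul_left_cancel₀ hpQ.ne' this
  have hkpos : 0 < k := by
    by_contra hneg
    rw [not_lt] at hneg
    have : (k : ℚ) ≤ 0 := by exact_mod_cast hneg
    nlinarith
  refine ⟨(ordOf_lt_iff A hq hA hX0 hB4).mp hlt, k.toNat, ?_⟩
  apply valuation_eq_of_ordOf_eq A hq hA hX0 (pow_ne_zero _ hnK)
  rw [← hv, hk', v.ord_pow hnK]
  have : ((2 * k.toNat : ℕ) : ℚ) = 2 * (k : ℚ) := by
    have h1 : (k.toNat : ℤ) = k := Int.toNat_of_nonneg hkpos.le
    have h2 : ((k.toNat : ℕ) : ℚ) = (k : ℚ) := by exact_mod_cast h1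
    push_cast
    rw [h2]
  rw [this]

/-- **Bridge** (from the general tent lemmas). -/
theorem node_rational (A : ValuationSubring K) {q : ℕ} (hq : q.Prime)
    (hA : (q : K) ∈ A.nonunits) (W : WeierstrassCurve K) {t : K}
    (ht : cf W.b₂ W.b₄ W.b₆ t = 0) (h2 : A.valuation (2 : K) = 1)
    (hB4 : sB4 W t ≠ 0)
    {n : ℤ} (hn0 : n ≠ 0) {p : ℕ}
    (hn : A.valuation (sB4 W t) = A.valuation (n : K) ^ p) (hn1 : A.valuation (n : K) < 1)
    (hp : p.Prime) (hp2 : p ≠ 2) {P : W.toAffine.Point} (hP0 : P ≠ 0) (hpP : p • P = 0)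
    {x : K} (hx : px W P = some x) (hX1 : A.valuation (x - t) < 1)
    (hTL : TentLemma (ordOf A hq hA) (sB2 W t / 4) (sB4 W t / 2))
    (hTD : TentDouble (ordOf A hq hA) (sB2 W t / 4) (sB4 W t / 2)) :
    A.valuation (sB4 W t) < A.valuation (x - t) ∧
      ∃ k : ℕ, A.valuation (x - t) = A.valuation ((n : K) ^ (2 * k)) :=
  node_rational_R A hq hA W ht h2 hB4 hn0 hn hn1 hp hp2 hP0 hpP hx hX1 hTL.toR hTD.toR

end Fermat.Agent.S05
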