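import Fermat.Agent.S05.Tent

set_option autoImplicit false

/-!
S05: the duplication case of the tent lemma (hedge copy by helper8, own namespace `TD8`).
`Z * (4 Y²) = (X² - A4)²` on `Y² = X³ + A2 X² + A4 X` gives `kap Z = tent m (2 kap X)`.
-/

namespace Fermat.Agent.S05.TD8

open Fermat.Agent.S05 Fermat.Agent.S05.OrdFn

variable {K : Type*} [Field K]

/-- **The tent lemma for duplication.** -/
theorem tent_double (v : OrdFn K) (h2 : v.IsUnit (2 : K)) {A2 A4 : K} (hA2 : v.IsUnit A2)
    (hA4 : A4 ≠ 0) (hm : 0 < v.ord A4) {X Y Z : K} (hY : Y ≠ 0)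
    (hE : Y ^ 2 = X ^ 3 + A2 * X ^ 2 + A4 * X) (hD : Z * (4 * Y ^ 2) = (X ^ 2 - A4) ^ 2) :
    kap v (v.ord A4) Z = tent (v.ord A4) (2 * kap v (v.ord A4) X) := by
  have hA4is : v.Is A4 (v.ord A4) := is_self hA4
  generalize v.ord A4 = m at hm hA4is ⊢
  have hYX : Y ^ 2 = X * (X ^ 2 + A2 * X + A4) := by rw [hE]; ring
  have hY2 : Y ^ 2 ≠ 0 := pow_ne_zero 2 hY
  have hX : X ≠ 0 := by
    rintro rfl
    rw [zero_mul] at hYX
    exact hY2 hYX
  have hQ0 : X ^ 2 + A2 * X + A4 ≠ 0 := by
    intro h
    rw [h, mul_zero] at hYX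
    exact hY2 hYX
  have h1 : v.Is X (v.ord X) := is_self hX
  have h4 : v.Is (4 : K) 0 := by
    have : (4 : K) = 2 * 2 := by norm_num
    rw [this]
    exact (h2.is.mul h2.is).congr (by ring)
  generalize v.ord X = o at h1
  have hA2X : v.Is (A2 * X) o := (hA2.is.mul h1).congr (by ring)
  -- valuation of `Z` from the valuations of `X * Q` and `X ^ 2 - A4`
  have hZis : ∀ {q r : ℚ}, v.Is (X ^ 2 + A2 * X + A4) q → v.Is (X ^ 2 - A4) r →
      v.Is Z (2 * r - (o + q)) := by
    intro q r hQ hR
    have hden : v.Is (4 * Y ^ 2) (o + q) := by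
      rw [hYX]
      exact (h4.mul (h1.mul hQ)).congr (by ring)
    exact Is.of_mul_eq hden hR.sq hD
  rcases lt_trichotomy o 0 with ho | ho | ho
  · -- `X` not integral
    have hQ : v.Is (X ^ 2 + A2 * X + A4) (2 * o) := by
      rw [add_assoc]
      exact h1.sq.add_ge (c := o) (hA2X.ge.add (hA4is.ge_of_le (by linarith))) (by linarith)
    have hR : v.Is (X ^ 2 - A4) (2 * o) := h1.sq.sub_ge hA4is.ge (by linarith)
    have hZ := hZis hQ hR
    rw [kap_of_is_nonpos hZ (by linarith), kap_of_is_nonpos h1 ho.le]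
    unfold tent
    rw [mul_zero, min_eq_left (by linarith)]
  · -- `X` a unit
    subst ho
    have hQ : v.Is (X ^ 2 + A2 * X + A4) (v.ord (X ^ 2 + A2 * X + A4)) := is_self hQ0
    have hQge : (0 : ℚ) ≤ v.ord (X ^ 2 + A2 * X + A4) := by
      have : v.Ge (X ^ 2 + A2 * X + A4) 0 :=
        ((h1.sq.ge_of_le (by linarith)).add hA2X.ge).add (hA4is.ge_of_le hm.le)
      exact this.le_ord hQ0
    have hR : v.Is (X ^ 2 - A4) 0 := (h1.sq.sub_ge hA4is.ge (by linarith)).congr (by ring)
    have hZ := hZis hQ hR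
    rw [kap_of_is_nonpos hZ (by linarith), kap_of_is_nonpos h1 le_rfl]
    unfold tent
    rw [mul_zero, min_eq_left (by linarith)]
  · rcases lt_or_ge o m with hom | hom
    · -- `X` small, not as small as `A4`
      have hQ : v.Is (X ^ 2 + A2 * X + A4) o := by
        have : X ^ 2 + A2 * X + A4 = A2 * X + (X ^ 2 + A4) := by ring
        rw [this]
        refine hA2X.add_ge (c := min (2 * o) m)
          ((h1.sq.ge_of_le (min_le_left _ _)).add (hA4is.ge_of_le (min_le_right _ _))) ?_
        exact lt_min (by linarith) hom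
      have kX : kap v m X = o := kap_of_is_mid h1 ho.le hom.le
      rcases lt_trichotomy (2 * o) m with hlt | heq | hgt
      · have hR : v.Is (X ^ 2 - A4) (2 * o) := h1.sq.sub_ge hA4is.ge hlt
        have hZ := hZis hQ hR
        rw [kap_of_is_mid hZ (by linarith) (by linarith), kX]
        unfold tent
        rw [min_eq_left (by linarith)]
        ring
      · have hR : v.Ge (X ^ 2 - A4) m := (h1.sq.ge_of_le heq.ge).sub hA4is.ge
        have hden : v.Is (4 * Y ^ 2) (o + o) := by
          rw [hYX]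
          exact (h4.mul (h1.mul hQ)).congr (by ring)
        have hZ : v.Ge Z m := (Ge.of_mul_eq hden hR.sq hD).mono (by linarith)
        rw [kap_of_ge hm.le hZ, kX]
        unfold tent
        rw [min_eq_left (by linarith)]
        linarith
      · have hR : v.Is (X ^ 2 - A4) m := hA4is.ge_sub h1.sq.ge hgt
        have hZ := hZis hQ hR
        rw [kap_of_is_mid hZ (by linarith) (by linarith), kX]
        unfold tent
        rw [min_eq_right (by linarith)]
        ring
    · -- `X` at least as small as `A4`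
      have hQ : v.Is (X ^ 2 + A2 * X + A4) (v.ord (X ^ 2 + A2 * X + A4)) := is_self hQ0
      have hQge : m ≤ v.ord (X ^ 2 + A2 * X + A4) := by
        have : v.Ge (X ^ 2 + A2 * X + A4) m :=
          ((h1.sq.ge_of_le (by linarith)).add (hA2X.ge_of_le hom)).add hA4is.ge
        exact this.le_ord hQ0
      have hR : v.Is (X ^ 2 - A4) m := hA4is.ge_sub h1.sq.ge (by linarith)
      have hZ := hZis hQ hR
      rw [kap_of_is_nonpos hZ (by linarith), kap_of_ge hm.le (h1.ge_of_le hom)]
      unfold tent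
      rw [min_eq_right (by linarith)]
      ring

end Fermat.Agent.S05.TD8
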