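import Fermat.Agent.S05.Defs

set_option autoImplicit false

/-!
S05: the tent lemma over a `ℚ`-valued additive valuation (pure valuation casework, no curves).
`Zp`, `Zm` are the roots of `(X1-X2)² z² - 2 N_S z + N_Π² = 0`.
-/

namespace Fermat.Agent.S05.TentQ

open Fermat.Agent.S05

variable {K : Type*} [Field K] (v : OrdFn K)

/-! ### bookkeeping predicates -/

/-- `x = 0` or `μ ≤ ord x` -/
def GE (μ : ℚ) (x : K) : Prop := x = 0 ∨ μ ≤ v.ord x

/-- `x = 0` or `μ < ord x` -/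
def GT (μ : ℚ) (x : K) : Prop := x = 0 ∨ μ < v.ord x

variable {v}

lemma GE.of_ord {μ : ℚ} {x : K} (h : μ ≤ v.ord x) : GE v μ x := Or.inr h

lemma GT.of_ord {μ : ℚ} {x : K} (h : μ < v.ord x) : GT v μ x := Or.inr h

lemma GT.ge {μ : ℚ} {x : K} (h : GT v μ x) : GE v μ x := h.imp id le_of_lt

lemma GE.mono {μ ν : ℚ} {x : K} (h : GE v μ x) (hν : ν ≤ μ) : GE v ν x :=
  h.imp id (le_trans hν)

lemma GT.mono {μ ν : ℚ} {x : K} (h : GT v μ x) (hν : ν ≤ μ) : GT v ν x :=
  h.imp id (lt_of_le_of_lt hν)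

lemma GE.gt_of_lt {μ ν : ℚ} {x : K} (h : GE v μ x) (hν : ν < μ) : GT v ν x :=
  h.imp id (lt_of_lt_of_le hν)

lemma GE.add {μ : ℚ} {x y : K} (hx : GE v μ x) (hy : GE v μ y) : GE v μ (x + y) := by
  by_cases hx0 : x = 0
  · simpa [hx0] using hy
  by_cases hy0 : y = 0
  · simpa [hy0] using hx
  by_cases hxy : x + y = 0
  · exact Or.inl hxy
  · right
    have h := v.ord_add x y hx0 hy0 hxy
    have h1 := hx.resolve_left hx0
    have h2 := hy.resolve_left hy0
    exact le_trans (le_min h1 h2) h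

lemma GT.add {μ : ℚ} {x y : K} (hx : GT v μ x) (hy : GT v μ y) : GT v μ (x + y) := by
  by_cases hx0 : x = 0
  · simpa [hx0] using hy
  by_cases hy0 : y = 0
  · simpa [hy0] using hx
  by_cases hxy : x + y = 0
  · exact Or.inl hxy
  · right
    have h := v.ord_add x y hx0 hy0 hxy
    have h1 := hx.resolve_left hx0
    have h2 := hy.resolve_left hy0
    exact lt_of_lt_of_le (lt_min h1 h2) h

lemma GE.neg {μ : ℚ} {x : K} (hx : GE v μ x) : GE v μ (-x) := by
  rcases hx with h | h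
  · exact Or.inl (by simp [h])
  · exact Or.inr (by rwa [v.ord_neg])

lemma GT.neg {μ : ℚ} {x : K} (hx : GT v μ x) : GT v μ (-x) := by
  rcases hx with h | h
  · exact Or.inl (by simp [h])
  · exact Or.inr (by rwa [v.ord_neg])

lemma GE.sub {μ : ℚ} {x y : K} (hx : GE v μ x) (hy : GE v μ y) : GE v μ (x - y) := by
  rw [sub_eq_add_neg]; exact hx.add hy.neg

lemma GE.mul {μ ν : ℚ} {x y : K} (hx : GE v μ x) (hy : GE v ν y) : GE v (μ + ν) (x * y) := by
  by_cases hx0 : x = 0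
  · exact Or.inl (by simp [hx0])
  by_cases hy0 : y = 0
  · exact Or.inl (by simp [hy0])
  · right
    rw [v.ord_mul x y hx0 hy0]
    have h1 := hx.resolve_left hx0
    have h2 := hy.resolve_left hy0
    linarith

/-- a dominant term determines the valuation of a sum -/
lemma exact_add {x y : K} (hx : x ≠ 0) (hy : GT v (v.ord x) y) :
    x + y ≠ 0 ∧ v.ord (x + y) = v.ord x := by
  by_cases hy0 : y = 0
  · simp [hy0, hx]
  · exact v.ord_add_eq_of_lt hx hy0 (hy.resolve_left hy0)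

lemma exact_add' {x y : K} (hy : y ≠ 0) (hx : GT v (v.ord y) x) :
    x + y ≠ 0 ∧ v.ord (x + y) = v.ord y := by
  rw [add_comm]; exact exact_add hy hx

/-! ### roots of a quadratic -/

/-- if `2 ord S < ord Π` the roots have valuations `ord S` and `ord Π - ord S` -/
lemma root_exact {Zp Zm : K} (hp : Zp ≠ 0) (hm : Zm ≠ 0) (hS : Zp + Zm ≠ 0) {σ π : ℚ}
    (hσ : v.ord (Zp + Zm) = σ) (hπ : v.ord Zp + v.ord Zm = π) (h : 2 * σ < π) :
    (v.ord Zp = σ ∧ v.ord Zm = π - σ) ∨ (v.ord Zm = σ ∧ v.ord Zp = π - σ) := by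
  rcases lt_trichotomy (v.ord Zp) (v.ord Zm) with hlt | heq | hgt
  · left
    have := (v.ord_add_eq_of_lt hp hm hlt).2
    constructor <;> linarith
  · exfalso
    have := v.ord_add Zp Zm hp hm hS
    rw [heq, min_self] at this
    linarith
  · right
    have := (v.ord_add_eq_of_gt hp hm hgt).2
    constructor <;> linarith

/-- if `S = 0` or `ord Π ≤ 2 ord S` the roots have the same valuation -/
lemma root_bound {Zp Zm : K} (hp : Zp ≠ 0) (hm : Zm ≠ 0) {σ : ℚ}
    (hS : GE v σ (Zp + Zm)) (h : v.ord Zp + v.ord Zm ≤ 2 * σ) : v.ord Zp = v.ord Zm := by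
  rcases hS with h0 | hσ
  · have : Zp = -Zm := by linear_combination h0
    rw [this, v.ord_neg]
  · rcases lt_trichotomy (v.ord Zp) (v.ord Zm) with hlt | heq | hgt
    · have := (v.ord_add_eq_of_lt hp hm hlt).2
      linarith
    · exact heq
    · have := (v.ord_add_eq_of_gt hp hm hgt).2
      linarith

/-- both roots have valuation `≥ μ` -/
lemma root_ge {Zp Zm : K} (hp : Zp ≠ 0) (hm : Zm ≠ 0) {μ : ℚ}
    (hS : GE v μ (Zp + Zm)) (h : 2 * μ ≤ v.ord Zp + v.ord Zm) :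
    μ ≤ v.ord Zp ∧ μ ≤ v.ord Zm := by
  rcases hS with h0 | hσ
  · have : Zp = -Zm := by linear_combination h0
    have e : v.ord Zp = v.ord Zm := by rw [this, v.ord_neg]
    constructor <;> linarith
  · rcases lt_trichotomy (v.ord Zp) (v.ord Zm) with hlt | heq | hgt
    · have := (v.ord_add_eq_of_lt hp hm hlt).2
      constructor <;> linarith
    · constructor <;> linarith
    · have := (v.ord_add_eq_of_gt hp hm hgt).2
      constructor <;> linarith

/-- both roots have valuation `≤ 0` -/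
lemma root_le {Zp Zm : K} (hp : Zp ≠ 0) (hm : Zm ≠ 0) {π : ℚ}
    (hπ : v.ord Zp + v.ord Zm = π) (hπ0 : π ≤ 0) (hS : GE v π (Zp + Zm)) :
    v.ord Zp ≤ 0 ∧ v.ord Zm ≤ 0 := by
  rcases hS with h0 | hσ
  · have : Zp = -Zm := by linear_combination h0
    have e : v.ord Zp = v.ord Zm := by rw [this, v.ord_neg]
    constructor <;> linarith
  · rcases lt_trichotomy (v.ord Zp) (v.ord Zm) with hlt | heq | hgt
    · have := (v.ord_add_eq_of_lt hp hm hlt).2
      constructor <;> linarith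
    · constructor <;> linarith
    · have := (v.ord_add_eq_of_gt hp hm hgt).2
      constructor <;> linarith

/-! ### the clamped valuation -/

lemma kap_of_ne {m : ℚ} {Z : K} (hZ : Z ≠ 0) : kap v m Z = max 0 (min (v.ord Z) m) := by
  unfold kap; rw [if_neg hZ]

lemma kap_mid {m : ℚ} {Z : K} (hZ : Z ≠ 0) (h0 : 0 ≤ v.ord Z) (h1 : v.ord Z ≤ m) :
    kap v m Z = v.ord Z := by
  rw [kap_of_ne hZ, min_eq_left h1, max_eq_right h0]

lemma kap_low {m : ℚ} {Z : K} (hZ : Z ≠ 0) (hm : 0 ≤ m) (h0 : v.ord Z ≤ 0) :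
    kap v m Z = 0 := by
  rw [kap_of_ne hZ]
  exact max_eq_left (le_trans (min_le_left _ _) h0)

lemma kap_high {m : ℚ} {Z : K} (hZ : Z ≠ 0) (hm : 0 ≤ m) (h1 : m ≤ v.ord Z) :
    kap v m Z = m := by
  rw [kap_of_ne hZ, min_eq_right h1, max_eq_right hm]

/-! ### consequences of the two relations -/

section main

variable {A2 A4 X1 X2 Zp Zm : K}
  (h2 : v.IsUnit (2 : K)) (hA2 : v.IsUnit A2) (hA4 : A4 ≠ 0) (hm : 0 < v.ord A4)
  (hX1 : X1 ≠ 0) (hX2 : X2 ≠ 0) (hZp : Zp ≠ 0) (hZm : Zm ≠ 0) (hne : X1 ≠ X2)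
  (hPi : Zp * Zm * (X1 - X2) ^ 2 = (X1 * X2 - A4) ^ 2)
  (hS : (Zp + Zm) * (X1 - X2) ^ 2 =
    2 * ((X1 + X2) * (X1 * X2 + A4) + 2 * A2 * X1 * X2))

include hZp hZm hne hPi in
lemma npi_ne_zero : X1 * X2 - A4 ≠ 0 := by
  intro h
  rw [h] at hPi
  have hd : X1 - X2 ≠ 0 := sub_ne_zero.mpr hne
  have : Zp * Zm * (X1 - X2) ^ 2 ≠ 0 :=
    mul_ne_zero (mul_ne_zero hZp hZm) (pow_ne_zero 2 hd)
  exact this (by rw [hPi]; ring)

include hZp hZm hne hPi in
lemma ord_prod :
    v.ord Zp + v.ord Zm = 2 * v.ord (X1 * X2 - A4) - 2 * v.ord (X1 - X2) := by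
  have hd : X1 - X2 ≠ 0 := sub_ne_zero.mpr hne
  have hn := npi_ne_zero hZp hZm hne hPi
  have h1 := congrArg v.ord hPi
  rw [v.ord_mul _ _ (mul_ne_zero hZp hZm) (pow_ne_zero 2 hd), v.ord_mul _ _ hZp hZm,
    v.ord_pow hd, v.ord_pow hn] at h1
  push_cast at h1
  linarith

include h2 hne hS in
lemma sum_ge {μ : ℚ}
    (h : GE v μ ((X1 + X2) * (X1 * X2 + A4) + 2 * A2 * X1 * X2)) :
    GE v (μ - 2 * v.ord (X1 - X2)) (Zp + Zm) := by
  have hd : X1 - X2 ≠ 0 := sub_ne_zero.mpr hne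
  have hd2 : (X1 - X2) ^ 2 ≠ 0 := pow_ne_zero 2 hd
  by_cases hS0 : Zp + Zm = 0
  · exact Or.inl hS0
  right
  have hN : (X1 + X2) * (X1 * X2 + A4) + 2 * A2 * X1 * X2 ≠ 0 := by
    intro h0
    rw [h0, mul_zero] at hS
    exact (mul_ne_zero hS0 hd2) hS
  have h1 := congrArg v.ord hS
  rw [v.ord_mul _ _ hS0 hd2, v.ord_pow hd, v.ord_mul _ _ h2.1 hN, h2.2] at h1
  push_cast at h1
  have := h.resolve_left hN
  linarith

include h2 hne hS in
lemma sum_exact {μ : ℚ}
    (hN : (X1 + X2) * (X1 * X2 + A4) + 2 * A2 * X1 * X2 ≠ 0)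
    (h : v.ord ((X1 + X2) * (X1 * X2 + A4) + 2 * A2 * X1 * X2) = μ) :
    Zp + Zm ≠ 0 ∧ v.ord (Zp + Zm) = μ - 2 * v.ord (X1 - X2) := by
  have hd : X1 - X2 ≠ 0 := sub_ne_zero.mpr hne
  have hd2 : (X1 - X2) ^ 2 ≠ 0 := pow_ne_zero 2 hd
  have hS0 : Zp + Zm ≠ 0 := by
    intro h0
    rw [h0, zero_mul] at hS
    exact (mul_ne_zero h2.1 hN) hS.symm
  refine ⟨hS0, ?_⟩
  have h1 := congrArg v.ord hS
  rw [v.ord_mul _ _ hS0 hd2, v.ord_pow hd, v.ord_mul _ _ h2.1 hN, h2.2] at h1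
  push_cast at h1
  linarith

/-! #### case A: `ord X1 ≤ 0 < ord X2` -/

include h2 hA2 hA4 hX1 hX2 hZp hZm hne hPi hS in
lemma caseA1 (h1 : v.ord X1 ≤ 0) (hc : 0 < v.ord X2) (hlt : v.ord X1 + v.ord X2 < v.ord A4) :
    v.ord Zp = v.ord X2 ∧ v.ord Zm = v.ord X2 := by
  have h12 : v.ord X1 < v.ord X2 := by linarith
  have hd := (v.ord_sub_eq_of_lt hX1 hX2 h12).2
  have hX12 : X1 * X2 ≠ 0 := mul_ne_zero hX1 hX2
  have ho12 : v.ord (X1 * X2) = v.ord X1 + v.ord X2 := v.ord_mul _ _ hX1 hX2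
  have hnpi := (v.ord_sub_eq_of_lt hX12 hA4 (by rw [ho12]; exact hlt)).2
  have hπ := ord_prod (v := v) hZp hZm hne hPi
  rw [hnpi, hd, ho12] at hπ
  -- N_S
  have hs1 := v.ord_add_eq_of_lt hX1 hX2 h12
  have hs2 := v.ord_add_eq_of_lt hX12 hA4 (by rw [ho12]; exact hlt)
  have hT1 : GE v (2 * v.ord X1 + v.ord X2) ((X1 + X2) * (X1 * X2 + A4)) := by
    right
    rw [v.ord_mul _ _ hs1.1 hs2.1, hs1.2, hs2.2, ho12]
    linarith
  have hT2 : GE v (2 * v.ord X1 + v.ord X2) (2 * A2 * X1 * X2) := by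
    right
    rw [v.ord_mul _ _ (mul_ne_zero (mul_ne_zero h2.1 hA2.1) hX1) hX2,
      v.ord_mul _ _ (mul_ne_zero h2.1 hA2.1) hX1, v.ord_mul _ _ h2.1 hA2.1, h2.2, hA2.2]
    linarith
  have hSge := sum_ge h2 hne hS (hT1.add hT2)
  rw [hd] at hSge
  have heq := root_bound hZp hZm hSge (by linarith)
  constructor <;> linarith

include h2 hA2 hA4 hX1 hX2 hZp hZm hne hPi hS in
lemma caseA2 (h1 : v.ord X1 ≤ 0) (hc : 0 < v.ord X2) (hge : v.ord A4 ≤ v.ord X1 + v.ord X2) :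
    v.ord A4 ≤ v.ord Zp ∧ v.ord A4 ≤ v.ord Zm := by
  have h12 : v.ord X1 < v.ord X2 := by linarith
  have hd := (v.ord_sub_eq_of_lt hX1 hX2 h12).2
  have hX12 : X1 * X2 ≠ 0 := mul_ne_zero hX1 hX2
  have ho12 : v.ord (X1 * X2) = v.ord X1 + v.ord X2 := v.ord_mul _ _ hX1 hX2
  have hn := npi_ne_zero hZp hZm hne hPi
  have hnpi : v.ord A4 ≤ v.ord (X1 * X2 - A4) := by
    have := v.ord_sub hX12 hA4 hn
    rw [ho12] at this
    exact le_trans (le_min hge le_rfl) this
  have hπ := ord_prod (v := v) hZp hZm hne hPi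
  rw [hd] at hπ
  have hs1 := v.ord_add_eq_of_lt hX1 hX2 h12
  have hs2 : GE v (v.ord A4) (X1 * X2 + A4) :=
    (GE.of_ord (by rw [ho12]; exact hge)).add (GE.of_ord le_rfl)
  have hT1 : GE v (v.ord X1 + v.ord A4) ((X1 + X2) * (X1 * X2 + A4)) :=
    (GE.of_ord (le_of_eq hs1.2.symm)).mul hs2
  have hT2 : GE v (v.ord X1 + v.ord A4) (2 * A2 * X1 * X2) := by
    right
    rw [v.ord_mul _ _ (mul_ne_zero (mul_ne_zero h2.1 hA2.1) hX1) hX2,
      v.ord_mul _ _ (mul_ne_zero h2.1 hA2.1) hX1, v.ord_mul _ _ h2.1 hA2.1, h2.2, hA2.2]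
    linarith
  have hSge := sum_ge h2 hne hS (hT1.add hT2)
  rw [hd] at hSge
  have := root_ge hZp hZm hSge (by linarith)
  constructor <;> linarith [this.1, this.2]

/-! #### case B: both `ord ≥ m` -/

include h2 hA2 hA4 hm hX1 hX2 hZp hZm hne hPi hS in
lemma caseB (h1 : v.ord A4 ≤ v.ord X1) (hc : v.ord A4 ≤ v.ord X2) :
    v.ord Zp ≤ 0 ∧ v.ord Zm ≤ 0 := by
  have hdne : X1 - X2 ≠ 0 := sub_ne_zero.mpr hne
  have hd : v.ord A4 ≤ v.ord (X1 - X2) :=
    le_trans (le_min h1 hc) (v.ord_sub hX1 hX2 hdne)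
  have hX12 : X1 * X2 ≠ 0 := mul_ne_zero hX1 hX2
  have ho12 : v.ord (X1 * X2) = v.ord X1 + v.ord X2 := v.ord_mul _ _ hX1 hX2
  have hnpi : v.ord (X1 * X2 - A4) = v.ord A4 := by
    have := (v.ord_sub_eq_of_lt hA4 hX12 (by rw [ho12]; linarith)).2
    rw [← this, ← v.ord_neg (A4 - X1 * X2)]
    congr 1; ring
  have hπ := ord_prod (v := v) hZp hZm hne hPi
  rw [hnpi] at hπ
  have hs1 : GE v (v.ord A4) (X1 + X2) := (GE.of_ord h1).add (GE.of_ord hc)
  have hs2 : GE v (v.ord A4) (X1 * X2 + A4) :=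
    (GE.of_ord (by rw [ho12]; linarith)).add (GE.of_ord le_rfl)
  have hT1 : GE v (v.ord A4 + v.ord A4) ((X1 + X2) * (X1 * X2 + A4)) := hs1.mul hs2
  have hT2 : GE v (v.ord A4 + v.ord A4) (2 * A2 * X1 * X2) := by
    right
    rw [v.ord_mul _ _ (mul_ne_zero (mul_ne_zero h2.1 hA2.1) hX1) hX2,
      v.ord_mul _ _ (mul_ne_zero h2.1 hA2.1) hX1, v.ord_mul _ _ h2.1 hA2.1, h2.2, hA2.2]
    linarith
  have hSge := sum_ge h2 hne hS (hT1.add hT2)
  exact root_le hZp hZm hπ (by linarith) (hSge.mono (by linarith))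

/-! #### case C: `0 < ord X1 < m ≤ ord X2` -/

include h2 hA2 hA4 hX1 hX2 hZp hZm hne hPi hS in
lemma caseC (h0 : 0 < v.ord X1) (h1 : v.ord X1 < v.ord A4) (hc : v.ord A4 ≤ v.ord X2) :
    v.ord Zp = v.ord A4 - v.ord X1 ∧ v.ord Zm = v.ord A4 - v.ord X1 := by
  have h12 : v.ord X1 < v.ord X2 := by linarith
  have hd := (v.ord_sub_eq_of_lt hX1 hX2 h12).2
  have hX12 : X1 * X2 ≠ 0 := mul_ne_zero hX1 hX2
  have ho12 : v.ord (X1 * X2) = v.ord X1 + v.ord X2 := v.ord_mul _ _ hX1 hX2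
  have hnpi : v.ord (X1 * X2 - A4) = v.ord A4 := by
    have := (v.ord_sub_eq_of_lt hA4 hX12 (by rw [ho12]; linarith)).2
    rw [← this, ← v.ord_neg (A4 - X1 * X2)]
    congr 1; ring
  have hπ := ord_prod (v := v) hZp hZm hne hPi
  rw [hnpi, hd] at hπ
  have hs1 := v.ord_add_eq_of_lt hX1 hX2 h12
  have hs2 : GE v (v.ord A4) (X1 * X2 + A4) :=
    (GE.of_ord (by rw [ho12]; linarith)).add (GE.of_ord le_rfl)
  have hT1 : GE v (v.ord X1 + v.ord A4) ((X1 + X2) * (X1 * X2 + A4)) :=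
    (GE.of_ord (le_of_eq hs1.2.symm)).mul hs2
  have hT2 : GE v (v.ord X1 + v.ord A4) (2 * A2 * X1 * X2) := by
    right
    rw [v.ord_mul _ _ (mul_ne_zero (mul_ne_zero h2.1 hA2.1) hX1) hX2,
      v.ord_mul _ _ (mul_ne_zero h2.1 hA2.1) hX1, v.ord_mul _ _ h2.1 hA2.1, h2.2, hA2.2]
    linarith
  have hSge := sum_ge h2 hne hS (hT1.add hT2)
  rw [hd] at hSge
  have heq := root_bound hZp hZm hSge (by linarith)
  constructor <;> linarith

/-! #### case D: both `0 < ord < m` -/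

include h2 hA2 hX1 hX2 in
lemma ordT2 : 2 * A2 * X1 * X2 ≠ 0 ∧ v.ord (2 * A2 * X1 * X2) = v.ord X1 + v.ord X2 := by
  refine ⟨mul_ne_zero (mul_ne_zero (mul_ne_zero h2.1 hA2.1) hX1) hX2, ?_⟩
  rw [v.ord_mul _ _ (mul_ne_zero (mul_ne_zero h2.1 hA2.1) hX1) hX2,
    v.ord_mul _ _ (mul_ne_zero h2.1 hA2.1) hX1, v.ord_mul _ _ h2.1 hA2.1, h2.2, hA2.2]
  ring

include h2 hA2 hA4 hX1 hX2 hZp hZm hne hPi hS in
lemma caseD1a (h0 : 0 < v.ord X1) (h12 : v.ord X1 < v.ord X2)
    (hlt : v.ord X1 + v.ord X2 < v.ord A4) :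
    (v.ord Zp = v.ord X2 - v.ord X1 ∧ v.ord Zm = v.ord X2 + v.ord X1) ∨
    (v.ord Zm = v.ord X2 - v.ord X1 ∧ v.ord Zp = v.ord X2 + v.ord X1) := by
  have hd := (v.ord_sub_eq_of_lt hX1 hX2 h12).2
  have hX12 : X1 * X2 ≠ 0 := mul_ne_zero hX1 hX2
  have ho12 : v.ord (X1 * X2) = v.ord X1 + v.ord X2 := v.ord_mul _ _ hX1 hX2
  have hnpi := (v.ord_sub_eq_of_lt hX12 hA4 (by rw [ho12]; exact hlt)).2
  have hπ := ord_prod (v := v) hZp hZm hne hPi
  rw [hnpi, hd, ho12] at hπ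
  have hs1 := v.ord_add_eq_of_lt hX1 hX2 h12
  have hs2 := v.ord_add_eq_of_lt hX12 hA4 (by rw [ho12]; exact hlt)
  obtain ⟨hT2ne, hT2⟩ := ordT2 (v := v) h2 hA2 hX1 hX2
  have hT1 : GT v (v.ord (2 * A2 * X1 * X2)) ((X1 + X2) * (X1 * X2 + A4)) := by
    right
    rw [v.ord_mul _ _ hs1.1 hs2.1, hs1.2, hs2.2, ho12, hT2]
    linarith
  obtain ⟨hNne, hN⟩ := exact_add' hT2ne hT1
  obtain ⟨hSne, hSo⟩ := sum_exact h2 hne hS hNne hN
  rw [hT2, hd] at hSo
  rcases root_exact hZp hZm hSne hSo hπ (by linarith) with h | h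
  · left; constructor <;> linarith [h.1, h.2]
  · right; constructor <;> linarith [h.1, h.2]

include h2 hA2 hA4 hX1 hX2 hZp hZm hne hPi hS in
lemma caseD1b (h0 : 0 < v.ord X1) (h12 : v.ord X1 < v.ord X2) (hc : v.ord X2 < v.ord A4)
    (hgt : v.ord A4 < v.ord X1 + v.ord X2) :
    (v.ord Zp = v.ord X2 - v.ord X1 ∧ v.ord Zm = 2 * v.ord A4 - v.ord X1 - v.ord X2) ∨
    (v.ord Zm = v.ord X2 - v.ord X1 ∧ v.ord Zp = 2 * v.ord A4 - v.ord X1 - v.ord X2) := by
  have hd := (v.ord_sub_eq_of_lt hX1 hX2 h12).2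
  have hX12 : X1 * X2 ≠ 0 := mul_ne_zero hX1 hX2
  have ho12 : v.ord (X1 * X2) = v.ord X1 + v.ord X2 := v.ord_mul _ _ hX1 hX2
  have hnpi : v.ord (X1 * X2 - A4) = v.ord A4 := by
    have := (v.ord_sub_eq_of_lt hA4 hX12 (by rw [ho12]; linarith)).2
    rw [← this, ← v.ord_neg (A4 - X1 * X2)]
    congr 1; ring
  have hπ := ord_prod (v := v) hZp hZm hne hPi
  rw [hnpi, hd] at hπ
  have hs1 := v.ord_add_eq_of_lt hX1 hX2 h12
  have hs2 : GE v (v.ord A4) (X1 * X2 + A4) :=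
    (GE.of_ord (by rw [ho12]; linarith)).add (GE.of_ord le_rfl)
  obtain ⟨hT2ne, hT2⟩ := ordT2 (v := v) h2 hA2 hX1 hX2
  have hT1 : GT v (v.ord (2 * A2 * X1 * X2)) ((X1 + X2) * (X1 * X2 + A4)) := by
    have : GE v (v.ord X1 + v.ord A4) ((X1 + X2) * (X1 * X2 + A4)) :=
      (GE.of_ord (le_of_eq hs1.2.symm)).mul hs2
    exact this.gt_of_lt (by rw [hT2]; linarith)
  obtain ⟨hNne, hN⟩ := exact_add' hT2ne hT1
  obtain ⟨hSne, hSo⟩ := sum_exact h2 hne hS hNne hN
  rw [hT2, hd] at hSo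
  rcases root_exact hZp hZm hSne hSo hπ (by linarith) with h | h
  · left; constructor <;> linarith [h.1, h.2]
  · right; constructor <;> linarith [h.1, h.2]

include h2 hA2 hA4 hX1 hX2 hZp hZm hne hPi hS in
lemma caseD1c (h0 : 0 < v.ord X1) (h12 : v.ord X1 < v.ord X2)
    (heq : v.ord X1 + v.ord X2 = v.ord A4) :
    (v.ord Zp = v.ord X2 - v.ord X1 ∧ v.ord A4 ≤ v.ord Zm) ∨
    (v.ord Zm = v.ord X2 - v.ord X1 ∧ v.ord A4 ≤ v.ord Zp) := by
  have hd := (v.ord_sub_eq_of_lt hX1 hX2 h12).2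
  have hX12 : X1 * X2 ≠ 0 := mul_ne_zero hX1 hX2
  have ho12 : v.ord (X1 * X2) = v.ord X1 + v.ord X2 := v.ord_mul _ _ hX1 hX2
  have hn := npi_ne_zero hZp hZm hne hPi
  have hnpi : v.ord A4 ≤ v.ord (X1 * X2 - A4) := by
    have := v.ord_sub hX12 hA4 hn
    rw [ho12, heq, min_self] at this
    exact this
  have hπ := ord_prod (v := v) hZp hZm hne hPi
  rw [hd] at hπ
  have hs1 := v.ord_add_eq_of_lt hX1 hX2 h12
  have hs2 : GE v (v.ord A4) (X1 * X2 + A4) :=
    (GE.of_ord (by rw [ho12, heq])).add (GE.of_ord le_rfl)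
  obtain ⟨hT2ne, hT2⟩ := ordT2 (v := v) h2 hA2 hX1 hX2
  have hT1 : GT v (v.ord (2 * A2 * X1 * X2)) ((X1 + X2) * (X1 * X2 + A4)) := by
    have : GE v (v.ord X1 + v.ord A4) ((X1 + X2) * (X1 * X2 + A4)) :=
      (GE.of_ord (le_of_eq hs1.2.symm)).mul hs2
    exact this.gt_of_lt (by rw [hT2]; linarith)
  obtain ⟨hNne, hN⟩ := exact_add' hT2ne hT1
  obtain ⟨hSne, hSo⟩ := sum_exact h2 hne hS hNne hN
  rw [hT2, hd] at hSo
  rcases root_exact hZp hZm hSne hSo hπ (by linarith) with h | h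
  · left; constructor <;> linarith [h.1, h.2]
  · right; constructor <;> linarith [h.1, h.2]

include h2 hA2 hA4 hX1 hX2 hZp hZm hne hPi hS in
lemma caseD3a (h0 : 0 < v.ord X1) (h12 : v.ord X1 = v.ord X2)
    (hlt : 2 * v.ord X1 < v.ord A4) :
    (v.ord Zp ≤ 0 ∧ v.ord Zm = 2 * v.ord X1) ∨ (v.ord Zm ≤ 0 ∧ v.ord Zp = 2 * v.ord X1) := by
  have hdne : X1 - X2 ≠ 0 := sub_ne_zero.mpr hne
  have hd : v.ord X1 ≤ v.ord (X1 - X2) := by
    have := v.ord_sub hX1 hX2 hdne
    rw [← h12, min_self] at this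
    exact this
  have hX12 : X1 * X2 ≠ 0 := mul_ne_zero hX1 hX2
  have ho12 : v.ord (X1 * X2) = 2 * v.ord X1 := by
    rw [v.ord_mul _ _ hX1 hX2, ← h12]; ring
  have hnpi := (v.ord_sub_eq_of_lt hX12 hA4 (by rw [ho12]; exact hlt)).2
  have hπ := ord_prod (v := v) hZp hZm hne hPi
  rw [hnpi, ho12] at hπ
  have hs1 : GE v (v.ord X1) (X1 + X2) := (GE.of_ord le_rfl).add (GE.of_ord h12.le)
  have hs2 : GE v (2 * v.ord X1) (X1 * X2 + A4) :=
    (GE.of_ord ho12.ge).add (GE.of_ord hlt.le)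
  obtain ⟨hT2ne, hT2⟩ := ordT2 (v := v) h2 hA2 hX1 hX2
  have hT1 : GT v (v.ord (2 * A2 * X1 * X2)) ((X1 + X2) * (X1 * X2 + A4)) := by
    have := hs1.mul hs2
    exact this.gt_of_lt (by rw [hT2, ← h12]; linarith)
  obtain ⟨hNne, hN⟩ := exact_add' hT2ne hT1
  obtain ⟨hSne, hSo⟩ := sum_exact h2 hne hS hNne hN
  rw [hT2, ← h12] at hSo
  rcases root_exact hZp hZm hSne hSo hπ (by linarith) with h | h
  · left; constructor <;> linarith [h.1, h.2]
  · right; constructor <;> linarith [h.1, h.2]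

include h2 hA2 hA4 hX1 hX2 hZp hZm hne hPi hS in
lemma caseD3b (h12 : v.ord X1 = v.ord X2) (hc : v.ord X1 < v.ord A4)
    (hgt : v.ord A4 < 2 * v.ord X1) :
    (v.ord Zp ≤ 0 ∧ v.ord Zm = 2 * v.ord A4 - 2 * v.ord X1) ∨
    (v.ord Zm ≤ 0 ∧ v.ord Zp = 2 * v.ord A4 - 2 * v.ord X1) := by
  have hdne : X1 - X2 ≠ 0 := sub_ne_zero.mpr hne
  have hd : v.ord X1 ≤ v.ord (X1 - X2) := by
    have := v.ord_sub hX1 hX2 hdne
    rw [← h12, min_self] at this
    exact this
  have hX12 : X1 * X2 ≠ 0 := mul_ne_zero hX1 hX2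
  have ho12 : v.ord (X1 * X2) = 2 * v.ord X1 := by
    rw [v.ord_mul _ _ hX1 hX2, ← h12]; ring
  have hnpi : v.ord (X1 * X2 - A4) = v.ord A4 := by
    have := (v.ord_sub_eq_of_lt hA4 hX12 (by rw [ho12]; linarith)).2
    rw [← this, ← v.ord_neg (A4 - X1 * X2)]
    congr 1; ring
  have hπ := ord_prod (v := v) hZp hZm hne hPi
  rw [hnpi] at hπ
  have hs1 : GE v (v.ord X1) (X1 + X2) := (GE.of_ord le_rfl).add (GE.of_ord h12.le)
  have hs2 : GE v (v.ord A4) (X1 * X2 + A4) :=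
    (GE.of_ord (by rw [ho12]; linarith)).add (GE.of_ord le_rfl)
  obtain ⟨hT2ne, hT2⟩ := ordT2 (v := v) h2 hA2 hX1 hX2
  have hT1 : GT v (v.ord (2 * A2 * X1 * X2)) ((X1 + X2) * (X1 * X2 + A4)) := by
    have := hs1.mul hs2
    exact this.gt_of_lt (by rw [hT2, ← h12]; linarith)
  obtain ⟨hNne, hN⟩ := exact_add' hT2ne hT1
  obtain ⟨hSne, hSo⟩ := sum_exact h2 hne hS hNne hN
  rw [hT2, ← h12] at hSo
  rcases root_exact hZp hZm hSne hSo hπ (by linarith) with h | h
  · left; constructor <;> linarith [h.1, h.2]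
  · right; constructor <;> linarith [h.1, h.2]

include h2 hA2 hA4 hm hX1 hX2 hZp hZm hne hPi hS in
lemma caseD3c (h12 : v.ord X1 = v.ord X2) (heq : 2 * v.ord X1 = v.ord A4) :
    (v.ord Zp ≤ 0 ∧ v.ord A4 ≤ v.ord Zm) ∨ (v.ord Zm ≤ 0 ∧ v.ord A4 ≤ v.ord Zp) := by
  have hdne : X1 - X2 ≠ 0 := sub_ne_zero.mpr hne
  have hd : v.ord X1 ≤ v.ord (X1 - X2) := by
    have := v.ord_sub hX1 hX2 hdne
    rw [← h12, min_self] at this
    exact this
  have hX12 : X1 * X2 ≠ 0 := mul_ne_zero hX1 hX2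
  have ho12 : v.ord (X1 * X2) = 2 * v.ord X1 := by
    rw [v.ord_mul _ _ hX1 hX2, ← h12]; ring
  have hn := npi_ne_zero hZp hZm hne hPi
  have hnpi : v.ord A4 ≤ v.ord (X1 * X2 - A4) := by
    have := v.ord_sub hX12 hA4 hn
    rw [ho12, heq, min_self] at this
    exact this
  have hπ := ord_prod (v := v) hZp hZm hne hPi
  have hs1 : GE v (v.ord X1) (X1 + X2) := (GE.of_ord le_rfl).add (GE.of_ord h12.le)
  have hs2 : GE v (v.ord A4) (X1 * X2 + A4) :=
    (GE.of_ord (by rw [ho12, heq])).add (GE.of_ord le_rfl)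
  obtain ⟨hT2ne, hT2⟩ := ordT2 (v := v) h2 hA2 hX1 hX2
  have hT1 : GT v (v.ord (2 * A2 * X1 * X2)) ((X1 + X2) * (X1 * X2 + A4)) := by
    have := hs1.mul hs2
    exact this.gt_of_lt (by rw [hT2, ← h12]; linarith)
  obtain ⟨hNne, hN⟩ := exact_add' hT2ne hT1
  obtain ⟨hSne, hSo⟩ := sum_exact h2 hne hS hNne hN
  rw [hT2, ← h12] at hSo
  rcases root_exact hZp hZm hSne hSo hπ (by linarith) with h | h
  · left; constructor <;> linarith [h.1, h.2]
  · right; constructor <;> linarith [h.1, h.2]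

end main

/-! ### assembly -/

lemma tent_left {m s : ℚ} (h : s ≤ m) : tent m s = s := by
  unfold tent; exact min_eq_left (by linarith)

lemma tent_right {m s : ℚ} (h : m ≤ s) : tent m s = 2 * m - s := by
  unfold tent; exact min_eq_right (by linarith)

/-- the tent lemma for nonzero abscissas, `X2` small -/
theorem tent_lemma (v : OrdFn K) (h2 : v.IsUnit (2 : K)) {A2 A4 : K} (hA2 : v.IsUnit A2)
    (hA4 : A4 ≠ 0) (hm : 0 < v.ord A4) {X1 X2 Zp Zm : K} (hX1 : X1 ≠ 0) (hX2 : X2 ≠ 0)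
    (hX2s : 0 < v.ord X2) (hZp : Zp ≠ 0) (hZm : Zm ≠ 0) (hne : X1 ≠ X2)
    (hPi : Zp * Zm * (X1 - X2) ^ 2 = (X1 * X2 - A4) ^ 2)
    (hS : (Zp + Zm) * (X1 - X2) ^ 2 =
      2 * ((X1 + X2) * (X1 * X2 + A4) + 2 * A2 * X1 * X2)) :
    (kap v (v.ord A4) Zp = tent (v.ord A4) (kap v (v.ord A4) X1 + kap v (v.ord A4) X2) ∧
      kap v (v.ord A4) Zm = |kap v (v.ord A4) X1 - kap v (v.ord A4) X2|) ∨
    (kap v (v.ord A4) Zm = tent (v.ord A4) (kap v (v.ord A4) X1 + kap v (v.ord A4) X2) ∧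
      kap v (v.ord A4) Zp = |kap v (v.ord A4) X1 - kap v (v.ord A4) X2|) := by
  set m := v.ord A4 with hmdef
  have hm0 : 0 ≤ m := hm.le
  -- swapped relations
  have hne' : X2 ≠ X1 := hne.symm
  have hPi' : Zp * Zm * (X2 - X1) ^ 2 = (X2 * X1 - A4) ^ 2 := by linear_combination hPi
  have hS' : (Zp + Zm) * (X2 - X1) ^ 2 =
      2 * ((X2 + X1) * (X2 * X1 + A4) + 2 * A2 * X2 * X1) := by linear_combination hS
  rcases le_or_gt (v.ord X1) 0 with h1 | h1
  · -- case A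
    have hk1 : kap v m X1 = 0 := kap_low hX1 hm0 h1
    rcases lt_or_ge (v.ord X1 + v.ord X2) m with hlt | hge
    · obtain ⟨ha, hb⟩ := caseA1 h2 hA2 hA4 hX1 hX2 hZp hZm hne hPi hS h1 hX2s hlt
      have hkp : kap v m Zp = kap v m X2 := by rw [kap_of_ne hZp, kap_of_ne hX2, ha]
      have hkm : kap v m Zm = kap v m X2 := by rw [kap_of_ne hZm, kap_of_ne hX2, hb]
      have hk2 : 0 ≤ kap v m X2 ∧ kap v m X2 ≤ m := by
        rw [kap_of_ne hX2]
        exact ⟨le_max_left _ _, max_le hm0 (min_le_right _ _)⟩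
      left
      rw [hkp, hkm, hk1, zero_add, zero_sub, abs_neg, abs_of_nonneg hk2.1, tent_left hk2.2]
      exact ⟨rfl, rfl⟩
    · obtain ⟨ha, hb⟩ := caseA2 h2 hA2 hA4 hX1 hX2 hZp hZm hne hPi hS h1 hX2s hge
      have hkp : kap v m Zp = m := kap_high hZp hm0 ha
      have hkm : kap v m Zm = m := kap_high hZm hm0 hb
      have hk2 : kap v m X2 = m := kap_high hX2 hm0 (by linarith)
      left
      rw [hkp, hkm, hk1, hk2, zero_add, zero_sub, abs_neg, abs_of_nonneg hm0, tent_left le_rfl]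
      exact ⟨rfl, rfl⟩
  rcases lt_or_ge (v.ord X1) m with h1m | h1m
  · -- 0 < v1 < m
    have hk1 : kap v m X1 = v.ord X1 := kap_mid hX1 h1.le h1m.le
    rcases lt_or_ge (v.ord X2) m with hcm | hcm
    · have hk2 : kap v m X2 = v.ord X2 := kap_mid hX2 hX2s.le hcm.le
      rw [hk1, hk2]
      rcases lt_trichotomy (v.ord X1) (v.ord X2) with h12 | h12 | h12
      · -- D1
        have habs : |v.ord X1 - v.ord X2| = v.ord X2 - v.ord X1 := by
          rw [abs_of_nonpos (by linarith)]; ring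
        rw [habs]
        rcases lt_trichotomy (v.ord X1 + v.ord X2) m with hs | hs | hs
        · rw [tent_left hs.le]
          rcases caseD1a h2 hA2 hA4 hX1 hX2 hZp hZm hne hPi hS h1 h12 hs with h | h
          · right
            exact ⟨by rw [kap_mid hZm (by linarith) (by linarith), h.2]; ring,
              by rw [kap_mid hZp (by linarith) (by linarith), h.1]⟩
          · left
            exact ⟨by rw [kap_mid hZp (by linarith) (by linarith), h.2]; ring,
              by rw [kap_mid hZm (by linarith) (by linarith), h.1]⟩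
        · rw [hs, tent_left le_rfl]
          rcases caseD1c h2 hA2 hA4 hX1 hX2 hZp hZm hne hPi hS h1 h12 hs with h | h
          · right
            exact ⟨kap_high hZm hm0 h.2,
              by rw [kap_mid hZp (by linarith) (by linarith), h.1]⟩
          · left
            exact ⟨kap_high hZp hm0 h.2,
              by rw [kap_mid hZm (by linarith) (by linarith), h.1]⟩
        · rw [tent_right hs.le]
          rcases caseD1b h2 hA2 hA4 hX1 hX2 hZp hZm hne hPi hS h1 h12 hcm hs with h | h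
          · right
            exact ⟨by rw [kap_mid hZm (by linarith) (by linarith), h.2]; ring,
              by rw [kap_mid hZp (by linarith) (by linarith), h.1]⟩
          · left
            exact ⟨by rw [kap_mid hZp (by linarith) (by linarith), h.2]; ring,
              by rw [kap_mid hZm (by linarith) (by linarith), h.1]⟩
      · -- D3
        have habs : |v.ord X1 - v.ord X2| = 0 := by rw [h12, sub_self, abs_zero]
        rw [habs, ← h12]
        rcases lt_trichotomy (2 * v.ord X1) m with hs | hs | hs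
        · rw [tent_left (by linarith)]
          rcases caseD3a h2 hA2 hA4 hX1 hX2 hZp hZm hne hPi hS h1 h12 hs with h | h
          · right
            exact ⟨by rw [kap_mid hZm (by linarith) (by linarith), h.2]; ring,
              kap_low hZp hm0 h.1⟩
          · left
            exact ⟨by rw [kap_mid hZp (by linarith) (by linarith), h.2]; ring,
              kap_low hZm hm0 h.1⟩
        · rw [show v.ord X1 + v.ord X1 = m by linarith, tent_left le_rfl]
          rcases caseD3c h2 hA2 hA4 hm hX1 hX2 hZp hZm hne hPi hS h12 hs with h | h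
          · right
            exact ⟨kap_high hZm hm0 h.2, kap_low hZp hm0 h.1⟩
          · left
            exact ⟨kap_high hZp hm0 h.2, kap_low hZm hm0 h.1⟩
        · rw [tent_right (by linarith)]
          rcases caseD3b h2 hA2 hA4 hX1 hX2 hZp hZm hne hPi hS h12 h1m hs with h | h
          · right
            exact ⟨by rw [kap_mid hZm (by linarith) (by linarith), h.2]; ring,
              kap_low hZp hm0 h.1⟩
          · left
            exact ⟨by rw [kap_mid hZp (by linarith) (by linarith), h.2]; ring,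
              kap_low hZm hm0 h.1⟩
      · -- D2 = D1 swapped
        have habs : |v.ord X1 - v.ord X2| = v.ord X1 - v.ord X2 := abs_of_nonneg (by linarith)
        rw [habs]
        rcases lt_trichotomy (v.ord X2 + v.ord X1) m with hs | hs | hs
        · rw [tent_left (by linarith)]
          rcases caseD1a h2 hA2 hA4 hX2 hX1 hZp hZm hne' hPi' hS' hX2s h12 hs with h | h
          · right
            exact ⟨by rw [kap_mid hZm (by linarith) (by linarith), h.2],
              by rw [kap_mid hZp (by linarith) (by linarith), h.1]⟩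
          · left
            exact ⟨by rw [kap_mid hZp (by linarith) (by linarith), h.2],
              by rw [kap_mid hZm (by linarith) (by linarith), h.1]⟩
        · rw [show v.ord X1 + v.ord X2 = m by linarith, tent_left le_rfl]
          rcases caseD1c h2 hA2 hA4 hX2 hX1 hZp hZm hne' hPi' hS' hX2s h12 hs with h | h
          · right
            exact ⟨kap_high hZm hm0 h.2,
              by rw [kap_mid hZp (by linarith) (by linarith), h.1]⟩
          · left
            exact ⟨kap_high hZp hm0 h.2,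
              by rw [kap_mid hZm (by linarith) (by linarith), h.1]⟩
        · rw [tent_right (by linarith)]
          rcases caseD1b h2 hA2 hA4 hX2 hX1 hZp hZm hne' hPi' hS' hX2s h12 h1m hs with h | h
          · right
            exact ⟨by rw [kap_mid hZm (by linarith) (by linarith), h.2]; ring,
              by rw [kap_mid hZp (by linarith) (by linarith), h.1]⟩
          · left
            exact ⟨by rw [kap_mid hZp (by linarith) (by linarith), h.2]; ring,
              by rw [kap_mid hZm (by linarith) (by linarith), h.1]⟩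
    · -- case C
      have hk2 : kap v m X2 = m := kap_high hX2 hm0 hcm
      obtain ⟨ha, hb⟩ := caseC h2 hA2 hA4 hX1 hX2 hZp hZm hne hPi hS h1 h1m hcm
      left
      rw [hk1, hk2, tent_right (by linarith), abs_of_nonpos (by linarith),
        kap_mid hZp (by linarith) (by linarith), kap_mid hZm (by linarith) (by linarith), ha, hb]
      constructor <;> ring
  · -- v1 ≥ m
    have hk1 : kap v m X1 = m := kap_high hX1 hm0 h1m
    rcases lt_or_ge (v.ord X2) m with hcm | hcm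
    · -- case C swapped
      have hk2 : kap v m X2 = v.ord X2 := kap_mid hX2 hX2s.le hcm.le
      obtain ⟨ha, hb⟩ := caseC h2 hA2 hA4 hX2 hX1 hZp hZm hne' hPi' hS' hX2s hcm h1m
      left
      rw [hk1, hk2, tent_right (by linarith), abs_of_nonneg (by linarith),
        kap_mid hZp (by linarith) (by linarith), kap_mid hZm (by linarith) (by linarith), ha, hb]
      constructor <;> ring
    · -- case B
      have hk2 : kap v m X2 = m := kap_high hX2 hm0 hcm
      obtain ⟨ha, hb⟩ := caseB h2 hA2 hA4 hm hX1 hX2 hZp hZm hne hPi hS h1m hcm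
      left
      rw [hk1, hk2, tent_right (by linarith), sub_self, abs_zero, kap_low hZp hm0 ha,
        kap_low hZm hm0 hb]
      constructor <;> ring

/-- doubling version of the tent lemma, `X` small and nonzero -/
theorem tent_double (v : OrdFn K) (h2 : v.IsUnit (2 : K)) {A2 A4 : K} (hA2 : v.IsUnit A2)
    (hA4 : A4 ≠ 0) (hm : 0 < v.ord A4) {X Y Z : K} (hX : X ≠ 0) (hXs : 0 < v.ord X)
    (hY : Y ≠ 0) (hE : Y ^ 2 = X ^ 3 + A2 * X ^ 2 + A4 * X)
    (hD : Z * (4 * Y ^ 2) = (X ^ 2 - A4) ^ 2) :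
    kap v (v.ord A4) Z = tent (v.ord A4) (2 * kap v (v.ord A4) X) := by
  set m := v.ord A4 with hmdef
  have hm0 : 0 ≤ m := hm.le
  have h4 : v.IsUnit (4 : K) := by
    have := h2.mul v h2
    norm_num at this
    exact this
  have hY2 : Y ^ 2 ≠ 0 := pow_ne_zero 2 hY
  have h4Y : (4 : K) * Y ^ 2 ≠ 0 := mul_ne_zero h4.1 hY2
  have ho4Y : v.ord (4 * Y ^ 2) = v.ord (Y ^ 2) := by
    rw [v.ord_mul _ _ h4.1 hY2, h4.2, zero_add]
  have hfac : Y ^ 2 = X * (X ^ 2 + A2 * X + A4) := by rw [hE]; ring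
  have hg : X ^ 2 + A2 * X + A4 ≠ 0 := by
    intro h0; rw [h0, mul_zero] at hfac; exact hY2 hfac
  have hoY : v.ord (Y ^ 2) = v.ord X + v.ord (X ^ 2 + A2 * X + A4) := by
    rw [hfac, v.ord_mul _ _ hX hg]
  have hX2 : X ^ 2 ≠ 0 := pow_ne_zero 2 hX
  have hoX2 : v.ord (X ^ 2) = 2 * v.ord X := by rw [v.ord_pow hX]; norm_num
  have hA2X : A2 * X ≠ 0 := mul_ne_zero hA2.1 hX
  have hoA2X : v.ord (A2 * X) = v.ord X := by rw [v.ord_mul _ _ hA2.1 hX, hA2.2, zero_add]
  rcases lt_or_ge (v.ord X) m with hc | hc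
  · -- 0 < c < m
    have hkX : kap v m X = v.ord X := kap_mid hX hXs.le hc.le
    rw [hkX]
    -- ord (X² + A2 X + A4) = c
    have hgo : v.ord (X ^ 2 + A2 * X + A4) = v.ord X := by
      have e : X ^ 2 + A2 * X + A4 = A2 * X + (X ^ 2 + A4) := by ring
      rw [e]
      have : GT v (v.ord (A2 * X)) (X ^ 2 + A4) :=
        (GT.of_ord (by rw [hoA2X, hoX2]; linarith)).add (GT.of_ord (by rw [hoA2X]; exact hc))
      rw [(exact_add hA2X this).2, hoA2X]
    rw [hgo] at hoY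
    by_cases hZ : Z = 0
    · -- X² = A4
      have hXA : X ^ 2 = A4 := by
        rw [hZ, zero_mul] at hD
        have := pow_eq_zero_iff (n := 2) (by norm_num) |>.mp hD.symm
        linear_combination this
      have h2c : 2 * v.ord X = m := by rw [← hoX2, hXA]
      rw [hZ, h2c, tent_left le_rfl]
      unfold kap; rw [if_pos rfl]
    · have hN : X ^ 2 - A4 ≠ 0 := by
        intro h0; rw [h0] at hD
        exact (mul_ne_zero hZ h4Y) (by rw [hD]; ring)
      have hoZ : v.ord Z = 2 * v.ord (X ^ 2 - A4) - 2 * v.ord X := by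
        have h1 := congrArg v.ord hD
        rw [v.ord_mul _ _ hZ h4Y, ho4Y, hoY, v.ord_pow hN] at h1
        push_cast at h1
        linarith
      rcases lt_trichotomy (2 * v.ord X) m with hs | hs | hs
      · have := (v.ord_sub_eq_of_lt hX2 hA4 (by rw [hoX2]; exact hs)).2
        rw [this, hoX2] at hoZ
        rw [tent_left hs.le, kap_mid hZ (by linarith) (by linarith)]
        linarith
      · have : m ≤ v.ord (X ^ 2 - A4) := by
          have := v.ord_sub hX2 hA4 hN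
          rw [hoX2, hs, min_self] at this
          exact this
        rw [hs, tent_left le_rfl]
        exact kap_high hZ hm0 (by linarith)
      · have : v.ord (X ^ 2 - A4) = m := by
          have h3 := (v.ord_sub_eq_of_lt hA4 hX2 (by rw [hoX2]; exact hs)).2
          have e : v.ord (X ^ 2 - A4) = v.ord (A4 - X ^ 2) := by
            rw [← v.ord_neg (A4 - X ^ 2)]; congr 1; ring
          rw [e, h3]
        rw [this] at hoZ
        rw [tent_right hs.le, kap_mid hZ (by linarith) (by linarith)]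
        linarith
  · -- c ≥ m
    have hkX : kap v m X = m := kap_high hX hm0 hc
    rw [hkX, tent_right (by linarith)]
    have hN : v.ord (X ^ 2 - A4) = m ∧ X ^ 2 - A4 ≠ 0 := by
      have := v.ord_sub_eq_of_lt hA4 hX2 (by rw [hoX2]; linarith)
      constructor
      · have e : v.ord (X ^ 2 - A4) = v.ord (A4 - X ^ 2) := by
          rw [← v.ord_neg (A4 - X ^ 2)]; congr 1; ring
        rw [e, this.2]
      · intro h0; apply this.1; linear_combination -h0
    have hZ : Z ≠ 0 := by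
      intro h0; rw [h0, zero_mul] at hD
      exact (pow_ne_zero 2 hN.2) hD.symm
    have hgge : m ≤ v.ord (X ^ 2 + A2 * X + A4) := by
      have : GE v m (X ^ 2 + A2 * X + A4) :=
        ((GE.of_ord (by rw [hoX2]; linarith)).add (GE.of_ord (by rw [hoA2X]; exact hc))).add
          (GE.of_ord le_rfl)
      exact this.resolve_left hg
    have hoZ : v.ord Z = 2 * m - (v.ord X + v.ord (X ^ 2 + A2 * X + A4)) := by
      have h1 := congrArg v.ord hD
      rw [v.ord_mul _ _ hZ h4Y, ho4Y, hoY, v.ord_pow hN.2, hN.1] at h1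
      push_cast at h1
      linarith
    rw [kap_low hZ hm0 (by linarith)]
    ring

end Fermat.Agent.S05.TentQ
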