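import Mathlib
import Fermat.Agent.S05.TentQ
import Fermat.Agent.S05.NodeRational

/-!
# S05: the tent lemmas discharged, and the node component lemma without tent hypotheses

(hedge by helper6, own namespace `TF6`; independent of `Tent.lean` / `TentDouble_h8.lean`)

`TentQ.tent_lemma` / `TentQ.tent_double` (pure `OrdFn` algebra) prove the restricted statements
`TentLemmaR` / `TentDoubleR` of `NodeComponent.lean` as soon as `2` and `A2` are units and
`0 < ord A4`.  We feed them into `node_component_R` and redo the bridge `node_rational` without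
any tent hypothesis.
-/

set_option autoImplicit false
set_option linter.unusedSectionVars false

namespace Fermat.Agent.S05.TF6

open WeierstrassCurve WeierstrassCurve.Affine
open Fermat.Agent.S51 Fermat.Agent.S05

/-- the restricted tent lemma holds when `2`, `A2` are units and `A4` is small nonzero. -/
theorem tentLemmaR_of_isUnit {K : Type*} [Field K] (v : OrdFn K) {A2 A4 : K}
    (h2 : v.IsUnit (2 : K)) (hA2 : v.IsUnit A2) (hA4 : A4 ≠ 0) (hm : 0 < v.ord A4) :
    TentLemmaR v A2 A4 :=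
  fun hne h1 h2' h2s hp hm' hPi hS =>
    TentQ.tent_lemma v h2 hA2 hA4 hm h1 h2' h2s hp hm' hne hPi hS

/-- the restricted tent doubling lemma holds when `2`, `A2` are units and `A4` is small
nonzero. -/
theorem tentDoubleR_of_isUnit {K : Type*} [Field K] (v : OrdFn K) {A2 A4 : K}
    (h2 : v.IsUnit (2 : K)) (hA2 : v.IsUnit A2) (hA4 : A4 ≠ 0) (hm : 0 < v.ord A4) :
    TentDoubleR v A2 A4 :=
  fun hY hX hXs _ hE hD => TentQ.tent_double v h2 hA2 hA4 hm hX hXs hY hE hD

section node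

variable {F : Type*} [Field F] [DecidableEq F] [CharZero F] {W : WeierstrassCurve F}

/-- **Node component lemma, hypothesis-free form.**  `2` and `sB2` units, `sB4` small nonzero. -/
theorem node_component_final (v : OrdFn F) {t : F} (ht : cf W.b₂ W.b₄ W.b₆ t = 0)
    (h2 : v.IsUnit (2 : F)) (hB2 : v.IsUnit (sB2 W t)) (hB4 : sB4 W t ≠ 0)
    (hm : 0 < v.ord (sB4 W t / 2))
    {p : ℕ} (hp : p.Prime) (hodd : p ≠ 2) {P : W.toAffine.Point} (hP0 : P ≠ 0)
    (hpP : p • P = 0) {x : F} (hx : px W P = some x) (hsmall : v.IsSmall (x - t)) :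
    x - t ≠ 0 ∧ v.ord (x - t) < v.ord (sB4 W t / 2) ∧
      ∃ k : ℤ, (p : ℚ) * v.ord (x - t) = 2 * k * v.ord (sB4 W t / 2) := by
  have h2ne : (2 : F) ≠ 0 := two_ne_zero
  have h4u : v.IsUnit (4 : F) := by
    have : (4 : F) = 2 * 2 := by norm_num
    rw [this]; exact h2.mul v h2
  have hA2 : v.IsUnit (sB2 W t / 4) := by
    rw [div_eq_mul_inv]; exact hB2.mul v (h4u.inv v)
  have hA4 : sB4 W t / 2 ≠ 0 := div_ne_zero hB4 h2ne
  exact node_component_R v ht hm (tentLemmaR_of_isUnit v h2 hA2 hA4 hm)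
    (tentDoubleR_of_isUnit v h2 hA2 hA4 hm) hp hodd hP0 hpP hx hsmall

end node

section rational

variable {K : Type*} [Field K] [DecidableEq K] [CharZero K] [Algebra.IsAlgebraic ℚ K]

/-- **Bridge, hypothesis-free form.**  Same as `node_rational` but the tent lemmas are
discharged from `v(2) = 1`, `v(sB2) = 1`. -/
theorem node_rational_final (A : ValuationSubring K) {q : ℕ} (hq : q.Prime)
    (hA : (q : K) ∈ A.nonunits) (W : WeierstrassCurve K) {t : K}
    (ht : cf W.b₂ W.b₄ W.b₆ t = 0) (h2 : A.valuation (2 : K) = 1)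
    (hB2 : A.valuation (sB2 W t) = 1)
    (hB4 : sB4 W t ≠ 0)
    {n : ℤ} (hn0 : n ≠ 0) {p : ℕ}
    (hn : A.valuation (sB4 W t) = A.valuation (n : K) ^ p) (hn1 : A.valuation (n : K) < 1)
    (hp : p.Prime) (hp2 : p ≠ 2) {P : W.toAffine.Point} (hP0 : P ≠ 0) (hpP : p • P = 0)
    {x : K} (hx : px W P = some x) (hX1 : A.valuation (x - t) < 1) :
    A.valuation (sB4 W t) < A.valuation (x - t) ∧
      ∃ k : ℕ, A.valuation (x - t) = A.valuation ((n : K) ^ (2 * k)) := by
  set v := ordOf A hq hA with hv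
  have h2ne : (2 : K) ≠ 0 := two_ne_zero
  have hnK : (n : K) ≠ 0 := by exact_mod_cast hn0
  have h2u : v.IsUnit (2 : K) := (isUnit_ordOf_iff A hq hA).mpr h2
  have hB2u : v.IsUnit (sB2 W t) := (isUnit_ordOf_iff A hq hA).mpr hB2
  have hordA4 : v.ord (sB4 W t / 2) = v.ord (sB4 W t) := by
    rw [v.ord_div hB4 h2ne, h2u.2, sub_zero]
  have hordB4 : v.ord (sB4 W t) = p * v.ord (n : K) := by
    rw [← v.ord_pow hnK p]
    apply ordOf_eq_of_valuation_eq A hq hA hB4 (pow_ne_zero _ hnK)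
    rw [hn, map_pow]
  have hordn : 0 < v.ord (n : K) :=
    (ordOf_pos_iff A hq hA hnK).mpr (A.mem_nonunits_iff.mpr hn1)
  have hp0 : 0 < p := hp.pos
  have hpQ : (0 : ℚ) < p := by exact_mod_cast hp0
  have hm : 0 < v.ord (sB4 W t / 2) := by
    rw [hordA4, hordB4]; positivity
  have hsmall : v.IsSmall (x - t) :=
    (isSmall_ordOf_iff A hq hA).mpr (A.mem_nonunits_iff.mpr hX1)
  obtain ⟨hX0, hlt, k, hk⟩ :=
    node_component_final v ht h2u hB2u hB4 hm hp hp2 hP0 hpP hx hsmall
  have hordX : 0 < v.ord (x - t) := hsmall.resolve_left hX0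
  rw [hordA4] at hlt
  rw [hordA4, hordB4] at hk
  have hk' : v.ord (x - t) = 2 * k * v.ord (n : K) := by
    have : (p : ℚ) * v.ord (x - t) = p * (2 * k * v.ord (n : K)) := by rw [hk]; ring
    exact mul_left_cancel₀ hpQ.ne' this
  have hkpos : 0 < k := by
    by_contra hneg
    rw [not_lt] at hneg
    have : (k : ℚ) ≤ 0 := by exact_mod_cast hneg
    nlinarith
  refine ⟨(ordOf_lt_iff A hq hA hX0 hB4).mp hlt, k.toNat, ?_⟩
  apply valuation_eq_of_ordOf_eq A hq hA hX0 (pow_ne_zero _ hnK)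
  rw [← hv, hk', v.ord_pow hnK]
  have : ((2 * k.toNat : ℕ) : ℚ) = 2 * (k : ℚ) := by
    have h1 : (k.toNat : ℤ) = k := Int.toNat_of_nonneg hkpos.le
    have h2' : ((k.toNat : ℕ) : ℚ) = (k : ℚ) := by exact_mod_cast h1
    push_cast
    rw [h2']
  rw [this]

end rational

end Fermat.Agent.S05.TF6
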