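import Mathlib

/-!
# S05: the abstract tent recursion

In a linearly ordered commutative group with zero `Γ₀` (multiplicative notation; think of the
value group of a valuation), let `m < s < 1`.  If a sequence `t : ℕ → Γ₀` with `t 0 = 1`, `t 1 = s`
satisfies, for `1 ≤ n ≤ N`, the "unsigned component law"
`{t (n+1), t (n-1)} = {mtent m (t n * s), mratio (t n) s}` and `t (N+1) = t N`,
then `s ^ (2N+1) = m ^ (2k)` for some `k > 0`.
-/

set_option autoImplicit false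

namespace Fermat.Agent.S05

variable {Γ₀ : Type*} [LinearOrderedCommGroupWithZero Γ₀]

/-- multiplicative tent function: for `m² ≤ u ≤ 1`, the "distance of `u` to `m^(2ℤ)`". -/
def mtent (m u : Γ₀) : Γ₀ := if m ≤ u then u else m ^ 2 / u

/-- the one of `u / s`, `s / u` which is `≤ 1`. -/
def mratio (u s : Γ₀) : Γ₀ := if u ≤ s then u / s else s / u

namespace TentRec

/-- normal form `s ^ a * m ^ b`. -/
def nf (s m : Γ₀) (a b : ℤ) : Γ₀ := s ^ a * m ^ b

variable {s m : Γ₀}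

lemma nf_mul (hs : s ≠ 0) (hm : m ≠ 0) (a b c d : ℤ) :
    nf s m a b * nf s m c d = nf s m (a + c) (b + d) := by
  simp only [nf, zpow_add₀ hs, zpow_add₀ hm]
  exact mul_mul_mul_comm _ _ _ _

lemma nf_inv (a b : ℤ) : (nf s m a b)⁻¹ = nf s m (-a) (-b) := by
  simp only [nf, mul_inv, zpow_neg]

lemma nf_div (hs : s ≠ 0) (hm : m ≠ 0) (a b c d : ℤ) :
    nf s m a b / nf s m c d = nf s m (a - c) (b - d) := by
  rw [div_eq_mul_inv, nf_inv, nf_mul hs hm, sub_eq_add_neg, sub_eq_add_neg]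

lemma nf_ne_zero (hs : s ≠ 0) (hm : m ≠ 0) (a b : ℤ) : nf s m a b ≠ 0 :=
  mul_ne_zero (zpow_ne_zero _ hs) (zpow_ne_zero _ hm)

lemma s_eq_nf : s = nf s m 1 0 := by simp [nf]

lemma sq_eq_nf : m ^ 2 = nf s m 0 2 := by
  simp only [nf, zpow_zero, one_mul]
  exact (zpow_ofNat m 2).symm

lemma one_eq_nf : (1 : Γ₀) = nf s m 0 0 := by simp [nf]

/-- `u` is `s ^ (±e)` up to an even power of `m`. -/
def Q (s m : Γ₀) (e : ℤ) (u : Γ₀) : Prop :=
  ∃ k : ℤ, u = nf s m e (2 * k) ∨ u = nf s m (-e) (2 * k)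

lemma Q_neg {e : ℤ} {u : Γ₀} (h : Q s m e u) : Q s m (-e) u := by
  obtain ⟨k, h | h⟩ := h
  · exact ⟨k, Or.inr (by rw [neg_neg]; exact h)⟩
  · exact ⟨k, Or.inl h⟩

/-- one step: from `u = s^e m^(2k)`, the mtent has type `e+1` and the mratio type `e-1`. -/
lemma step_of_eq (hs : s ≠ 0) (hm : m ≠ 0) {e k : ℤ} {u : Γ₀} (hu : u = nf s m e (2 * k)) :
    Q s m (e + 1) (mtent m (u * s)) ∧ Q s m (e - 1) (mratio u s) := by
  have e1 : u * s = nf s m (e + 1) (2 * k) := by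
    calc u * s = nf s m e (2 * k) * nf s m 1 0 := by rw [hu, ← s_eq_nf]
      _ = nf s m (e + 1) (2 * k) := by rw [nf_mul hs hm]; congr 1; ring
  have e2 : m ^ 2 / (u * s) = nf s m (-(e + 1)) (2 * (1 - k)) := by
    calc m ^ 2 / (u * s) = nf s m 0 2 / nf s m (e + 1) (2 * k) := by rw [e1, ← sq_eq_nf]
      _ = nf s m (-(e + 1)) (2 * (1 - k)) := by rw [nf_div hs hm]; congr 1 <;> ring
  have e3 : u / s = nf s m (e - 1) (2 * k) := by
    calc u / s = nf s m e (2 * k) / nf s m 1 0 := by rw [hu, ← s_eq_nf]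
      _ = nf s m (e - 1) (2 * k) := by rw [nf_div hs hm]; congr 1; ring
  have e4 : s / u = nf s m (-(e - 1)) (2 * (-k)) := by
    calc s / u = nf s m 1 0 / nf s m e (2 * k) := by rw [hu, ← s_eq_nf]
      _ = nf s m (-(e - 1)) (2 * (-k)) := by rw [nf_div hs hm]; congr 1 <;> ring
  constructor
  · unfold mtent
    split_ifs
    · exact ⟨k, Or.inl e1⟩
    · exact ⟨1 - k, Or.inr e2⟩
  · unfold mratio
    split_ifs
    · exact ⟨k, Or.inl e3⟩
    · exact ⟨-k, Or.inr e4⟩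

lemma step (hs : s ≠ 0) (hm : m ≠ 0) {e : ℤ} {u : Γ₀} (hu : Q s m e u) :
    (Q s m (e + 1) (mtent m (u * s)) ∧ Q s m (e - 1) (mratio u s)) ∨
      (Q s m (e - 1) (mtent m (u * s)) ∧ Q s m (e + 1) (mratio u s)) := by
  obtain ⟨k, h | h⟩ := hu
  · exact Or.inl (step_of_eq hs hm h)
  · right
    obtain ⟨h1, h2⟩ := step_of_eq hs hm h
    constructor
    · have := Q_neg h1
      rwa [show -(-e + 1) = e - 1 by ring] at this
    · have := Q_neg h2
      rwa [show -(-e - 1) = e + 1 by ring] at this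

/-- from an equality of two normal forms, extract a relation between a power of `s` and of `m`. -/
lemma nf_eq_nf (hs : s ≠ 0) (hm : m ≠ 0) {a b c d : ℤ} (h : nf s m a b = nf s m c d) :
    s ^ (a - c) = m ^ (d - b) := by
  have h1 : nf s m a b / nf s m c b = nf s m c d / nf s m c b := by rw [h]
  rw [nf_div hs hm, nf_div hs hm] at h1
  simpa [nf] using h1

/-- if some element has both types `n-1` and `n+1`, then every element of type `n-1` has type
`n+1`. -/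
lemma Q_transfer (hs : s ≠ 0) (hm : m ≠ 0) {n : ℤ} {v w : Γ₀}
    (hv1 : Q s m (n - 1) v) (hv2 : Q s m (n + 1) v) (hw : Q s m (n - 1) w) :
    Q s m (n + 1) w := by
  -- first: `s ^ d = m ^ (2 j)` with `d ∈ {2, -2, 2n, -2n}`
  have key : ∃ j : ℤ, s ^ (2 : ℤ) = m ^ (2 * j) ∨ s ^ (2 * n) = m ^ (2 * j) := by
    obtain ⟨k1, h1 | h1⟩ := hv1 <;> obtain ⟨k2, h2 | h2⟩ := hv2
    · -- s^(n-1) m^(2k1) = s^(n+1) m^(2k2)
      have := nf_eq_nf hs hm (h2.symm.trans h1)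
      refine ⟨k1 - k2, Or.inl ?_⟩
      rw [show n + 1 - (n - 1) = 2 by ring, show 2 * k1 - 2 * k2 = 2 * (k1 - k2) by ring] at this
      exact this
    · -- s^(n-1) m^(2k1) = s^(-(n+1)) m^(2k2)
      have := nf_eq_nf hs hm (h1.symm.trans h2)
      refine ⟨k2 - k1, Or.inr ?_⟩
      rw [show n - 1 - -(n + 1) = 2 * n by ring,
        show 2 * k2 - 2 * k1 = 2 * (k2 - k1) by ring] at this
      exact this
    · -- s^(-(n-1)) m^(2k1) = s^(n+1) m^(2k2)
      have := nf_eq_nf hs hm (h2.symm.trans h1)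
      refine ⟨k1 - k2, Or.inr ?_⟩
      rw [show n + 1 - -(n - 1) = 2 * n by ring,
        show 2 * k1 - 2 * k2 = 2 * (k1 - k2) by ring] at this
      exact this
    · -- s^(-(n-1)) m^(2k1) = s^(-(n+1)) m^(2k2)
      have := nf_eq_nf hs hm (h1.symm.trans h2)
      refine ⟨k2 - k1, Or.inl ?_⟩
      rw [show -(n - 1) - -(n + 1) = 2 by ring,
        show 2 * k2 - 2 * k1 = 2 * (k2 - k1) by ring] at this
      exact this
  obtain ⟨j, hj | hj⟩ := key
  · -- s^2 = m^(2j): s^(ε(n-1)) = s^(ε(n+1)) * m^(-2εj)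
    obtain ⟨k, h | h⟩ := hw
    · refine ⟨k - j, Or.inl ?_⟩
      rw [h]
      simp only [nf]
      rw [show n + 1 = (n - 1) + 2 by ring, zpow_add₀ hs, hj, mul_assoc, ← zpow_add₀ hm]
      congr 2
      ring
    · refine ⟨k + j, Or.inr ?_⟩
      rw [h]
      simp only [nf]
      rw [show -(n - 1) = -(n + 1) + 2 by ring, zpow_add₀ hs, hj, mul_assoc, ← zpow_add₀ hm]
      congr 2
      ring
  · -- s^(2n) = m^(2j): s^(ε(n-1)) = s^(-ε(n+1)) * m^(2εj)
    obtain ⟨k, h | h⟩ := hw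
    · refine ⟨k + j, Or.inr ?_⟩
      rw [h]
      simp only [nf]
      rw [show n - 1 = -(n + 1) + 2 * n by ring, zpow_add₀ hs, hj, mul_assoc, ← zpow_add₀ hm]
      congr 2
      ring
    · refine ⟨k - j, Or.inl ?_⟩
      rw [h]
      simp only [nf]
      have hj' : s ^ (-(2 * n)) = m ^ (-(2 * j)) := by rw [zpow_neg, zpow_neg, hj]
      rw [show -(n - 1) = (n + 1) + -(2 * n) by ring, zpow_add₀ hs, hj', mul_assoc,
        ← zpow_add₀ hm]
      congr 2
      ring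

end TentRec

open TentRec in
/-- **The tent recursion.** -/
theorem pow_eq_of_tent_rec (m s : Γ₀) (hm0 : 0 < m) (hms : m < s) (hs1 : s < 1)
    (N : ℕ) (t : ℕ → Γ₀) (ht0 : t 0 = 1) (ht1 : t 1 = s)
    (hstep : ∀ n, 1 ≤ n → n ≤ N →
      (t (n + 1) = mtent m (t n * s) ∧ t (n - 1) = mratio (t n) s) ∨
      (t (n + 1) = mratio (t n) s ∧ t (n - 1) = mtent m (t n * s)))
    (hend : t (N + 1) = t N) :
    ∃ k : ℕ, 0 < k ∧ s ^ (2 * N + 1) = m ^ (2 * k) := by
  have hm : m ≠ 0 := hm0.ne'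
  have hs0 : 0 < s := hm0.trans hms
  have hs : s ≠ 0 := hs0.ne'
  have hm1 : m < 1 := hms.trans hs1
  -- the invariant
  have inv : ∀ n, n ≤ N → Q s m (n : ℤ) (t n) ∧ Q s m ((n : ℤ) + 1) (t (n + 1)) := by
    intro n
    induction n with
    | zero =>
      intro _
      refine ⟨⟨0, Or.inl ?_⟩, ⟨0, Or.inl ?_⟩⟩
      · rw [ht0]; simp [nf]
      · rw [zero_add, ht1]; simp [nf]
    | succ n ih =>
      intro hn
      obtain ⟨h1, h2⟩ := ih (by omega)
      refine ⟨by simpa using h2, ?_⟩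
      have h2' : Q s m ((n : ℤ) + 1) (t (n + 1)) := h2
      have h1' : Q s m (((n : ℤ) + 1) - 1) (t (n + 1 - 1)) := by simpa using h1
      push_cast
      rcases hstep (n + 1) (by omega) hn with ⟨ha, hb⟩ | ⟨ha, hb⟩ <;>
        rcases step hs hm h2' with ⟨hc, hd⟩ | ⟨hc, hd⟩
      · rw [ha]; exact hc
      · rw [hb] at h1'
        rw [ha]
        exact Q_transfer hs hm h1' hd hc
      · rw [hb] at h1'
        rw [ha]
        exact Q_transfer hs hm h1' hc hd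
      · rw [ha]; exact hd
  obtain ⟨hN, hN1⟩ := inv N le_rfl
  rw [hend] at hN1
  -- m ^ (2 j) for j : ℤ compared with 1
  have hm_pow_ge : ∀ j : ℤ, j ≤ 0 → 1 ≤ m ^ (2 * j) := by
    intro j hj
    obtain ⟨i, rfl⟩ : ∃ i : ℕ, j = -(i : ℤ) := ⟨(-j).toNat, by omega⟩
    rw [show 2 * -(i : ℤ) = -((2 * i : ℕ) : ℤ) by push_cast; ring, zpow_neg, zpow_natCast]
    exact (one_le_inv₀ (pow_pos hm0 _)).mpr (pow_le_one₀ hm0.le hm1.le)
  have hm_pow_le : ∀ j : ℤ, 1 ≤ j → m ^ (2 * j) ≤ m ^ 2 := by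
    intro j hj
    obtain ⟨i, rfl⟩ : ∃ i : ℕ, j = (i : ℤ) + 1 := ⟨(j - 1).toNat, by omega⟩
    rw [show 2 * ((i : ℤ) + 1) = ((2 * i + 2 : ℕ) : ℤ) by push_cast; ring, zpow_natCast]
    exact pow_le_pow_of_le_one hm0.le hm1.le (by omega)
  have hm2 : m ^ 2 < m := by
    calc m ^ 2 = m * m := sq m
      _ < m * 1 := by exact mul_lt_mul_of_pos_left hm1 hm0
      _ = m := mul_one m
  -- case `s = m ^ (2 j)` is impossible
  have hbad : ∀ j : ℤ, s ≠ m ^ (2 * j) := by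
    intro j hj
    rcases le_or_gt j 0 with h | h
    · exact absurd (hj ▸ hm_pow_ge j h) (not_le.mpr hs1)
    · have := hm_pow_le j h
      rw [← hj] at this
      exact absurd (this.trans_lt hm2) (not_lt.mpr hms.le)
  -- conclusion from `s ^ (2N+1) = m ^ (2 j)`
  have hgood : ∀ j : ℤ, s ^ (2 * (N : ℤ) + 1) = m ^ (2 * j) →
      ∃ k : ℕ, 0 < k ∧ s ^ (2 * N + 1) = m ^ (2 * k) := by
    intro j hj
    have hs_lt : s ^ (2 * N + 1) < 1 := pow_lt_one₀ hs0.le hs1 (by omega)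
    have hcast : s ^ (2 * (N : ℤ) + 1) = s ^ (2 * N + 1) := by
      rw [show 2 * (N : ℤ) + 1 = ((2 * N + 1 : ℕ) : ℤ) by push_cast; ring, zpow_natCast]
    rcases le_or_gt j 0 with h | h
    · have := hm_pow_ge j h
      rw [← hj, hcast] at this
      exact absurd hs_lt (not_lt.mpr this)
    · refine ⟨j.toNat, by omega, ?_⟩
      rw [← hcast, hj]
      rw [show 2 * j = ((2 * j.toNat : ℕ) : ℤ) by push_cast; omega, zpow_natCast]
  obtain ⟨k1, h1 | h1⟩ := hN <;> obtain ⟨k2, h2 | h2⟩ := hN1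
  · -- s^N m^(2k1) = s^(N+1) m^(2k2)
    have := nf_eq_nf hs hm (h2.symm.trans h1)
    rw [show (N : ℤ) + 1 - N = 1 by ring, zpow_one,
      show 2 * k1 - 2 * k2 = 2 * (k1 - k2) by ring] at this
    exact absurd this (hbad _)
  · -- s^N m^(2k1) = s^(-(N+1)) m^(2k2)
    have := nf_eq_nf hs hm (h1.symm.trans h2)
    rw [show (N : ℤ) - -((N : ℤ) + 1) = 2 * N + 1 by ring,
      show 2 * k2 - 2 * k1 = 2 * (k2 - k1) by ring] at this
    exact hgood _ this
  · -- s^(-N) m^(2k1) = s^(N+1) m^(2k2)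
    have := nf_eq_nf hs hm (h2.symm.trans h1)
    rw [show (N : ℤ) + 1 - -(N : ℤ) = 2 * N + 1 by ring,
      show 2 * k1 - 2 * k2 = 2 * (k1 - k2) by ring] at this
    exact hgood _ this
  · -- s^(-N) m^(2k1) = s^(-(N+1)) m^(2k2)
    have := nf_eq_nf hs hm (h1.symm.trans h2)
    rw [show -(N : ℤ) - -((N : ℤ) + 1) = 1 by ring, zpow_one,
      show 2 * k2 - 2 * k1 = 2 * (k2 - k1) by ring] at this
    exact absurd this (hbad _)

end Fermat.Agent.S05
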