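import Mathlib
import Fermat.Prelude.Def_FLTPrelim_Ramification

/-!
# S05: basic facts on inertia elements of a valuation subring

`IsInertial A σ`: the ring automorphism `σ` of `K` stabilises the valuation subring `A`
and acts trivially on its residue field.  Every element of `A.inertiaSubgroupIn k` is inertial.
-/

namespace Fermat.Agent.S05

open ValuationSubring
open scoped Pointwise

variable {K : Type*} [Field K]

/-- `σ` stabilises `A` and acts trivially on the residue field of `A`. -/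
structure IsInertial (A : ValuationSubring K) (σ : K ≃+* K) : Prop where
  mem_iff : ∀ x, σ x ∈ A ↔ x ∈ A
  sub_mem : ∀ x, x ∈ A → σ x - x ∈ A.nonunits

variable {k : Type*} [Field k] [Algebra k K]

theorem isInertial_of_mem_inertiaSubgroupIn (A : ValuationSubring K) (σ : K ≃ₐ[k] K)
    (hσ : σ ∈ A.inertiaSubgroupIn k) : IsInertial A (σ : K ≃+* K) := by
  obtain ⟨τ, hτ, rfl⟩ := hσ
  have hA : (τ : K ≃ₐ[k] K) • A = A := τ.2
  have hmem : ∀ x, (τ : K ≃ₐ[k] K) x ∈ A ↔ x ∈ A := by
    intro x
    have := smul_mem_pointwise_smul_iff (g := (τ : K ≃ₐ[k] K)) (S := A) (x := x)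
    rw [hA] at this
    exact this
  refine ⟨fun x => hmem x, fun x hx => ?_⟩
  have h1 : τ ∈ MonoidHom.ker
      (MulSemiringAction.toRingAut (A.decompositionSubgroup k) (IsLocalRing.ResidueField A)) := hτ
  rw [MonoidHom.mem_ker] at h1
  have h2 := congrArg (fun f : RingAut (IsLocalRing.ResidueField A) =>
    f (IsLocalRing.residue A ⟨x, hx⟩)) h1
  simp only [MulSemiringAction.toRingAut_apply, RingAut.one_apply] at h2
  have h3 : (MulSemiringAction.toRingEquiv (A.decompositionSubgroup k) (IsLocalRing.ResidueField A) τ)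
      (IsLocalRing.residue A ⟨x, hx⟩) = IsLocalRing.residue A (τ • (⟨x, hx⟩ : A)) := rfl
  rw [h3] at h2
  have h4 : IsLocalRing.residue A (τ • (⟨x, hx⟩ : A) - ⟨x, hx⟩) = 0 := by
    rw [map_sub, h2, sub_self]
  rw [IsLocalRing.residue_eq_zero_iff] at h4
  have h5 : ((τ • (⟨x, hx⟩ : A) - ⟨x, hx⟩ : A) : K) ∈ A.nonunits :=
    coe_mem_nonunits_iff.mpr h4
  have h6 : ((τ • (⟨x, hx⟩ : A) : A) : K) = (τ : K ≃ₐ[k] K) x := rfl
  simpa [h6] using h5

end Fermat.Agent.S05
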