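import Mathlib

set_option autoImplicit false
set_option linter.unusedSectionVars false

/-!
x-coordinate laws for the group law of a general Weierstrass curve over a field:
`x(P+Q) + x(P-Q)`, `x(P+Q) * x(P-Q)`, the raw chord formula and the duplication formula,
all in terms of the `b`-invariants.  No variable change is needed.
-/

namespace Fermat.Agent.S05.XLaws

open WeierstrassCurve WeierstrassCurve.Affine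

variable {F : Type*} [Field F] [DecidableEq F] (W : WeierstrassCurve.Affine F)

/-- numerator of `x(P+Q) + x(P-Q)` -/
def xSumNum (x₁ x₂ : F) : F :=
  2 * x₁ * x₂ * (x₁ + x₂) + W.b₂ * x₁ * x₂ + W.b₄ * (x₁ + x₂) + W.b₆

/-- numerator of `x(P+Q) * x(P-Q)` -/
def xProdNum (x₁ x₂ : F) : F :=
  x₁ ^ 2 * x₂ ^ 2 - W.b₄ * x₁ * x₂ - W.b₆ * (x₁ + x₂) - W.b₈

/-- the two-division polynomial `4x^3 + b₂x^2 + 2b₄x + b₆` -/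
def xPsi2Sq (x : F) : F := 4 * x ^ 3 + W.b₂ * x ^ 2 + 2 * W.b₄ * x + W.b₆

/-- numerator of `x(2P)` -/
def xDblNum (x : F) : F := x ^ 4 - W.b₄ * x ^ 2 - 2 * W.b₆ * x - W.b₈

lemma addX_chord {x₁ x₂ : F} (n : F) (hx : x₁ ≠ x₂) :
    W.addX x₁ x₂ (n / (x₁ - x₂)) * (x₁ - x₂) ^ 2 =
      n ^ 2 + W.a₁ * n * (x₁ - x₂) - (W.a₂ + x₁ + x₂) * (x₁ - x₂) ^ 2 := by
  have hd : x₁ - x₂ ≠ 0 := sub_ne_zero.mpr hx
  simp only [addX]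
  field_simp
  ring

lemma psi2Sq_eq {x y : F} (h : W.Equation x y) :
    xPsi2Sq W x = (2 * y + W.a₁ * x + W.a₃) ^ 2 := by
  rw [equation_iff] at h
  simp only [xPsi2Sq, WeierstrassCurve.b₂, WeierstrassCurve.b₄, WeierstrassCurve.b₆]
  linear_combination (-4 : F) * h

lemma xSum_identity {x₁ y₁ x₂ y₂ : F} (h₁ : W.Equation x₁ y₁) (h₂ : W.Equation x₂ y₂) :
    ((y₁ - y₂) ^ 2 + W.a₁ * (y₁ - y₂) * (x₁ - x₂) - (W.a₂ + x₁ + x₂) * (x₁ - x₂) ^ 2) +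
    ((y₁ - W.negY x₂ y₂) ^ 2 + W.a₁ * (y₁ - W.negY x₂ y₂) * (x₁ - x₂) -
      (W.a₂ + x₁ + x₂) * (x₁ - x₂) ^ 2) = xSumNum W x₁ x₂ := by
  rw [equation_iff] at h₁ h₂
  simp only [xSumNum, negY, WeierstrassCurve.b₂, WeierstrassCurve.b₄, WeierstrassCurve.b₆]
  linear_combination (2 : F) * h₁ + (2 : F) * h₂

lemma xProd_identity {x₁ y₁ x₂ y₂ : F} (h₁ : W.Equation x₁ y₁) (h₂ : W.Equation x₂ y₂) :
    ((y₁ - y₂) ^ 2 + W.a₁ * (y₁ - y₂) * (x₁ - x₂) - (W.a₂ + x₁ + x₂) * (x₁ - x₂) ^ 2) *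
    ((y₁ - W.negY x₂ y₂) ^ 2 + W.a₁ * (y₁ - W.negY x₂ y₂) * (x₁ - x₂) -
      (W.a₂ + x₁ + x₂) * (x₁ - x₂) ^ 2) = xProdNum W x₁ x₂ * (x₁ - x₂) ^ 2 := by
  rw [equation_iff] at h₁ h₂
  simp only [xProdNum, negY, WeierstrassCurve.b₄, WeierstrassCurve.b₆, WeierstrassCurve.b₈]
  linear_combination
    (W.a₁ ^ 2 * x₁ * x₂ - W.a₁ ^ 2 * x₂ ^ 2 + W.a₁ * W.a₃ * x₁ - W.a₁ * W.a₃ * x₂ +
      W.a₁ * x₁ * y₁ - 2 * W.a₁ * x₂ * y₂ - W.a₂ * x₁ ^ 2 + 4 * W.a₂ * x₁ * x₂ -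
      2 * W.a₂ * x₂ ^ 2 + W.a₃ * y₁ - 2 * W.a₃ * y₂ + W.a₄ * x₁ + W.a₆ - x₁ ^ 3 +
      2 * x₁ ^ 2 * x₂ + 2 * x₁ * x₂ ^ 2 - 2 * x₂ ^ 3 + y₁ ^ 2 - 2 * y₂ ^ 2) * h₁ +
    (-W.a₁ ^ 2 * x₁ ^ 2 + W.a₁ ^ 2 * x₁ * x₂ - W.a₁ * W.a₃ * x₁ + W.a₁ * W.a₃ * x₂ +
      W.a₁ * x₂ * y₂ - 4 * W.a₂ * x₁ ^ 2 + 4 * W.a₂ * x₁ * x₂ - W.a₂ * x₂ ^ 2 + W.a₃ * y₂ -
      2 * W.a₄ * x₁ + W.a₄ * x₂ - W.a₆ - 4 * x₁ ^ 3 + 2 * x₁ ^ 2 * x₂ + 2 * x₁ * x₂ ^ 2 -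
      x₂ ^ 3 + y₂ ^ 2) * h₂

/-- **Addition and subtraction on x-coordinates.** For affine points `P = (x₁,y₁)`, `Q = (x₂,y₂)`
with `x₁ ≠ x₂`, both `P + Q` and `P - Q` are affine and their x-coordinates `x₃`, `x₄` satisfy the
classical formulas. -/
theorem add_sub_x {x₁ y₁ x₂ y₂ : F} (h₁ : W.Nonsingular x₁ y₁) (h₂ : W.Nonsingular x₂ y₂)
    (hx : x₁ ≠ x₂) :
    ∃ (x₃ y₃ x₄ y₄ : F) (h₃ : W.Nonsingular x₃ y₃) (h₄ : W.Nonsingular x₄ y₄),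
      Point.some x₁ y₁ h₁ + Point.some x₂ y₂ h₂ = Point.some x₃ y₃ h₃ ∧
      Point.some x₁ y₁ h₁ - Point.some x₂ y₂ h₂ = Point.some x₄ y₄ h₄ ∧
      x₃ * (x₁ - x₂) ^ 2 =
        (y₁ - y₂) ^ 2 + W.a₁ * (y₁ - y₂) * (x₁ - x₂) - (W.a₂ + x₁ + x₂) * (x₁ - x₂) ^ 2 ∧
      x₄ * (x₁ - x₂) ^ 2 =
        (y₁ - W.negY x₂ y₂) ^ 2 + W.a₁ * (y₁ - W.negY x₂ y₂) * (x₁ - x₂) -
          (W.a₂ + x₁ + x₂) * (x₁ - x₂) ^ 2 ∧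
      (x₃ + x₄) * (x₁ - x₂) ^ 2 = xSumNum W x₁ x₂ ∧
      x₃ * x₄ * (x₁ - x₂) ^ 2 = xProdNum W x₁ x₂ := by
  have hd : x₁ - x₂ ≠ 0 := sub_ne_zero.mpr hx
  have h₂' : W.Nonsingular x₂ (W.negY x₂ y₂) := (nonsingular_neg ..).mpr h₂
  have e3 : W.addX x₁ x₂ (W.slope x₁ x₂ y₁ y₂) * (x₁ - x₂) ^ 2 =
      (y₁ - y₂) ^ 2 + W.a₁ * (y₁ - y₂) * (x₁ - x₂) - (W.a₂ + x₁ + x₂) * (x₁ - x₂) ^ 2 := by
    rw [slope_of_X_ne hx]; exact addX_chord W _ hx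
  have e4 : W.addX x₁ x₂ (W.slope x₁ x₂ y₁ (W.negY x₂ y₂)) * (x₁ - x₂) ^ 2 =
      (y₁ - W.negY x₂ y₂) ^ 2 + W.a₁ * (y₁ - W.negY x₂ y₂) * (x₁ - x₂) -
        (W.a₂ + x₁ + x₂) * (x₁ - x₂) ^ 2 := by
    rw [slope_of_X_ne hx]; exact addX_chord W _ hx
  refine ⟨_, _, _, _, nonsingular_add h₁ h₂ fun hxy => hx hxy.left,
    nonsingular_add h₁ h₂' fun hxy => hx hxy.left, Point.add_of_X_ne hx, ?_, e3, e4, ?_, ?_⟩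
  · rw [sub_eq_add_neg, Point.neg_some, Point.add_of_X_ne hx]
  · rw [add_mul, e3, e4]
    exact xSum_identity W h₁.1 h₂.1
  · have hsq : (x₁ - x₂) ^ 2 ≠ 0 := pow_ne_zero 2 hd
    apply mul_right_cancel₀ hsq
    have := xProd_identity W h₁.1 h₂.1
    rw [← e3, ← e4] at this
    linear_combination this

lemma addX_tangent {x₁ : F} (n d : F) (hd : d ≠ 0) :
    W.addX x₁ x₁ (n / d) * d ^ 2 = n ^ 2 + W.a₁ * n * d - (W.a₂ + x₁ + x₁) * d ^ 2 := by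
  simp only [addX]
  field_simp
  ring

lemma xDbl_identity {x₁ y₁ : F} (h₁ : W.Equation x₁ y₁) :
    (3 * x₁ ^ 2 + 2 * W.a₂ * x₁ + W.a₄ - W.a₁ * y₁) ^ 2 +
      W.a₁ * (3 * x₁ ^ 2 + 2 * W.a₂ * x₁ + W.a₄ - W.a₁ * y₁) * (y₁ - W.negY x₁ y₁) -
      (W.a₂ + x₁ + x₁) * (y₁ - W.negY x₁ y₁) ^ 2 = xDblNum W x₁ := by
  rw [equation_iff] at h₁
  simp only [xDblNum, negY, WeierstrassCurve.b₄, WeierstrassCurve.b₆, WeierstrassCurve.b₈]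
  linear_combination (-(W.a₁ ^ 2) - 4 * W.a₂ - 8 * x₁) * h₁

/-- **Duplication on x-coordinates.** -/
theorem dbl_x {x₁ y₁ : F} (h₁ : W.Nonsingular x₁ y₁) (hy : y₁ ≠ W.negY x₁ y₁) :
    ∃ (x₅ y₅ : F) (h₅ : W.Nonsingular x₅ y₅),
      Point.some x₁ y₁ h₁ + Point.some x₁ y₁ h₁ = Point.some x₅ y₅ h₅ ∧
      x₅ * xPsi2Sq W x₁ = xDblNum W x₁ := by
  have hd : y₁ - W.negY x₁ y₁ ≠ 0 := sub_ne_zero.mpr hy
  refine ⟨_, _, nonsingular_add h₁ h₁ fun hxy => hy hxy.right, Point.add_self_of_Y_ne hy, ?_⟩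
  have hpsi : xPsi2Sq W x₁ = (y₁ - W.negY x₁ y₁) ^ 2 := by
    rw [psi2Sq_eq W h₁.1]; simp only [negY]; ring
  rw [slope_of_Y_ne rfl hy, hpsi, addX_tangent W _ _ hd]
  exact xDbl_identity W h₁.1

/-- `P + P = 0` iff `ψ₂(P) = 0`. -/
theorem add_self_eq_zero_iff {x₁ y₁ : F} (h₁ : W.Nonsingular x₁ y₁) :
    Point.some x₁ y₁ h₁ + Point.some x₁ y₁ h₁ = 0 ↔ xPsi2Sq W x₁ = 0 := by
  rw [psi2Sq_eq W h₁.1]
  constructor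
  · intro h
    by_contra hne
    have hy : y₁ ≠ W.negY x₁ y₁ := by
      intro h0; apply hne
      have : 2 * y₁ + W.a₁ * x₁ + W.a₃ = 0 := by
        simp only [negY] at h0; linear_combination h0
      rw [this]; ring
    rw [Point.add_self_of_Y_ne hy] at h
    exact Point.some_ne_zero _ h
  · intro h
    have h0 : 2 * y₁ + W.a₁ * x₁ + W.a₃ = 0 := by simpa using h
    exact Point.add_self_of_Y_eq (by simp only [negY]; linear_combination h0)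

end Fermat.Agent.S05.XLaws
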